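import Fermat.Agent.S16.SmallBound
import Fermat.Agent.ES.Final
import Fermat.Agent.ES.Orbits

/-!
# S16 LB5b: homs killing small-trace elements lift to integral parabolic homs
-/

set_option autoImplicit false
set_option linter.style.haveILetI false

namespace Fermat.Agent.S16

open CongruenceSubgroup Matrix.SpecialLinearGroup ModularCurve.Period
open scoped MatrixGroups DirectSum



theorem lift_linInd_of_dual {k X κ : Type} [Field k] [AddCommGroup X] [Fintype κ] [DecidableEq κ]
    (f : κ → (X →+ k)) (x : κ → X) (h : ∀ i j, f i (x j) = if i = j then 1 else 0) :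
    LinearIndependent k f := by
  rw [Fintype.linearIndependent_iff]
  intro g hg j
  have h1 := congrArg (fun F : X →+ k => F (x j)) hg
  simp only [AddMonoidHom.finsetSum_apply, AddMonoidHom.smul_apply, h, AddMonoidHom.zero_apply,
    smul_eq_mul, mul_ite, mul_one, mul_zero, Finset.sum_ite_eq', Finset.mem_univ, if_true] at h1
  exact h1

theorem lift_abstract (X : Type) [AddCommGroup X] [AddGroup.FG X] (r : ℕ)
    (hC : ∀ (n : ℕ) (x : Fin n → X), (∀ f : X →+ ℂ, (∀ j, f (x j) = 0) → f = 0) → r ≤ n)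
    (hl : ∀ (l : ℕ) [Fact l.Prime] (κ : Type) [Fintype κ] (f : κ → (X →+ ZMod l)),
      LinearIndependent (ZMod l) f → Fintype.card κ ≤ r)
    {A : Type} [AddCommGroup A] (μ : X →+ A) (a : A)
    (hμ : ∀ x, μ x ∈ AddSubgroup.zmultiples a) :
    ∃ φ : X →+ ℤ, ∀ x, μ x = φ x • a := by
  classical
  obtain ⟨n, ι, _, p, hp, e, ⟨E⟩⟩ := AddCommGroup.equiv_free_prod_directSum_zmod X
  -- the free part
  obtain ⟨i1, hi1E⟩ : ∃ i1 : (Fin n →₀ ℤ) →+ X, ∀ v, E (i1 v) = (v, 0) :=
    ⟨E.symm.toAddMonoidHom.comp (AddMonoidHom.inl _ _), fun v => by simp⟩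
  obtain ⟨i2, hi2E⟩ : ∃ i2 : (⨁ i : ι, ZMod (p i ^ e i)) →+ X, ∀ t, E (i2 t) = (0, t) :=
    ⟨E.symm.toAddMonoidHom.comp (AddMonoidHom.inr _ _), fun v => by simp⟩
  have hdec : ∀ x : X, x = i1 (E x).1 + i2 (E x).2 := by
    intro x
    apply E.injective
    rw [map_add, hi1E, hi2E]
    simp
  have hi1 : ∀ (B : Type) [AddCommGroup B] (f g : X →+ B),
      (∀ j, f (i1 (Finsupp.single j 1)) = g (i1 (Finsupp.single j 1))) →
        ∀ v, f (i1 v) = g (i1 v) := by
    intro B _ f g hfg v
    have : (f.comp i1) = (g.comp i1) := by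
      apply Finsupp.addHom_ext
      intro j z
      have hz : (Finsupp.single j z : Fin n →₀ ℤ) = z • Finsupp.single j 1 := by
        rw [Finsupp.smul_single, smul_eq_mul, mul_one]
      rw [hz, map_zsmul, map_zsmul, AddMonoidHom.comp_apply, AddMonoidHom.comp_apply, hfg j]
    exact congrArg (fun F : (Fin n →₀ ℤ) →+ B => F v) this
  -- Step 1
  have h1 : r ≤ n := by
    apply hC n (fun j => i1 (Finsupp.single j 1))
    intro f hf
    ext x
    rw [hdec x, map_add, hi1 ℂ f 0 (fun j => by simpa using hf j), AddMonoidHom.zero_apply, zero_add,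
      AddMonoidHom.zero_apply]
    have : f.comp i2 = 0 := by
      apply DirectSum.addHom_ext
      intro i y
      have hy : (p i ^ e i) • (DirectSum.of (fun i => ZMod (p i ^ e i)) i y) = 0 := by
        rw [← map_nsmul]
        have : (p i ^ e i) • y = 0 := by
          rw [nsmul_eq_mul, ZMod.natCast_self, zero_mul]
        rw [this, map_zero]
      have h2 := congrArg (f.comp i2) hy
      rw [map_nsmul, map_zero, nsmul_eq_mul] at h2
      have h3 : ((p i ^ e i : ℕ) : ℂ) ≠ 0 := by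
        exact_mod_cast pow_ne_zero _ (hp i).ne_zero
      exact (mul_eq_zero.1 h2).resolve_left h3
    exact congrArg (fun F : (⨁ i : ι, ZMod (p i ^ e i)) →+ ℂ => F (E x).2) this
  -- Step 2
  have h2 : ∀ i, e i = 0 := by
    intro i0
    by_contra he
    haveI : Fact (p i0).Prime := ⟨hp i0⟩
    obtain ⟨f0, hf0⟩ : ∃ f0 : X →+ ZMod (p i0), ∀ x,
        f0 x = ZMod.castHom (dvd_pow_self (p i0) he) (ZMod (p i0)) ((E x).2 i0) :=
      ⟨(ZMod.castHom (dvd_pow_self (p i0) he) (ZMod (p i0))).toAddMonoidHom.comp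
        ((DFinsupp.evalAddMonoidHom i0).comp ((AddMonoidHom.snd _ _).comp E.toAddMonoidHom)),
        fun x => rfl⟩
    obtain ⟨fj, hfj⟩ : ∃ fj : Fin n → (X →+ ZMod (p i0)), ∀ j x,
        fj j x = (((E x).1 j : ℤ) : ZMod (p i0)) :=
      ⟨fun j => (Int.castAddHom (ZMod (p i0))).comp
        ((Finsupp.applyAddHom j).comp ((AddMonoidHom.fst _ _).comp E.toAddMonoidHom)),
        fun j x => rfl⟩
    have hlin : LinearIndependent (ZMod (p i0)) (fun o : Option (Fin n) => o.elim f0 fj) := by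
      apply lift_linInd_of_dual _ (fun o : Option (Fin n) =>
        o.elim (i2 (DirectSum.of (fun i => ZMod (p i ^ e i)) i0 1))
          (fun j => i1 (Finsupp.single j 1)))
      intro i j
      rcases i with _ | i <;> rcases j with _ | j
      · simp only [Option.elim_none, hf0, hi2E, DirectSum.of_eq_same, map_one, if_true]
      · simp [hf0, hi1E]
      · simp [hfj, hi2E]
      · simp [hfj, hi1E, Finsupp.single_apply, eq_comm]
    have := hl (p i0) _ _ hlin
    rw [Fintype.card_option, Fintype.card_fin] at this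
    omega
  -- Step 3
  have hc : ∀ j, ∃ c : ℤ, c • a = μ (i1 (Finsupp.single j 1)) := fun j =>
    AddSubgroup.mem_zmultiples_iff.1 (hμ _)
  choose c hc using hc
  obtain ⟨φ, hφ⟩ : ∃ φ : X →+ ℤ, ∀ x, φ x = Finsupp.linearCombination ℤ c (E x).1 :=
    ⟨((Finsupp.linearCombination ℤ c).toAddMonoidHom).comp
      ((AddMonoidHom.fst _ _).comp E.toAddMonoidHom), fun x => rfl⟩
  refine ⟨φ, ?_⟩
  have ht : ∀ t : (⨁ i : ι, ZMod (p i ^ e i)), t = 0 := by
    intro t
    apply DFinsupp.ext
    intro i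
    haveI : Subsingleton (ZMod (p i ^ e i)) := by
      rw [ZMod.subsingleton_iff, h2 i, pow_zero]
    exact Subsingleton.elim _ _
  intro x
  have h3 := hi1 A μ ((zmultiplesHom A a).comp φ) ?_ (E x).1
  · have h4 : x = i1 (E x).1 := by
      conv_lhs => rw [hdec x, ht (E x).2, map_zero, add_zero]
    rw [← h4] at h3
    rw [h3, AddMonoidHom.comp_apply, zmultiplesHom_apply]
  · intro j
    rw [AddMonoidHom.comp_apply, zmultiplesHom_apply, hφ, hi1E, Finsupp.linearCombination_single,
      one_smul, hc]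




/-- the subgroup generated by the classes of the small-trace elements. -/
def liftSmallSub (N : ℕ) : AddSubgroup (Additive (Abelianization (Gamma0 N))) :=
  AddSubgroup.closure {x | ∃ γ : Gamma0 N, SmallTrace (γ : SL(2, ℤ)) ∧
    x = Additive.ofMul (Abelianization.of γ)}

/-- `Γ₀(N)^ab` modulo small-trace elements. -/
abbrev LiftX (N : ℕ) : Type := Additive (Abelianization (Gamma0 N)) ⧸ liftSmallSub N

/-- the canonical map. -/
def liftQ (N : ℕ) : Additive (Gamma0 N) →+ LiftX N :=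
  (QuotientAddGroup.mk' (liftSmallSub N)).comp (MonoidHom.toAdditive Abelianization.of)

theorem liftQ_surjective (N : ℕ) : Function.Surjective (liftQ N) := by
  intro x
  obtain ⟨y, rfl⟩ := QuotientAddGroup.mk'_surjective _ x
  obtain ⟨γ, hγ⟩ := QuotientGroup.mk'_surjective _ (Additive.toMul y)
  refine ⟨Additive.ofMul γ, ?_⟩
  have hy : y = Additive.ofMul (Abelianization.of γ) := by
    rw [← ofMul_toMul y]
    exact congrArg Additive.ofMul hγ.symm
  rw [hy]
  rfl

theorem liftQ_small (N : ℕ) (γ : Gamma0 N) (h : SmallTrace (γ : SL(2, ℤ))) :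
    liftQ N (Additive.ofMul γ) = 0 := by
  show QuotientAddGroup.mk' (liftSmallSub N) (Additive.ofMul (Abelianization.of γ)) = 0
  rw [QuotientAddGroup.mk'_apply, QuotientAddGroup.eq_zero_iff]
  exact AddSubgroup.subset_closure ⟨γ, h, rfl⟩

theorem liftQ_factor (N : ℕ) {A : Type} [AddCommGroup A] (φ : Additive (Gamma0 N) →+ A)
    (h : ∀ γ : Gamma0 N, SmallTrace (γ : SL(2, ℤ)) → φ (Additive.ofMul γ) = 0) :
    ∃ ψ : LiftX N →+ A, ∀ γ, ψ (liftQ N γ) = φ γ := by
  let φ1 : Additive (Abelianization (Gamma0 N)) →+ A :=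
    MonoidHom.toAdditiveLeft (Abelianization.lift (AddMonoidHom.toMultiplicativeRight φ))
  have hφ1 : ∀ γ : Gamma0 N, φ1 (Additive.ofMul (Abelianization.of γ)) = φ (Additive.ofMul γ) := by
    intro γ
    show Multiplicative.toAdd (Abelianization.lift (AddMonoidHom.toMultiplicativeRight φ)
      (Abelianization.of γ)) = _
    rw [Abelianization.lift_apply_of]
    rfl
  have hker : ∀ x ∈ liftSmallSub N, φ1 x = 0 := by
    intro x hx
    have : liftSmallSub N ≤ φ1.ker := by
      unfold liftSmallSub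
      rw [AddSubgroup.closure_le]
      rintro _ ⟨γ, hγ, rfl⟩
      show φ1 _ = 0
      rw [hφ1, h γ hγ]
    exact this hx
  refine ⟨QuotientAddGroup.lift (liftSmallSub N) φ1 hker, fun γ => ?_⟩
  show φ1 (Additive.ofMul (Abelianization.of (Additive.toMul γ))) = φ γ
  rw [hφ1]
  rfl

instance lift_fg_SL2Z : Group.FG SL(2, ℤ) :=
  Group.fg_iff.2 ⟨{ModularGroup.S, ModularGroup.T}, SpecialLinearGroup.SL2Z_generators,
    by simp⟩

instance lift_fg_X (N : ℕ) [NeZero N] : AddGroup.FG (LiftX N) :=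
  AddGroup.fg_of_surjective (liftQ_surjective N)




theorem lift_cayley (γ : SL(2, ℤ)) :
    (γ : Matrix (Fin 2) (Fin 2) ℤ) * (γ : Matrix (Fin 2) (Fin 2) ℤ) =
      (γ : Matrix (Fin 2) (Fin 2) ℤ).trace • (γ : Matrix (Fin 2) (Fin 2) ℤ) - 1 := by
  have hdet := γ.det_coe
  rw [Matrix.det_fin_two] at hdet
  ext i j
  simp only [Matrix.mul_apply, Fin.sum_univ_two, Matrix.trace_fin_two, Matrix.sub_apply,
    Matrix.smul_apply, smul_eq_mul]
  fin_cases i <;> fin_cases j
  · simp only [Fin.zero_eta, Matrix.one_apply_eq]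
    linear_combination -hdet
  · simp only [Fin.zero_eta, Fin.mk_one, ne_eq, zero_ne_one, not_false_eq_true,
      Matrix.one_apply_ne]
    ring
  · simp only [Fin.zero_eta, Fin.mk_one, ne_eq, one_ne_zero, not_false_eq_true,
      Matrix.one_apply_ne]
    ring
  · simp only [Fin.mk_one, Matrix.one_apply_eq]
    linear_combination -hdet

theorem lift_pow_twelve (γ : SL(2, ℤ)) (h : SmallTrace γ)
    (h4 : (γ : Matrix (Fin 2) (Fin 2) ℤ).trace ^ 2 ≠ 4) : γ ^ 12 = 1 := by
  have hCH := lift_cayley γ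
  unfold SmallTrace at h
  generalize (γ : Matrix (Fin 2) (Fin 2) ℤ).trace = t at *
  have ht1 : -2 ≤ t := by nlinarith
  have ht2 : t ≤ 2 := by nlinarith
  apply Subtype.ext
  rw [Matrix.SpecialLinearGroup.coe_pow, Matrix.SpecialLinearGroup.coe_one]
  generalize (γ : Matrix (Fin 2) (Fin 2) ℤ) = M at *
  interval_cases t
  · exact absurd (by norm_num) h4
  · have hCH' : M * M = -M - 1 := by rw [hCH]; simp
    have h3 : M ^ 3 = 1 := by
      rw [pow_succ, pow_two, hCH']
      have : (-M - 1) * M = -(M * M) - M := by noncomm_ring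
      rw [this, hCH']
      noncomm_ring
    rw [show 12 = 3 * 4 from rfl, pow_mul, h3, one_pow]
  · have h2 : M ^ 2 = -1 := by
      rw [pow_two, hCH]
      simp
    rw [show 12 = 2 * 6 from rfl, pow_mul, h2]
    exact Even.neg_one_pow (by decide)
  · have hCH' : M * M = M - 1 := by rw [hCH]; simp
    have h3 : M ^ 3 = -1 := by
      rw [pow_succ, pow_two, hCH']
      have : (M - 1) * M = (M * M) - M := by noncomm_ring
      rw [this, hCH']
      noncomm_ring
    rw [show 12 = 3 * 4 from rfl, pow_mul, h3]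
    exact Even.neg_one_pow (by decide)
  · exact absurd (by norm_num) h4


theorem lift_small_of_parabolic (N : ℕ) (φ : Additive (Gamma0 N) →+ ℂ)
    (h : IsParabolicHom (Gamma0 N) φ) (γ : Gamma0 N) (hγ : SmallTrace (γ : SL(2, ℤ))) :
    φ (Additive.ofMul γ) = 0 := by
  by_cases h4 : ((γ : SL(2, ℤ)) : Matrix (Fin 2) (Fin 2) ℤ).trace ^ 2 = 4
  · exact h γ h4
  · have h12 : γ ^ 12 = 1 := Subtype.ext (by simpa using lift_pow_twelve γ hγ h4)
    have h0 : 12 • φ (Additive.ofMul γ) = 0 := by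
      rw [← map_nsmul, ← ofMul_pow, h12, ofMul_one, map_zero]
    simpa using h0

theorem exists_int_lift (N : ℕ) [NeZero N] {A : Type} [AddCommGroup A]
    (μ : Additive (Gamma0 N) →+ A) (a : A) (hμa : ∀ γ, μ γ ∈ AddSubgroup.zmultiples a)
    (hsmall : ∀ γ : Gamma0 N, SmallTrace (γ : SL(2, ℤ)) → μ (Additive.ofMul γ) = 0) :
    ∃ φ : Additive (Gamma0 N) →+ ℤ, IsParabolicHom (Gamma0 N) φ ∧ ∀ γ, μ γ = φ γ • a := by
  obtain ⟨μ', hμ'⟩ := liftQ_factor N μ hsmall
  obtain ⟨hfin1, hfinP, hdim, hsum⟩ := ES.dims N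
  have hC : ∀ (n : ℕ) (x : Fin n → LiftX N),
      (∀ f : LiftX N →+ ℂ, (∀ j, f (x j) = 0) → f = 0) →
        Module.finrank ℂ (parabolicHoms ℂ (Gamma0 N) ℂ) ≤ n := by
    intro n x hx
    choose g hg using fun j => liftQ_surjective N (x j)
    let ev : parabolicHoms ℂ (Gamma0 N) ℂ →ₗ[ℂ] (Fin n → ℂ) :=
      { toFun := fun φ j => φ.1 (g j)
        map_add' := fun _ _ => rfl
        map_smul' := fun _ _ => rfl }
    have hev : Function.Injective ev := by
      rw [injective_iff_map_eq_zero]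
      intro φ hφ
      obtain ⟨ψ, hψ⟩ := liftQ_factor N φ.1 (lift_small_of_parabolic N φ.1 φ.2)
      have hψ0 : ψ = 0 := by
        apply hx
        intro j
        rw [← hg j, hψ]
        exact congrFun hφ j
      apply Subtype.ext
      refine DFunLike.ext _ _ fun γ => ?_
      rw [← hψ, hψ0]
      rfl
    have := LinearMap.finrank_le_finrank_of_injective hev
    rwa [Module.finrank_fin_fun] at this
  have hl : ∀ (l : ℕ) [Fact l.Prime] (κ : Type) [Fintype κ] (f : κ → (LiftX N →+ ZMod l)),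
      LinearIndependent (ZMod l) f →
        Fintype.card κ ≤ Module.finrank ℂ (parabolicHoms ℂ (Gamma0 N) ℂ) := by
    intro l _ κ _ f hf
    obtain ⟨hfin, hle⟩ := finrank_smallHoms_le (ZMod l) (Gamma0 N) (ES.neg_one_mem_Gamma0 N)
    let pre : (LiftX N →+ ZMod l) →ₗ[ZMod l] smallHoms (ZMod l) (Gamma0 N) :=
      { toFun := fun f => ⟨f.comp (liftQ N), fun γ hγ => by
          show f (liftQ N _) = 0
          rw [liftQ_small N γ hγ, map_zero]⟩
        map_add' := fun _ _ => rfl
        map_smul' := fun _ _ => rfl }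
    have hpre : Function.Injective pre := by
      intro f1 f2 h12
      refine DFunLike.ext _ _ fun x => ?_
      obtain ⟨γ, rfl⟩ := liftQ_surjective N x
      exact congrArg (fun F : smallHoms (ZMod l) (Gamma0 N) => F.1 γ) h12
    have h1 := (hf.map' pre (LinearMap.ker_eq_bot.2 hpre)).fintype_card_le_finrank
    have hle' : Module.finrank (ZMod l) (smallHoms (ZMod l) (Gamma0 N))
        + ES.fixDim (SL(2, ℤ) ⧸ Gamma0 N) ModularGroup.S
        + ES.fixDim (SL(2, ℤ) ⧸ Gamma0 N) (ModularGroup.S * ModularGroup.T)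
        + ES.fixDim (SL(2, ℤ) ⧸ Gamma0 N) ModularGroup.T ≤ (Gamma0 N).index + 2 := by
      rw [ES.fixDim_eq_card_orbits, ES.fixDim_eq_card_orbits, ES.fixDim_eq_card_orbits]
      exact hle
    omega
  obtain ⟨φ, hφ⟩ := lift_abstract (LiftX N) _ hC hl μ' a (by
    intro x
    obtain ⟨γ, rfl⟩ := liftQ_surjective N x
    rw [hμ']
    exact hμa γ)
  refine ⟨φ.comp (liftQ N), ?_, ?_⟩
  · intro γ hγ
    show φ (liftQ N (Additive.ofMul γ)) = 0
    rw [liftQ_small N γ (by unfold SmallTrace; rw [hγ]), map_zero]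
  · intro γ
    rw [← hμ', hφ]
    rfl

end Fermat.Agent.S16
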