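import Fermat.Agent.S16.LBDefs
import Fermat.Prelude.Sol.S_ModularForm_heckeT_slash_eq_self_of_mem_Gamma0

/-!
# S16 LB1: Hecke coset combinatorics and Hecke operators on functions `Gamma0 N → A`
-/

set_option autoImplicit false

namespace Fermat.Agent.S16

open CongruenceSubgroup Matrix.SpecialLinearGroup ModularForm
open scoped MatrixGroups

theorem hRep_entries (ℓ : ℕ) (hℓ : ℓ ≠ 0) (x : Option (Fin ℓ)) :
    ((hRep ℓ x : GL (Fin 2) ℝ) : Matrix (Fin 2) (Fin 2) ℝ) =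
      match x with
      | some j => !![(1 : ℝ), ((j : ℕ) : ℝ); 0, (ℓ : ℝ)]
      | none => !![(ℓ : ℝ), 0; 0, 1] := by
  cases x with
  | some j => simp [hRep, hℓ]
  | none => simp [hRep, hℓ]

theorem sl2_eq_one_of_entries (δ : SL(2, ℤ)) (h00 : δ 0 0 = 1) (h01 : δ 0 1 = 0)
    (h10 : δ 1 0 = 0) (h11 : δ 1 1 = 1) : δ = 1 := by
  ext i j
  fin_cases i <;> fin_cases j <;> simp [h00, h01, h10, h11]

/-- uniqueness of the index of a coset. -/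
theorem hRep_index_unique' {ℓ : ℕ} (hℓ : ℓ.Prime) (δ : SL(2, ℤ)) (x y : Option (Fin ℓ))
    (h : hRep ℓ x = mapGL ℝ δ * hRep ℓ y) : x = y ∧ δ = 1 := by
  have hℓ0 : ℓ ≠ 0 := hℓ.ne_zero
  have hℓ2 := hℓ.two_le
  have hℓ2' : (2 : ℤ) ≤ (ℓ : ℤ) := by exact_mod_cast hℓ2
  have hM : ((hRep ℓ x : GL (Fin 2) ℝ) : Matrix (Fin 2) (Fin 2) ℝ) =
      ((mapGL ℝ δ : GL (Fin 2) ℝ) : Matrix (Fin 2) (Fin 2) ℝ) * (hRep ℓ y : GL (Fin 2) ℝ) := by
    rw [h]; rfl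
  have hdet := δ.det_coe
  rw [Matrix.det_fin_two] at hdet
  have e00 := congrFun (congrFun hM 0) 0
  have e01 := congrFun (congrFun hM 0) 1
  have e10 := congrFun (congrFun hM 1) 0
  have e11 := congrFun (congrFun hM 1) 1
  rw [hRep_entries ℓ hℓ0, hRep_entries ℓ hℓ0] at e00 e01 e10 e11
  cases x with
  | some j =>
    cases y with
    | some j' =>
      simp [Matrix.mul_apply, Fin.sum_univ_two] at e00 e01 e10 e11
      have f00 : (1 : ℤ) = δ 0 0 := by exact_mod_cast e00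
      have f01 : ((j : ℕ) : ℤ) = δ 0 0 * ((j' : ℕ) : ℤ) + δ 0 1 * (ℓ : ℤ) := by exact_mod_cast e01
      have f10 : (0 : ℤ) = δ 1 0 := by exact_mod_cast e10
      rw [← f00, ← f10] at hdet
      rw [← f00] at f01
      have f11 : δ 1 1 = 1 := by linarith
      have hj := j.2
      have hj' := j'.2
      have hb : δ 0 1 = 0 := by
        by_contra hb
        rcases lt_or_gt_of_ne hb with hb | hb
        · have : δ 0 1 * (ℓ : ℤ) ≤ -1 * ℓ := by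
            apply mul_le_mul_of_nonneg_right (by omega) (by omega)
          omega
        · have : 1 * (ℓ : ℤ) ≤ δ 0 1 * (ℓ : ℤ) := by
            apply mul_le_mul_of_nonneg_right (by omega) (by omega)
          omega
      rw [hb] at f01
      refine ⟨?_, sl2_eq_one_of_entries δ f00.symm hb f10.symm f11⟩
      congr 1
      ext
      omega
    | none =>
      simp [Matrix.mul_apply, Fin.sum_univ_two] at e00 e01 e10 e11
      exfalso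
      have f00 : (1 : ℤ) = δ 0 0 * (ℓ : ℤ) := by exact_mod_cast e00
      have : (ℓ : ℤ) ∣ 1 := ⟨δ 0 0, by linarith⟩
      have := Int.le_of_dvd one_pos this
      omega
  | none =>
    cases y with
    | some j' =>
      simp [Matrix.mul_apply, Fin.sum_univ_two] at e00 e01 e10 e11
      exfalso
      have f10 : (0 : ℤ) = δ 1 0 := by exact_mod_cast e10
      have f11 : (1 : ℤ) = δ 1 0 * ((j' : ℕ) : ℤ) + δ 1 1 * (ℓ : ℤ) := by exact_mod_cast e11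
      rw [← f10] at f11
      have : (ℓ : ℤ) ∣ 1 := ⟨δ 1 1, by linarith⟩
      have := Int.le_of_dvd one_pos this
      omega
    | none =>
      simp [Matrix.mul_apply, Fin.sum_univ_two] at e00 e01 e10 e11
      refine ⟨rfl, ?_⟩
      have f01 : (0 : ℤ) = δ 0 1 := by exact_mod_cast e01
      have f11 : (1 : ℤ) = δ 1 1 := by exact_mod_cast e11
      have f10 : δ 1 0 = 0 := e10.resolve_right hℓ0
      rw [← f01, ← f11] at hdet
      exact sl2_eq_one_of_entries δ (by linarith) f01.symm f10 f11.symm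

open P2MW.S_ModularForm_heckeT_slash_eq_self_of_mem_Gamma0.ModularForm.HeckeSlashInvariance in
theorem exists_hecke_step (N : ℕ) {ℓ : ℕ} (hℓ : ℓ.Prime) (γ : Gamma0 N) (x : HIdx N ℓ) :
    ∃ (y : HIdx N ℓ) (κ : Gamma0 N),
      hRep ℓ x.1 * mapGL ℝ (γ : SL(2, ℤ)) = mapGL ℝ (κ : SL(2, ℤ)) * hRep ℓ y.1 := by
  have : Fact ℓ.Prime := ⟨hℓ⟩
  have : NeZero ℓ := ⟨hℓ.ne_zero⟩
  have hcN : (N : ℤ) ∣ (γ : SL(2, ℤ)) 1 0 :=
    (ZMod.intCast_zmod_eq_zero_iff_dvd _ _).mp (Gamma0_mem.mp γ.2)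
  have mem_of : ∀ g' : SL(2, ℤ), (N : ℤ) ∣ g' 1 0 → g' ∈ Gamma0 N := fun g' h =>
    Gamma0_mem.mpr ((ZMod.intCast_zmod_eq_zero_iff_dvd _ _).mpr h)
  by_cases hN : ℓ ∣ N
  · obtain ⟨x, hx⟩ := x
    cases x with
    | none => exact absurd hN (hx rfl)
    | some j =>
      have hc : (ℓ : ℤ) ∣ (γ : SL(2, ℤ)) 1 0 := (Int.natCast_dvd_natCast.mpr hN).trans hcN
      obtain ⟨g', hg', hmul⟩ := heckeMatrix_mul_of_dvd (γ : SL(2, ℤ)) hc ((j : ℕ) : ZMod ℓ)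
      rw [ZMod.val_natCast_of_lt j.2] at hmul
      refine ⟨⟨some ⟨_, ZMod.val_lt _⟩, by simp⟩, ⟨g', mem_of g' ?_⟩, hmul⟩
      rw [hg']
      exact Dvd.dvd.mul_left hcN _
  · have key : ∀ z : OnePoint (ZMod ℓ), ∃ y : HIdx N ℓ, hRep ℓ y.1 = heckeRep ℓ z := by
      intro z
      induction z using OnePoint.rec with
      | infty => exact ⟨⟨none, fun _ => hN⟩, rfl⟩
      | coe j => exact ⟨⟨some ⟨j.val, ZMod.val_lt _⟩, by simp⟩, rfl⟩
    have key2 : ∃ z : OnePoint (ZMod ℓ), hRep ℓ x.1 = heckeRep ℓ z := by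
      obtain ⟨x, hx⟩ := x
      cases x with
      | none => exact ⟨OnePoint.infty, rfl⟩
      | some j =>
        refine ⟨(((j : ℕ) : ZMod ℓ) : OnePoint (ZMod ℓ)), ?_⟩
        rw [heckeRep_coe, ZMod.val_natCast_of_lt j.2]
        rfl
    obtain ⟨z, hz⟩ := key2
    obtain ⟨g', hg', hmul⟩ := heckeRep_mul hN (γ : SL(2, ℤ)) hcN z
    obtain ⟨y, hy⟩ := key (redMatrix ℓ (γ : SL(2, ℤ)) • z)
    exact ⟨y, ⟨g', mem_of g' hg'⟩, by rw [hz, hy]; exact hmul⟩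

/-- uniqueness of the index of a coset. -/
theorem hRep_index_unique (N : ℕ) {ℓ : ℕ} (hℓ : ℓ.Prime) (δ : SL(2, ℤ)) (x y : HIdx N ℓ)
    (h : hRep ℓ x.1 = mapGL ℝ δ * hRep ℓ y.1) : x = y ∧ δ = 1 := by
  obtain ⟨h1, h2⟩ := hRep_index_unique' hℓ δ x.1 y.1 h
  exact ⟨Subtype.ext h1, h2⟩

/-- right multiplication by `γ ∈ Γ₀(N)` permutes the cosets `Γ₀(N) β_x`. -/
theorem exists_hecke_comm (N : ℕ) {ℓ : ℕ} (hℓ : ℓ.Prime) (γ : Gamma0 N) :
    ∃ (σ : Equiv.Perm (HIdx N ℓ)) (κ : HIdx N ℓ → Gamma0 N), ∀ x,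
      hRep ℓ x.1 * mapGL ℝ (γ : SL(2, ℤ)) = mapGL ℝ (κ x : SL(2, ℤ)) * hRep ℓ (σ x).1 := by
  choose s κ hs using exists_hecke_step N hℓ γ
  have hinj : Function.Injective s := by
    intro x x' hxx
    have h1 := hs x
    have h2 := hs x'
    rw [hxx] at h1
    have h3 : hRep ℓ x.1 =
        mapGL ℝ ((κ x : SL(2, ℤ)) * (κ x' : SL(2, ℤ))⁻¹) * hRep ℓ x'.1 := by
      have e1 : hRep ℓ x.1 = mapGL ℝ (κ x : SL(2, ℤ)) * hRep ℓ (s x').1 *
          (mapGL ℝ (γ : SL(2, ℤ)))⁻¹ := by rw [← h1]; group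
      have e2 : hRep ℓ (s x').1 = (mapGL ℝ (κ x' : SL(2, ℤ)))⁻¹ * hRep ℓ x'.1 *
          mapGL ℝ (γ : SL(2, ℤ)) := by rw [mul_assoc, h2]; group
      rw [e1, e2, map_mul, map_inv]; group
    exact (hRep_index_unique N hℓ _ x x' h3).1
  exact ⟨Equiv.ofBijective s (Finite.injective_iff_bijective.mp hinj), κ, hs⟩

noncomputable def hσ (N : ℕ) {ℓ : ℕ} (hℓ : ℓ.Prime) (γ : Gamma0 N) : Equiv.Perm (HIdx N ℓ) :=
  (exists_hecke_comm N hℓ γ).choose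

noncomputable def hκ (N : ℕ) {ℓ : ℕ} (hℓ : ℓ.Prime) (γ : Gamma0 N) : HIdx N ℓ → Gamma0 N :=
  (exists_hecke_comm N hℓ γ).choose_spec.choose

theorem hRep_mul (N : ℕ) {ℓ : ℕ} (hℓ : ℓ.Prime) (γ : Gamma0 N) (x : HIdx N ℓ) :
    hRep ℓ x.1 * mapGL ℝ (γ : SL(2, ℤ)) =
      mapGL ℝ (hκ N hℓ γ x : SL(2, ℤ)) * hRep ℓ (hσ N hℓ γ x).1 :=
  (exists_hecke_comm N hℓ γ).choose_spec.choose_spec x

/-- The Hecke operator at `ℓ` (`T_ℓ` if `ℓ ∤ N`, `U_ℓ` if `ℓ ∣ N`) on functions `Γ₀(N) → A`. -/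
noncomputable def heckeFun (N : ℕ) {ℓ : ℕ} (hℓ : ℓ.Prime) {A : Type} [AddCommMonoid A]
    (φ : Gamma0 N → A) (γ : Gamma0 N) : A :=
  ∑ x : HIdx N ℓ, φ (hκ N hℓ γ x)

theorem heckeFun_comp (N : ℕ) {ℓ : ℕ} (hℓ : ℓ.Prime) {A B : Type} [AddCommMonoid A]
    [AddCommMonoid B] (g : A →+ B) (φ : Gamma0 N → A) (γ : Gamma0 N) :
    heckeFun N hℓ (fun δ => g (φ δ)) γ = g (heckeFun N hℓ φ γ) := by
  simp only [heckeFun, map_sum]

theorem heckeFun_add (N : ℕ) {ℓ : ℕ} (hℓ : ℓ.Prime) {A : Type} [AddCommMonoid A]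
    (φ ψ : Gamma0 N → A) : heckeFun N hℓ (φ + ψ) = heckeFun N hℓ φ + heckeFun N hℓ ψ := by
  funext γ
  simp only [heckeFun, Pi.add_apply, Finset.sum_add_distrib]

theorem heckeFun_zsmul (N : ℕ) {ℓ : ℕ} (hℓ : ℓ.Prime) {A : Type} [AddCommGroup A]
    (c : ℤ) (φ : Gamma0 N → A) : heckeFun N hℓ (c • φ) = c • heckeFun N hℓ φ := by
  funext γ
  simp only [heckeFun, Pi.smul_apply, Finset.smul_sum]

theorem sum_HIdx_of_dvd {N ℓ : ℕ} (h : ℓ ∣ N) {M : Type*} [AddCommMonoid M]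
    (F : Option (Fin ℓ) → M) : ∑ x : HIdx N ℓ, F x.1 = ∑ j : Fin ℓ, F (some j) := by
  symm
  refine Fintype.sum_bijective (fun j : Fin ℓ => (⟨some j, by simp⟩ : HIdx N ℓ)) ⟨?_, ?_⟩ _ _
    (fun j => rfl)
  · intro a b hab
    simpa using congrArg Subtype.val hab
  · rintro ⟨x, hx⟩
    cases x with
    | none => exact absurd h (hx rfl)
    | some j => exact ⟨j, rfl⟩

theorem sum_HIdx_of_not_dvd {N ℓ : ℕ} (h : ¬ ℓ ∣ N) {M : Type*} [AddCommMonoid M]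
    (F : Option (Fin ℓ) → M) : ∑ x : HIdx N ℓ, F x.1 = ∑ j : Fin ℓ, F (some j) + F none := by
  rw [add_comm, ← Fintype.sum_option]
  symm
  refine Fintype.sum_bijective (fun j : Option (Fin ℓ) => (⟨j, fun _ => h⟩ : HIdx N ℓ)) ⟨?_, ?_⟩ _ _
    (fun j => rfl)
  · intro a b hab
    simpa using congrArg Subtype.val hab
  · rintro ⟨x, hx⟩
    exact ⟨x, rfl⟩

theorem card_HIdx (N ℓ : ℕ) : Fintype.card (HIdx N ℓ) = if ℓ ∣ N then ℓ else ℓ + 1 := by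
  rw [Fintype.card_eq_sum_ones]
  split_ifs with h
  · rw [sum_HIdx_of_dvd h (fun _ => 1)]; simp
  · rw [sum_HIdx_of_not_dvd h (fun _ => 1)]; simp

/-- the Prelude Hecke generator in terms of `hRep`. -/
theorem coe_heckeFormsGen_apply (N : ℕ) [NeZero N] (ℓ : Nat.Primes)
    (f : CuspForm (Gamma0 N) 2) :
    ⇑((CuspForm.heckeFormsGen N 2 ℓ : Module.End ℂ (CuspForm (Gamma0 N) 2)) f) =
      ∑ x : HIdx N ℓ, (⇑f) ∣[(2 : ℤ)] hRep ℓ x.1 := by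
  by_cases h : (ℓ : ℕ) ∣ N
  · rw [CuspForm.heckeFormsGen_of_dvd h, CuspForm.heckeAlgebra.coe_U, CuspForm.coe_heckeULin_apply,
      sum_HIdx_of_dvd h (fun x => (⇑f) ∣[(2 : ℤ)] hRep ℓ x), heckeU_def, Finset.sum_range]
    rfl
  · rw [CuspForm.heckeFormsGen_of_not_dvd h, CuspForm.heckeAlgebra.coe_T,
      CuspForm.coe_heckeTLin_apply,
      sum_HIdx_of_not_dvd h (fun x => (⇑f) ∣[(2 : ℤ)] hRep ℓ x), heckeT_def, Finset.sum_range]
    rfl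

end Fermat.Agent.S16
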