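import Fermat.Agent.S16.HeckeCoset
import Fermat.Agent.ES.Period

/-!
# S16 LB2: the period map is Hecke equivariant
-/

set_option autoImplicit false

namespace Fermat.Agent.S16

open CongruenceSubgroup Matrix.SpecialLinearGroup ModularForm
open scoped MatrixGroups Manifold

section aux

open UpperHalfPlane hiding I
open Complex Filter Topology
open scoped Manifold Real
open Derivative

theorem ph_det_hRep_pos (ℓ : ℕ) (x : Option (Fin ℓ)) : 0 < ((hRep ℓ x).det : ℝ) := by
  cases x with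
  | none => exact det_heckeDiagMatrix_pos ℓ
  | some j => exact det_heckeMatrix_pos ℓ j

theorem ph_mdiff_comp {F : ℍ → ℂ} (hF : MDiff F) {g : GL (Fin 2) ℝ} (hg : 0 < g.det.val) :
    MDiff (fun z : ℍ => F (g • z)) :=
  hF.comp (mdifferentiable_smul hg)

theorem ph_D_comp {F : ℍ → ℂ} (hF : MDiff F) {g : GL (Fin 2) ℝ} (hg : 0 < g.det.val) :
    D (fun z : ℍ => F (g • z)) = (D F) ∣[(2 : ℤ)] g := by
  have hdet : g.det.val = g.val.det := Matrix.GeneralLinearGroup.val_det_apply g
  have hg' : 0 < g.val.det := hdet ▸ hg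
  have hdetℂ : (g.val.det : ℂ) ≠ 0 := Complex.ofReal_ne_zero.mpr hg'.ne'
  have hσ (x) : σ g x = x := by grind [σ, ContinuousAlgEquiv.refl_apply]
  have h0 : (fun z : ℍ => F (g • z)) = (g.val.det : ℂ) • (F ∣[(0 : ℤ)] g) := by
    funext z
    simp only [Pi.smul_apply, smul_eq_mul, ModularForm.slash_apply, hσ, hdet, abs_of_pos hg']
    simp only [zero_sub, neg_zero, zpow_zero, mul_one, zpow_neg, zpow_one]
    field_simp
  rw [h0, normalizedDerivOfComplex_smul _ _ (hF.slash 0 g), normalizedDerivOfComplex_slash hF hg']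
  funext z
  simp only [Pi.smul_apply, smul_eq_mul, Int.cast_zero, zero_mul, sub_zero, zero_add]
  field_simp

theorem ph_mdiff_sum {ι : Type*} (s : Finset ι) (F : ι → ℍ → ℂ) (hF : ∀ i, MDiff (F i)) :
    MDiff (fun z => ∑ i ∈ s, F i z) := by
  classical
  induction s using Finset.induction_on with
  | empty =>
    simp only [Finset.sum_empty]
    exact mdifferentiable_const
  | insert a s ha ih =>
    have h2 : (fun z => ∑ i ∈ insert a s, F i z) = F a + fun z => ∑ i ∈ s, F i z := by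
      funext z; simp [Finset.sum_insert ha]
    rw [h2]
    exact (hF a).add ih

theorem ph_D_sum {ι : Type*} (s : Finset ι) (F : ι → ℍ → ℂ) (hF : ∀ i, MDiff (F i)) :
    D (fun z => ∑ i ∈ s, F i z) = fun z => ∑ i ∈ s, D (F i) z := by
  classical
  induction s using Finset.induction_on with
  | empty =>
    simp only [Finset.sum_empty]
    exact normalizedDerivOfComplex_const 0
  | insert a s ha ih =>
    have h1 : MDiff (fun z => ∑ i ∈ s, F i z) := ph_mdiff_sum s F hF
    have h2 : (fun z => ∑ i ∈ insert a s, F i z) = F a + fun z => ∑ i ∈ s, F i z := by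
      funext z; simp [Finset.sum_insert ha]
    rw [h2, normalizedDerivOfComplex_add _ _ (hF a) h1, ih]
    funext z; simp [Finset.sum_insert ha]

theorem ph_tendsto_hRep {ℓ : ℕ} (hℓ : ℓ ≠ 0) (x : Option (Fin ℓ)) :
    Tendsto (fun z : ℍ => hRep ℓ x • z) atImInfty atImInfty := by
  rw [atImInfty, tendsto_comap_iff]
  have hℓ' : (0 : ℝ) < ℓ := by exact_mod_cast Nat.pos_of_ne_zero hℓ
  cases x with
  | none =>
    have : (UpperHalfPlane.im ∘ fun z : ℍ => hRep ℓ none • z) = fun z : ℍ => (ℓ : ℝ) * z.im := by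
      funext z
      have h := congrArg Complex.im (coe_heckeDiagMatrix_smul hℓ z)
      simpa [hRep] using h
    rw [this]
    exact Tendsto.const_mul_atTop hℓ' tendsto_comap
  | some j =>
    have : (UpperHalfPlane.im ∘ fun z : ℍ => hRep ℓ (some j) • z)
        = fun z : ℍ => (ℓ : ℝ)⁻¹ * z.im := by
      funext z
      have h := congrArg Complex.im (coe_heckeMatrix_smul hℓ j z)
      have h2 : (((z : ℂ) + (j : ℕ)) / (ℓ : ℂ)).im = (ℓ : ℝ)⁻¹ * z.im := by
        rw [Complex.div_natCast_im]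
        simp [div_eq_inv_mul]
      rw [h2] at h
      simpa [hRep] using h
    rw [this]
    exact Tendsto.const_mul_atTop (inv_pos.mpr hℓ') tendsto_comap

end aux

theorem periodMap_heckeFormsGen (N : ℕ) [NeZero N] (ℓ : Nat.Primes)
    (f : CuspForm (Gamma0 N) 2) (γ : Gamma0 N) :
    ModularCurve.periodMap N
        ((CuspForm.heckeFormsGen N 2 ℓ : Module.End ℂ (CuspForm (Gamma0 N) 2)) f)
        (Additive.ofMul γ) =
      heckeFun N ℓ.2 (fun δ => ModularCurve.periodMap N f (Additive.ofMul δ)) γ := by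
  obtain ⟨F, hF⟩ := ES.exists_hasEquivariantPrimitive N f
  obtain ⟨h1, h2, h3⟩ := ES.hep_props hF
  have hℓ0 : (ℓ : ℕ) ≠ 0 := ℓ.2.ne_zero
  set G : UpperHalfPlane → ℂ := fun z => ∑ x : HIdx N ℓ, F (hRep ℓ x.1 • z) with hGdef
  have hGi : ∀ x : HIdx N ℓ, MDiff (fun z : UpperHalfPlane => F (hRep ℓ x.1 • z)) :=
    fun x => ph_mdiff_comp h1 (ph_det_hRep_pos ℓ x.1)
  have hG1 : MDiff G := ph_mdiff_sum _ _ hGi
  have hG2 : Derivative.normalizedDerivOfComplex G = (2 * Real.pi * Complex.I : ℂ)⁻¹ •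
      (((CuspForm.heckeFormsGen N 2 ℓ : Module.End ℂ (CuspForm (Gamma0 N) 2)) f :
        CuspForm (Gamma0 N) 2) : UpperHalfPlane → ℂ) := by
    rw [hGdef, ph_D_sum _ _ hGi, coe_heckeFormsGen_apply]
    funext z
    simp only [Pi.smul_apply, Finset.sum_apply, smul_eq_mul, Finset.mul_sum]
    refine Finset.sum_congr rfl fun x _ => ?_
    rw [ph_D_comp h1 (ph_det_hRep_pos ℓ x.1), h2, ModularForm.smul_slash]
    have hσ (c) : UpperHalfPlane.σ (hRep ℓ x.1) c = c := by
      have := ph_det_hRep_pos ℓ x.1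
      grind [UpperHalfPlane.σ, ContinuousAlgEquiv.refl_apply]
    simp [hσ]
  have hG3 : UpperHalfPlane.IsZeroAtImInfty G := by
    have : Filter.Tendsto G UpperHalfPlane.atImInfty (nhds (∑ x : HIdx N ℓ, (0 : ℂ))) := by
      apply tendsto_finsetSum
      intro x _
      exact h3.comp (ph_tendsto_hRep hℓ0 x.1)
    rw [Finset.sum_const_zero] at this
    exact this
  have hGE := ES.hasEquivariantPrimitive_of N _ hG1 hG2 hG3
  rw [ES.periodMap_apply N _ hGE γ UpperHalfPlane.I]
  simp only [hGdef, heckeFun]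
  have key : ∀ x : HIdx N ℓ, F (hRep ℓ x.1 • ((γ : SL(2, ℤ)) • UpperHalfPlane.I)) =
      F (hRep ℓ (hσ N ℓ.2 γ x).1 • UpperHalfPlane.I) +
        ModularCurve.periodMap N f (Additive.ofMul (hκ N ℓ.2 γ x)) := by
    intro x
    have e1 : hRep ℓ x.1 • ((γ : SL(2, ℤ)) • UpperHalfPlane.I) =
        ((hκ N ℓ.2 γ x : Gamma0 N) : SL(2, ℤ)) • (hRep ℓ (hσ N ℓ.2 γ x).1 • UpperHalfPlane.I) := by
      have := congrArg (fun g : GL (Fin 2) ℝ => g • UpperHalfPlane.I) (hRep_mul N ℓ.2 γ x)
      simp only [mul_smul] at this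
      exact this
    rw [e1, ES.periodMap_apply N f hF (hκ N ℓ.2 γ x) (hRep ℓ (hσ N ℓ.2 γ x).1 • UpperHalfPlane.I)]
    ring
  rw [Finset.sum_congr rfl (fun x _ => key x), Finset.sum_add_distrib,
    Equiv.sum_comp (hσ N ℓ.2 γ) (fun x : HIdx N ℓ => F (hRep ℓ x.1 • UpperHalfPlane.I))]
  ring

end Fermat.Agent.S16
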