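import Fermat.Agent.S16.Defs

set_option autoImplicit false

open UpperHalfPlane ModularForm CongruenceSubgroup ModularGroup ModularCurve CuspForm
open scoped MatrixGroups ModularForm Manifold

noncomputable section

namespace Fermat.Agent.S16

/-- abstract version of `card_of_bounds`. -/
theorem card_abstract {R T : Type*} [CommRing R] [CommRing T] (π : R →+* T)
    (hπ : Function.Surjective π) (ε : R →+* ℤ) (n : ℕ)
    (hLB : ∀ P : R, π P = 0 → (n : ℤ) ∣ ε P)
    (hUB : ∃ P : R, π P = 0 ∧ ε P = n) :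
    Nat.card (T ⧸ Ideal.map π (RingHom.ker ε)) = n := by
  set I : Ideal T := Ideal.map π (RingHom.ker ε) with hI
  let φ : ℤ →+* T ⧸ I := Int.castRingHom _
  have hφ : ∀ a : ℤ, φ a = Ideal.Quotient.mk I (π (a : R)) := by
    intro a
    simp [φ]
  have hsurj : Function.Surjective φ := by
    intro t
    obtain ⟨t, rfl⟩ := Ideal.Quotient.mk_surjective t
    obtain ⟨P, rfl⟩ := hπ t
    refine ⟨ε P, ?_⟩
    rw [hφ, Ideal.Quotient.eq, ← map_sub]
    apply Ideal.mem_map_of_mem
    rw [RingHom.mem_ker, map_sub, map_intCast]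
    simp
  have hker : RingHom.ker φ = Ideal.span {(n : ℤ)} := by
    ext a
    rw [RingHom.mem_ker, Ideal.mem_span_singleton, hφ, Ideal.Quotient.eq_zero_iff_mem]
    constructor
    · intro h
      rw [hI, Ideal.mem_map_iff_of_surjective π hπ] at h
      obtain ⟨Q, hQ, hQa⟩ := h
      have h1 := hLB ((a : R) - Q) (by rw [map_sub, hQa, sub_self])
      rw [map_sub, RingHom.mem_ker.mp hQ, map_intCast] at h1
      simpa using h1
    · rintro ⟨b, rfl⟩
      obtain ⟨P₀, hP₀, hP₀n⟩ := hUB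
      have h1 : π (((n : ℤ) * b : ℤ) : R) = π ((((n : ℤ) : R) - P₀) * (b : R)) := by
        rw [map_mul, map_sub, hP₀, sub_zero]
        push_cast
        rw [map_mul]
      rw [h1]
      apply Ideal.mem_map_of_mem
      apply Ideal.mul_mem_right
      rw [RingHom.mem_ker, map_sub, hP₀n, map_intCast]
      simp
  have e1 : (ℤ ⧸ RingHom.ker φ) ≃+* T ⧸ I := RingHom.quotientKerEquivOfSurjective hsurj
  rw [← Nat.card_congr e1.toEquiv, hker, Nat.card_congr (Int.quotientSpanNatEquivZMod n).toEquiv,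
    Nat.card_zmod]

theorem card_heckeEvalForms_surjective (N : ℕ) [NeZero N] (k : ℤ) :
    Function.Surjective (heckeEvalForms N k) := by
  have key : ∀ y ∈ Algebra.adjoin ℤ (heckeGenerators N k ∅),
      ∃ P : HeckeAlg, ((heckeEvalForms N k P : heckeAlgebra N k ∅) :
        Module.End ℂ (CuspForm (CongruenceSubgroup.Gamma0 N) k)) = y := by
    intro y hy
    induction hy using Algebra.adjoin_induction with
    | mem x hx =>
      rcases hx with ⟨ℓ, hℓ, hℓN, -, rfl⟩ | ⟨q, hqN, hq, -, rfl⟩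
      · refine ⟨heckeGen ⟨ℓ, hℓ⟩, ?_⟩
        rw [heckeEvalForms_heckeGen_of_not_dvd (ℓ := ⟨ℓ, hℓ⟩) hℓN]
        rfl
      · refine ⟨heckeGen ⟨q, hq⟩, ?_⟩
        rw [heckeEvalForms_heckeGen_of_dvd (q := ⟨q, hq⟩) hqN]
        rfl
    | algebraMap r =>
      refine ⟨MvPolynomial.C r, ?_⟩
      rw [heckeEvalForms_C]
      rfl
    | add x y _ _ hx hy =>
      obtain ⟨P, rfl⟩ := hx
      obtain ⟨Q, rfl⟩ := hy
      exact ⟨P + Q, by rw [map_add]; rfl⟩
    | mul x y _ _ hx hy =>
      obtain ⟨P, rfl⟩ := hx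
      obtain ⟨Q, rfl⟩ := hy
      exact ⟨P * Q, by rw [map_mul]; rfl⟩
  intro x
  obtain ⟨P, hP⟩ := key x.1 x.2
  exact ⟨P, Subtype.ext hP⟩

theorem card_piL_surjective (p : ℕ) [NeZero p] : Function.Surjective (piL p) :=
  (latticeRestrictHom_surjective p ∅).comp (card_heckeEvalForms_surjective p 2)

/-- ALG1-Card -/
theorem card_of_bounds (p : ℕ) [Fact p.Prime] (n : ℕ) (hn : 0 < n)
    (hLB : ∀ P : HeckeAlg, piL p P = 0 → (n : ℤ) ∣ eps p P)
    (hUB : ∃ P : HeckeAlg, piL p P = 0 ∧ eps p P = n) :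
    Nat.card (↥(heckeLatticeAlgebra p ∅) ⧸ Ideal.map (piL p) (eisensteinIdeal p)) = n :=
  card_abstract (piL p) (card_piL_surjective p) (eps p) n hLB hUB

end Fermat.Agent.S16

end
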