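import Fermat.Agent.S16.Defs
import Fermat.Agent.S49.Forms

set_option autoImplicit false
set_option linter.style.haveILetI false

open UpperHalfPlane ModularForm CongruenceSubgroup ModularGroup ModularCurve CuspForm
open scoped MatrixGroups ModularForm Manifold

noncomputable section

namespace Fermat.Agent.S16


theorem dual_sigmaP_one (p : ℕ) (hp : p.Prime) : sigmaP p 1 = 1 := by
  have : ¬ p ∣ 1 := by
    rw [Nat.dvd_one]; exact hp.ne_one
  simp [sigmaP, Finset.filter_singleton, this]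

theorem dual_sigmaP_p_mul (p : ℕ) (hp : p.Prime) (n : ℕ) (hn : n ≠ 0) :
    sigmaP p (p * n) = sigmaP p n := by
  unfold sigmaP
  congr 1
  ext d
  simp only [Finset.mem_filter, Nat.mem_divisors]
  constructor
  · rintro ⟨⟨h1, -⟩, h2⟩
    exact ⟨⟨(((Nat.Prime.coprime_iff_not_dvd hp).2 h2).symm).dvd_of_dvd_mul_left h1, hn⟩, h2⟩
  · rintro ⟨⟨h1, -⟩, h2⟩
    exact ⟨⟨h1.mul_left p, mul_ne_zero hp.ne_zero hn⟩, h2⟩

theorem dual_sum_image_mul (l : ℕ) (hl : l ≠ 0) (s : Finset ℕ) :
    ∑ d ∈ s.image (fun e => l * e), d = l * ∑ d ∈ s, d := by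
  rw [Finset.sum_image (fun a _ b _ h => Nat.eq_of_mul_eq_mul_left (Nat.pos_of_ne_zero hl) h),
    Finset.mul_sum]

theorem dual_sigmaP_l_mul (p : ℕ) (hp : p.Prime) (l : ℕ) (hl : l.Prime) (hlp : l ≠ p) (n : ℕ)
    (hn : n ≠ 0) :
    sigmaP p (l * n) + (if l ∣ n then l * sigmaP p (n / l) else 0) = (1 + l) * sigmaP p n := by
  classical
  have hpl : ¬ p ∣ l := fun h => hlp ((Nat.prime_dvd_prime_iff_eq hp hl).1 h).symm
  have hmul : ∀ e, ¬ p ∣ e → ¬ p ∣ l * e := fun e he h =>
    (hp.dvd_mul.1 h).elim hpl he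
  set A := n.divisors.filter (fun d => ¬ p ∣ d) with hA
  set B := A.image (fun e => l * e) with hB
  have h1 : (l * n).divisors.filter (fun d => ¬ p ∣ d) = A ∪ B := by
    ext d
    simp only [hA, hB, Finset.mem_filter, Nat.mem_divisors, Finset.mem_union, Finset.mem_image]
    constructor
    · rintro ⟨⟨h1, -⟩, h2⟩
      by_cases hld : l ∣ d
      · obtain ⟨e, rfl⟩ := hld
        right
        exact ⟨e, ⟨⟨Nat.dvd_of_mul_dvd_mul_left hl.pos h1, hn⟩,
          fun h => h2 (h.mul_left l)⟩, rfl⟩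
      · left
        exact ⟨⟨(((Nat.Prime.coprime_iff_not_dvd hl).2 hld).symm).dvd_of_dvd_mul_left h1, hn⟩, h2⟩
    · rintro (⟨⟨h1, -⟩, h2⟩ | ⟨e, ⟨⟨h1, -⟩, h2⟩, rfl⟩)
      · exact ⟨⟨h1.mul_left l, mul_ne_zero hl.ne_zero hn⟩, h2⟩
      · exact ⟨⟨Nat.mul_dvd_mul_left l h1, mul_ne_zero hl.ne_zero hn⟩, hmul e h2⟩
  have h2 : ∑ d ∈ A ∩ B, d = if l ∣ n then l * sigmaP p (n / l) else 0 := by
    split_ifs with hln
    · obtain ⟨n1, rfl⟩ := hln
      have hn1 : n1 ≠ 0 := fun h => hn (by rw [h, mul_zero])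
      rw [Nat.mul_div_cancel_left _ hl.pos, sigmaP, ← dual_sum_image_mul l hl.ne_zero]
      congr 1
      ext d
      simp only [hA, hB, Finset.mem_filter, Nat.mem_divisors, Finset.mem_inter, Finset.mem_image]
      constructor
      · rintro ⟨⟨⟨h1, -⟩, h2⟩, e, ⟨⟨h3, -⟩, h4⟩, rfl⟩
        exact ⟨e, ⟨⟨Nat.dvd_of_mul_dvd_mul_left hl.pos h1, hn1⟩, h4⟩, rfl⟩
      · rintro ⟨e, ⟨⟨h3, -⟩, h4⟩, rfl⟩
        exact ⟨⟨⟨Nat.mul_dvd_mul_left l h3, hn⟩, hmul e h4⟩, e, ⟨⟨h3.mul_left l, hn⟩, h4⟩, rfl⟩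
    · apply Finset.sum_eq_zero
      intro d hd
      exfalso
      simp only [hA, hB, Finset.mem_filter, Nat.mem_divisors, Finset.mem_inter,
        Finset.mem_image] at hd
      obtain ⟨⟨⟨h1, -⟩, h2⟩, e, -, rfl⟩ := hd
      exact hln ((Dvd.intro e rfl).trans h1)
  have h3 : ∑ d ∈ B, d = l * ∑ d ∈ A, d := dual_sum_image_mul l hl.ne_zero A
  have h4 := Finset.sum_union_inter (s₁ := A) (s₂ := B) (f := fun d => d)
  rw [← h2]
  show ∑ d ∈ (l * n).divisors.filter (fun d => ¬ p ∣ d), d + _ = (1 + l) * ∑ d ∈ A, d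
  rw [h1, h4, h3]
  ring




/-- a saturated submodule of the dual of a finite free `ℤ`-module which separates mod every prime
is everything. -/
theorem dual_eq_top_of_saturated {L : Type} [AddCommGroup L] [Module.Free ℤ L] [Module.Finite ℤ L]
    (Λ : Submodule ℤ (Module.Dual ℤ L))
    (hsat : ∀ r : ℕ, r.Prime → ∀ f : L, (∀ lam ∈ Λ, (r : ℤ) ∣ lam f) → ∃ g : L, f = r • g) :
    Λ = ⊤ := by
  classical
  obtain ⟨n, snf⟩ := Λ.smithNormalForm (Module.Free.chooseBasis ℤ L).dualBasis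
  -- no functional `coord j` can be divisible by a prime on `Λ`
  have key : ∀ (j : Module.Free.ChooseBasisIndex ℤ L) (r : ℕ), r.Prime →
      ¬ ∀ lam ∈ Λ, (r : ℤ) ∣ snf.bM.repr lam j := by
    intro j r hr h
    set f : L := (Module.evalEquiv ℤ L).symm (snf.bM.coord j) with hf
    have hf' : ∀ lam : Module.Dual ℤ L, lam f = snf.bM.repr lam j := fun lam => by
      rw [hf, Module.apply_evalEquiv_symm_apply]
      rfl
    obtain ⟨g, hg⟩ := hsat r hr f (fun lam hlam => by rw [hf']; exact h lam hlam)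
    have h1 : snf.bM j f = 1 := by
      rw [hf', Module.Basis.repr_self, Finsupp.single_eq_same]
    rw [hg, map_nsmul, nsmul_eq_mul] at h1
    have h2 : (r : ℤ) ∣ 1 := Dvd.intro _ h1
    have h3 : r ∣ 1 := by exact_mod_cast h2
    exact hr.one_lt.ne' (Nat.dvd_one.1 h3)
  rw [eq_top_iff, ← snf.bM.span_eq, Submodule.span_le]
  rintro _ ⟨j, rfl⟩
  by_cases hj : j ∈ Set.range snf.f
  · obtain ⟨i, rfl⟩ := hj
    by_cases hu : (snf.a i).natAbs = 1
    · have h1 : snf.a i • snf.bM (snf.f i) ∈ Λ := by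
        rw [← snf.snf]; exact (snf.bN i).2
      rcases Int.natAbs_eq (snf.a i) with h | h <;> rw [hu] at h <;> rw [h] at h1
      · simpa using h1
      · simpa using h1
    · exfalso
      obtain ⟨r, hr, hdvd⟩ := Nat.exists_prime_and_dvd hu
      apply key (snf.f i) r hr
      intro lam hlam
      have h1 := snf.repr_apply_embedding_eq_repr_smul ⟨lam, hlam⟩ (i := i)
      rw [map_smul, Finsupp.smul_apply, smul_eq_mul] at h1
      have h2 : snf.bM.repr lam (snf.f i) = snf.a i * snf.bN.repr ⟨lam, hlam⟩ i := h1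
      rw [h2]
      exact Dvd.dvd.mul_right (Int.natCast_dvd.2 hdvd) _
  · exfalso
    apply key j 2 Nat.prime_two
    intro lam hlam
    have h1 := snf.repr_eq_zero_of_notMem_range ⟨lam, hlam⟩ hj
    have h2 : snf.bM.repr lam j = 0 := h1
    rw [h2]
    exact dvd_zero _



/-- the integral lattice. -/
abbrev DualL (p : ℕ) : Type := ↥(intLattice p 2)

theorem dual_exists_coeff {p : ℕ} (f : DualL p) (n : ℕ) :
    ∃ m : ℤ, ModularFormClass.qCoeff (f : CuspForm (Gamma0 p) 2) n = (m : ℂ) :=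
  (S49.mem_intLattice_iff' f.1).1 f.2 n

/-- the `n`-th coefficient as an integer. -/
def dualCoeff {p : ℕ} (n : ℕ) (f : DualL p) : ℤ := (dual_exists_coeff f n).choose

theorem dualCoeff_spec {p : ℕ} (n : ℕ) (f : DualL p) :
    ModularFormClass.qCoeff (f : CuspForm (Gamma0 p) 2) n = (dualCoeff n f : ℂ) :=
  (dual_exists_coeff f n).choose_spec

/-- the `n`-th coefficient as a linear form. -/
def dualA (p : ℕ) (n : ℕ) : Module.Dual ℤ (DualL p) :=
  AddMonoidHom.toIntLinearMap
    { toFun := dualCoeff n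
      map_zero' := by
        have h := dualCoeff_spec n (0 : DualL p)
        have h0 : ModularFormClass.qCoeff ((0 : DualL p) : CuspForm (Gamma0 p) 2) n = 0 := by
          have := S49.qCoeff_smul' (0 : ℂ) (0 : CuspForm (Gamma0 p) 2) n
          simpa using this
        rw [h0] at h
        exact_mod_cast h.symm
      map_add' := fun f g => by
        have h := dualCoeff_spec n (f + g)
        rw [Submodule.coe_add, S49.qCoeff_add', dualCoeff_spec, dualCoeff_spec] at h
        exact_mod_cast h.symm }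

theorem dualA_spec {p : ℕ} (n : ℕ) (f : DualL p) :
    ModularFormClass.qCoeff (f : CuspForm (Gamma0 p) 2) n = (dualA p n f : ℂ) :=
  dualCoeff_spec n f

theorem dualA_zero {p : ℕ} (f : DualL p) : dualA p 0 f = 0 := by
  have h := dualA_spec 0 f
  rw [S49.qCoeff_zero_index] at h
  exact_mod_cast h.symm

theorem dual_ext {p : ℕ} [NeZero p] (f : DualL p) (h : ∀ n, 1 ≤ n → dualA p n f = 0) : f = 0 := by
  apply Subtype.ext
  apply S49.eq_zero_of_qCoeff
  intro n
  rw [dualA_spec]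
  rcases Nat.eq_zero_or_pos n with rfl | hn
  · rw [dualA_zero]; simp
  · rw [h n hn]; simp

/-- the action of Hecke polynomials on the lattice. -/
def dualAct (p : ℕ) [NeZero p] : HeckeAlg →+* Module.End ℤ (DualL p) :=
  (heckeLatticeAlgebra p ∅).val.toRingHom.comp (piL p)

theorem dualAct_eq_zero_iff (p : ℕ) [NeZero p] (P : HeckeAlg) : dualAct p P = 0 ↔ piL p P = 0 := by
  constructor
  · intro h
    exact Subtype.ext h
  · intro h
    show ((piL p P : heckeLatticeAlgebra p ∅) : Module.End ℤ (DualL p)) = 0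
    rw [h]; rfl

theorem coe_dualAct (p : ℕ) [NeZero p] (P : HeckeAlg) (f : DualL p) :
    ((dualAct p P f : DualL p) : CuspForm (Gamma0 p) 2) =
      (heckeEvalForms p 2 P : Module.End ℂ (CuspForm (Gamma0 p) 2)) f.1 := rfl

theorem dualA_T (p : ℕ) [NeZero p] (l : Nat.Primes) (h : ¬ (l : ℕ) ∣ p) (f : DualL p) (n : ℕ) :
    dualA p n (dualAct p (heckeGen l) f) =
      dualA p (l * n) f + (l : ℤ) * (if (l : ℕ) ∣ n then dualA p (n / l) f else 0) := by
  have h1 := dualA_spec n (dualAct p (heckeGen l) f)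
  rw [coe_dualAct, heckeEvalForms_heckeGen_of_not_dvd h, heckeAlgebra.coe_T,
    S49.qCoeff_heckeTLin, dualA_spec] at h1
  split_ifs at h1 ⊢ with h2
  · rw [dualA_spec] at h1
    exact_mod_cast h1.symm
  · exact_mod_cast h1.symm

theorem dualA_U (p : ℕ) [NeZero p] (l : Nat.Primes) (h : (l : ℕ) ∣ p) (f : DualL p) (n : ℕ) :
    dualA p n (dualAct p (heckeGen l) f) = dualA p (l * n) f := by
  have h1 := dualA_spec n (dualAct p (heckeGen l) f)
  rw [coe_dualAct, heckeEvalForms_heckeGen_of_dvd h, heckeAlgebra.coe_U,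
    S49.qCoeff_heckeULin l.2, dualA_spec] at h1
  exact_mod_cast h1.symm

theorem dual_eps_heckeGen (p : ℕ) (l : Nat.Primes) : eps p (heckeGen l) = eisensteinSystem p l := by
  show MvPolynomial.aeval (eisensteinSystem p) (MvPolynomial.X l) = _
  rw [MvPolynomial.aeval_X]


theorem dual_exists_Pn (p : ℕ) [Fact p.Prime] (n : ℕ) (hn : 1 ≤ n) :
    ∃ P : HeckeAlg, (∀ f : DualL p, dualA p 1 (dualAct p P f) = dualA p n f) ∧
      eps p P = (sigmaP p n : ℤ) := by
  have hp : p.Prime := Fact.out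
  induction n using Nat.strong_induction_on with
  | _ n ih =>
    by_cases h1 : n = 1
    · subst h1
      exact ⟨1, fun f => by rw [map_one]; rfl, by rw [map_one, dual_sigmaP_one p hp]; rfl⟩
    · obtain ⟨l, hl'⟩ : ∃ l : Nat.Primes, (l : ℕ) = n.minFac := ⟨⟨_, Nat.minFac_prime h1⟩, rfl⟩
      have hl : (l : ℕ).Prime := l.2
      obtain ⟨n', hn'⟩ : (l : ℕ) ∣ n := hl' ▸ Nat.minFac_dvd n
      have hn'0 : n' ≠ 0 := by
        rintro rfl
        omega
      have hlt : n' < n := by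
        rw [hn']
        exact lt_mul_of_one_lt_left (Nat.pos_of_ne_zero hn'0) hl.one_lt
      obtain ⟨P', hP', heP'⟩ := ih n' hlt (Nat.pos_of_ne_zero hn'0)
      by_cases hlp : (l : ℕ) = p
      · have hdvd : (l : ℕ) ∣ p := by rw [hlp]
        refine ⟨P' * heckeGen l, fun f => ?_, ?_⟩
        · rw [map_mul, Module.End.mul_apply, hP', dualA_U p _ hdvd, hn']
        · rw [map_mul, heP', dual_eps_heckeGen, eisensteinSystem_of_dvd hdvd, mul_one, hn', hlp,
            dual_sigmaP_p_mul p hp n' hn'0]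
      · have hndvd : ¬ (l : ℕ) ∣ p := fun h =>
          hlp ((Nat.prime_dvd_prime_iff_eq hl hp).1 h)
        have hsig := dual_sigmaP_l_mul p hp l hl hlp n' hn'0
        by_cases hln : (l : ℕ) ∣ n'
        · have hlt2 : n' / l < n := lt_of_le_of_lt (Nat.div_le_self _ _) hlt
          have hpos2 : 1 ≤ n' / l := Nat.div_pos (Nat.le_of_dvd (Nat.pos_of_ne_zero hn'0) hln) hl.pos
          obtain ⟨P'', hP'', heP''⟩ := ih (n' / l) hlt2 hpos2
          rw [if_pos hln] at hsig
          refine ⟨P' * heckeGen l - ((l : ℕ) : ℤ) • P'', fun f => ?_, ?_⟩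
          · rw [map_sub, map_mul, map_zsmul, LinearMap.sub_apply, map_sub, Module.End.mul_apply, hP',
              dualA_T p _ hndvd, LinearMap.smul_apply, map_zsmul, hP'', hn']
            simp only [if_pos hln, smul_eq_mul]
            ring
          · rw [map_sub, map_mul, map_zsmul, heP', heP'', dual_eps_heckeGen,
              eisensteinSystem_of_not_dvd hndvd, hn', smul_eq_mul]
            have : ((sigmaP p (l * n') : ℕ) : ℤ) + (l : ℕ) * sigmaP p (n' / l)
                = (1 + (l : ℕ)) * sigmaP p n' := by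
              exact_mod_cast hsig
            linear_combination -this
        · rw [if_neg hln, add_zero] at hsig
          refine ⟨P' * heckeGen l, fun f => ?_, ?_⟩
          · rw [map_mul, Module.End.mul_apply, hP', dualA_T p _ hndvd, hn']
            simp only [if_neg hln, mul_zero, add_zero]
          · rw [map_mul, heP', dual_eps_heckeGen, eisensteinSystem_of_not_dvd hndvd, hn', hsig]
            push_cast
            ring

/-- `P ↦ (f ↦ a₁(P f))`. -/
def dualPhi (p : ℕ) [NeZero p] : HeckeAlg →ₗ[ℤ] Module.Dual ℤ (DualL p) :=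
  AddMonoidHom.toIntLinearMap
    { toFun := fun P => (dualA p 1).comp (dualAct p P)
      map_zero' := by rw [map_zero]; exact LinearMap.comp_zero _
      map_add' := fun P Q => by rw [map_add]; exact LinearMap.comp_add _ _ _ }

theorem dualPhi_apply (p : ℕ) [NeZero p] (P : HeckeAlg) (f : DualL p) :
    dualPhi p P f = dualA p 1 (dualAct p P f) := rfl

theorem dualPhi_eq_zero (p : ℕ) [Fact p.Prime] (P : HeckeAlg) (h : dualPhi p P = 0) :
    piL p P = 0 := by
  rw [← dualAct_eq_zero_iff]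
  refine LinearMap.ext fun f => ?_
  apply dual_ext
  intro n hn
  obtain ⟨Pn, hPn, -⟩ := dual_exists_Pn p n hn
  rw [← hPn, ← Module.End.mul_apply, ← map_mul, mul_comm, map_mul, Module.End.mul_apply,
    ← dualPhi_apply, h]
  rfl

theorem dualPhi_range (p : ℕ) [Fact p.Prime] : LinearMap.range (dualPhi p) = ⊤ := by
  haveI := intLattice.moduleFinite p
  haveI := intLattice.moduleFree p
  apply dual_eq_top_of_saturated
  intro r hr f hf
  have h1 : ∀ n, (r : ℤ) ∣ dualA p n f := by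
    intro n
    rcases Nat.eq_zero_or_pos n with rfl | hn
    · rw [dualA_zero]; exact dvd_zero _
    · obtain ⟨Pn, hPn, -⟩ := dual_exists_Pn p n hn
      rw [← hPn]
      exact hf _ ⟨Pn, rfl⟩
  have hr0 : (r : ℂ) ≠ 0 := Nat.cast_ne_zero.2 hr.ne_zero
  have hg0 : ((r : ℂ)⁻¹) • f.1 ∈ intLattice p 2 := by
    rw [S49.mem_intLattice_iff']
    intro n
    obtain ⟨c, hc⟩ := h1 n
    refine ⟨c, ?_⟩
    rw [S49.qCoeff_smul', dualA_spec, hc]
    push_cast
    field_simp
  refine ⟨⟨_, hg0⟩, Subtype.ext ?_⟩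
  show f.1 = r • (((r : ℂ)⁻¹) • f.1)
  rw [← Nat.cast_smul_eq_nsmul ℂ, smul_smul, mul_inv_cancel₀ hr0, one_smul]

/-- ALG2-Dual -/
theorem exists_congruent_cuspForm (p : ℕ) [Fact p.Prime] (m : ℤ)
    (hm : ∀ P : HeckeAlg, piL p P = 0 → m ∣ eps p P) :
    ∃ (h : CuspForm (Gamma0 p) 2) (a : ℕ → ℤ),
      (∀ n, ModularFormClass.qCoeff h n = (a n : ℂ)) ∧
      ∀ n, 1 ≤ n → m ∣ a n - (sigmaP p n : ℤ) := by
  haveI := intLattice.moduleFinite p
  haveI := intLattice.moduleFree p
  let b := Module.Free.chooseBasis ℤ (DualL p)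
  have hsurj : ∀ lam, ∃ P, dualPhi p P = lam := fun lam =>
    LinearMap.range_eq_top.1 (dualPhi_range p) lam
  choose Q hQ using fun i => hsurj (b.coord i)
  let h : DualL p := ∑ i, eps p (Q i) • b i
  have key : ∀ P, m ∣ eps p P - dualPhi p P h := by
    intro P
    have h1 : dualPhi p (P - ∑ i, (dualPhi p P (b i)) • Q i) = 0 := by
      rw [map_sub, map_sum, sub_eq_zero]
      simp only [map_smul, hQ]
      apply b.ext
      intro j
      rw [LinearMap.sum_apply, Finset.sum_eq_single j]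
      · simp
      · intro i _ hij
        simp [Finsupp.single_apply, hij.symm]
      · intro hj
        exact absurd (Finset.mem_univ j) hj
    have h2 := hm _ (dualPhi_eq_zero p _ h1)
    rw [map_sub, map_sum] at h2
    have h3 : dualPhi p P h = ∑ i, eps p ((dualPhi p P (b i)) • Q i) := by
      simp only [h, map_sum, map_zsmul, smul_eq_mul]
      exact Finset.sum_congr rfl fun i _ => mul_comm _ _
    rw [h3]
    exact h2
  refine ⟨h.1, fun n => dualA p n h, fun n => dualA_spec n h, fun n hn => ?_⟩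
  obtain ⟨Pn, hPn, hePn⟩ := dual_exists_Pn p n hn
  have h4 := key Pn
  rw [hePn, dualPhi_apply, hPn] at h4
  rw [← dvd_neg, neg_sub]
  exact h4

end Fermat.Agent.S16

end
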