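import Fermat.Agent.S16.HeckeCoset

/-!
# S16 LB4: the Eisenstein class `lam`
-/

set_option autoImplicit false

namespace Fermat.Agent.S16

open CongruenceSubgroup Matrix.SpecialLinearGroup ModularForm
open scoped MatrixGroups

theorem lam_mul (p : ℕ) (γ δ : Gamma0 p) : lam p (γ * δ) = lam p γ + lam p δ := by
  simp only [lam, map_mul, mul_pow, ofMul_mul]

/-- upper left entry of the Hecke representative. -/
def eis_e00 (ℓ : ℕ) : Option (Fin ℓ) → ℤ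
  | some _ => 1
  | none => ℓ

/-- upper right entry of the Hecke representative. -/
def eis_e01 (ℓ : ℕ) : Option (Fin ℓ) → ℤ
  | some j => (j : ℕ)
  | none => 0

theorem eis_hRep_00 {ℓ : ℕ} (hℓ : ℓ ≠ 0) (x : Option (Fin ℓ)) :
    (hRep ℓ x : Matrix (Fin 2) (Fin 2) ℝ) 0 0 = (eis_e00 ℓ x : ℝ) := by
  cases x with
  | none => simp [hRep, eis_e00, val_heckeDiagMatrix hℓ]
  | some j => simp [hRep, eis_e00, val_heckeMatrix hℓ]

theorem eis_hRep_01 {ℓ : ℕ} (hℓ : ℓ ≠ 0) (x : Option (Fin ℓ)) :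
    (hRep ℓ x : Matrix (Fin 2) (Fin 2) ℝ) 0 1 = (eis_e01 ℓ x : ℝ) := by
  cases x with
  | none => simp [hRep, eis_e01, val_heckeDiagMatrix hℓ]
  | some j => simp [hRep, eis_e01, val_heckeMatrix hℓ]

theorem eis_hRep_10 {ℓ : ℕ} (hℓ : ℓ ≠ 0) (x : Option (Fin ℓ)) :
    (hRep ℓ x : Matrix (Fin 2) (Fin 2) ℝ) 1 0 = 0 := by
  cases x with
  | none => simp [hRep, val_heckeDiagMatrix hℓ]
  | some j => simp [hRep, val_heckeMatrix hℓ]

theorem eis_mapGL_apply (g : SL(2, ℤ)) (i j : Fin 2) :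
    (mapGL ℝ g : Matrix (Fin 2) (Fin 2) ℝ) i j = ((g i j : ℤ) : ℝ) := by
  simp [mapGL_coe_matrix]

/-- the integral relation between upper left entries. -/
theorem eis_rel_int (N : ℕ) {ℓ : ℕ} (hℓ : ℓ.Prime) (γ : Gamma0 N) (x : HIdx N ℓ) :
    eis_e00 ℓ x.1 * (γ : SL(2, ℤ)) 0 0 + eis_e01 ℓ x.1 * (γ : SL(2, ℤ)) 1 0 =
      (hκ N hℓ γ x : SL(2, ℤ)) 0 0 * eis_e00 ℓ (hσ N hℓ γ x).1 := by
  have h := hRep_mul N hℓ γ x
  have h2 := congrArg (fun M : GL (Fin 2) ℝ => (M : Matrix (Fin 2) (Fin 2) ℝ) 0 0) h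
  simp only [Matrix.GeneralLinearGroup.coe_mul, Matrix.mul_apply, Fin.sum_univ_two,
    eis_hRep_00 hℓ.ne_zero, eis_hRep_01 hℓ.ne_zero, eis_hRep_10 hℓ.ne_zero, eis_mapGL_apply,
    mul_zero, add_zero] at h2
  exact_mod_cast h2

theorem eis_rel_zmod (N : ℕ) {ℓ : ℕ} (hℓ : ℓ.Prime) (γ : Gamma0 N) (x : HIdx N ℓ) :
    (eis_e00 ℓ x.1 : ZMod N) * a00 N γ =
      a00 N (hκ N hℓ γ x) * (eis_e00 ℓ (hσ N hℓ γ x).1 : ZMod N) := by
  have h := congrArg (Int.cast : ℤ → ZMod N) (eis_rel_int N hℓ γ x)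
  have h0 : ((((γ : SL(2, ℤ)) 1 0 : ℤ)) : ZMod N) = 0 := Gamma0_mem.mp γ.2
  push_cast at h
  rw [h0, mul_zero, add_zero] at h
  exact h

theorem eis_e00_ne_zero (p : ℕ) [Fact p.Prime] {ℓ : ℕ} (hℓ : ℓ.Prime) (x : HIdx p ℓ) :
    (eis_e00 ℓ x.1 : ZMod p) ≠ 0 := by
  obtain ⟨x, hx⟩ := x
  cases x with
  | some j => simp [eis_e00]
  | none =>
    have h1 : ¬ ℓ ∣ p := hx rfl
    simp only [eis_e00, Int.cast_natCast]
    intro h0
    rw [ZMod.natCast_eq_zero_iff] at h0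
    have hp : p.Prime := Fact.out
    exact h1 ((Nat.prime_dvd_prime_iff_eq hp hℓ).mp h0 ▸ dvd_rfl)

theorem eis_prod (p : ℕ) [Fact p.Prime] {ℓ : ℕ} (hℓ : ℓ.Prime) (γ : Gamma0 p) :
    ∏ x : HIdx p ℓ, a00 p (hκ p hℓ γ x) = a00 p γ ^ Fintype.card (HIdx p ℓ) := by
  have h1 : ∏ x : HIdx p ℓ, ((eis_e00 ℓ x.1 : ZMod p) * a00 p γ) =
      ∏ x : HIdx p ℓ, (a00 p (hκ p hℓ γ x) * (eis_e00 ℓ (hσ p hℓ γ x).1 : ZMod p)) :=
    Finset.prod_congr rfl fun x _ => eis_rel_zmod p hℓ γ x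
  rw [Finset.prod_mul_distrib, Finset.prod_mul_distrib, Finset.prod_const, Finset.card_univ,
    Equiv.prod_comp (hσ p hℓ γ) (fun y : HIdx p ℓ => (eis_e00 ℓ y.1 : ZMod p))] at h1
  have hne : ∏ x : HIdx p ℓ, (eis_e00 ℓ x.1 : ZMod p) ≠ 0 :=
    Finset.prod_ne_zero_iff.mpr fun x _ => eis_e00_ne_zero p hℓ x
  apply mul_right_cancel₀ hne
  rw [← h1, mul_comm]

theorem eis_prod_units (p : ℕ) [Fact p.Prime] {ℓ : ℕ} (hℓ : ℓ.Prime) (γ : Gamma0 p) :
    ∏ x : HIdx p ℓ, (a00 p).toHomUnits (hκ p hℓ γ x) =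
      (a00 p).toHomUnits γ ^ Fintype.card (HIdx p ℓ) := by
  apply Units.ext
  rw [Units.coe_prod, Units.val_pow_eq_pow_val]
  simp only [MonoidHom.coe_toHomUnits]
  exact eis_prod p hℓ γ

theorem heckeFun_lam (p : ℕ) [Fact p.Prime] (ℓ : Nat.Primes) (γ : Gamma0 p) :
    heckeFun p ℓ.2 (lam p) γ = ModularCurve.eisensteinSystem p ℓ • lam p γ := by
  have h1 : heckeFun p ℓ.2 (lam p) γ = Fintype.card (HIdx p ℓ) • lam p γ := by
    unfold heckeFun lam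
    rw [← ofMul_prod, Finset.prod_pow, eis_prod_units, ← ofMul_pow, ← pow_mul, ← pow_mul, mul_comm]
  rw [h1, card_HIdx]
  by_cases hd : (ℓ : ℕ) ∣ p
  · rw [if_pos hd, ModularCurve.eisensteinSystem_of_dvd hd, one_smul]
    have hp : p.Prime := Fact.out
    have hℓp : (ℓ : ℕ) = p := (Nat.prime_dvd_prime_iff_eq ℓ.2 hp).mp hd
    rw [hℓp]
    unfold lam
    rw [← ofMul_pow]
    congr 1
    apply Units.ext
    rw [Units.val_pow_eq_pow_val, ZMod.pow_card]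
  · rw [if_neg hd, ModularCurve.eisensteinSystem_of_not_dvd hd]
    rw [show (1 + ((ℓ : ℕ) : ℤ)) = (((ℓ : ℕ) + 1 : ℕ) : ℤ) by push_cast; ring, natCast_zsmul]

theorem eis_pow_twelve {F : Type} [Field F] (a d : F) (t : ℤ) (had : a * d = 1)
    (ht : a + d = (t : F)) (h : t ^ 2 ≤ 4) : a ^ 12 = 1 := by
  have hq : a ^ 2 = (t : F) * a - 1 := by
    rw [← ht]
    linear_combination -had
  have hl : -2 ≤ t := by nlinarith
  have hu : t ≤ 2 := by nlinarith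
  interval_cases t
  · have h1 : (a + 1) ^ 2 = 0 := by
      push_cast at hq
      linear_combination hq
    have h2 : a = -1 := by
      have := pow_eq_zero_iff (two_ne_zero) |>.mp h1
      linear_combination this
    rw [h2]
    norm_num
  · push_cast at hq
    have h3 : a ^ 3 = 1 := by linear_combination (a - 1) * hq
    calc a ^ 12 = (a ^ 3) ^ 4 := by ring
      _ = 1 := by rw [h3, one_pow]
  · push_cast at hq
    have h2 : a ^ 2 = -1 := by linear_combination hq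
    calc a ^ 12 = (a ^ 2) ^ 6 := by ring
      _ = 1 := by rw [h2]; norm_num
  · push_cast at hq
    have h3 : a ^ 3 = -1 := by linear_combination (a + 1) * hq
    calc a ^ 12 = (a ^ 3) ^ 4 := by ring
      _ = 1 := by rw [h3]; norm_num
  · have h1 : (a - 1) ^ 2 = 0 := by
      push_cast at hq
      linear_combination hq
    have h2 : a = 1 := by
      have := pow_eq_zero_iff (two_ne_zero) |>.mp h1
      linear_combination this
    rw [h2, one_pow]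

theorem lam_eq_zero_of_smallTrace (p : ℕ) [Fact p.Prime] (γ : Gamma0 p)
    (h : SmallTrace (γ : SL(2, ℤ))) : lam p γ = 0 := by
  have h0 : ((((γ : SL(2, ℤ)) 1 0 : ℤ)) : ZMod p) = 0 := Gamma0_mem.mp γ.2
  have hdet := Matrix.SpecialLinearGroup.det_coe (γ : SL(2, ℤ))
  rw [Matrix.det_fin_two] at hdet
  have hdet' := congrArg (Int.cast : ℤ → ZMod p) hdet
  push_cast at hdet'
  rw [h0, mul_zero, sub_zero] at hdet'
  have htr : (((γ : SL(2, ℤ)) 0 0 : ℤ) : ZMod p) + (((γ : SL(2, ℤ)) 1 1 : ℤ) : ZMod p) =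
      (((γ : SL(2, ℤ)) : Matrix (Fin 2) (Fin 2) ℤ).trace : ZMod p) := by
    rw [Matrix.trace_fin_two]
    push_cast
    rfl
  have key := eis_pow_twelve _ _ _ hdet' htr h
  unfold lam
  rw [← ofMul_one]
  congr 1
  apply Units.ext
  rw [Units.val_pow_eq_pow_val, MonoidHom.coe_toHomUnits]
  exact key

theorem eis_exists_gamma (p : ℕ) [Fact p.Prime] (u : (ZMod p)ˣ) :
    ∃ γ : Gamma0 p, (a00 p).toHomUnits γ = u := by
  have hc : ((u : ZMod p).val).Coprime p := ZMod.val_coe_unit_coprime u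
  set a0 : ℤ := ((u : ZMod p).val : ℤ) with ha0
  have hg : Int.gcd a0 (p : ℤ) = 1 := by
    rw [ha0, Int.gcd_natCast_natCast]
    exact hc
  have hb := Int.gcd_eq_gcd_ab a0 (p : ℤ)
  rw [hg] at hb
  set X := Int.gcdA a0 (p : ℤ)
  set Y := Int.gcdB a0 (p : ℤ)
  let g : SL(2, ℤ) := ⟨!![a0, -Y; (p : ℤ), X], by
    rw [Matrix.det_fin_two_of]
    push_cast at hb
    linear_combination -hb⟩
  have hmem : g ∈ Gamma0 p := by
    rw [Gamma0_mem]
    show (((p : ℤ) : ℤ) : ZMod p) = 0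
    simp
  refine ⟨⟨g, hmem⟩, ?_⟩
  apply Units.ext
  rw [MonoidHom.coe_toHomUnits]
  show ((a0 : ℤ) : ZMod p) = u
  rw [ha0]
  simp

theorem exists_lam_generator (p : ℕ) [Fact p.Prime] :
    ∃ a : Additive (ZMod p)ˣ, addOrderOf a = ModularCurve.eisensteinNumerator p ∧
      (∀ γ, lam p γ ∈ AddSubgroup.zmultiples a) ∧ ∃ γ, lam p γ = a := by
  obtain ⟨g, hg⟩ := IsCyclic.exists_generator (α := (ZMod p)ˣ)
  refine ⟨Additive.ofMul (g ^ 12), ?_, ?_, ?_⟩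
  · rw [addOrderOf_ofMul_eq_orderOf, orderOf_pow, orderOf_eq_card_of_forall_mem_zpowers hg,
      Nat.card_eq_fintype_card, ZMod.card_units]
    rfl
  · intro γ
    obtain ⟨k, hk⟩ := Subgroup.mem_zpowers_iff.mp (hg ((a00 p).toHomUnits γ))
    rw [AddSubgroup.mem_zmultiples_iff]
    refine ⟨k, ?_⟩
    unfold lam
    rw [← hk, ← ofMul_zpow]
    congr 1
    rw [← zpow_natCast, ← zpow_natCast, ← zpow_mul, ← zpow_mul, mul_comm]
  · obtain ⟨γ, hγ⟩ := eis_exists_gamma p g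
    exact ⟨γ, by unfold lam; rw [hγ]⟩

end Fermat.Agent.S16
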