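import Fermat.Agent.S16.HeckeCoset

/-!
# S16 LB3: Hecke operators commute with the involution `γ ↦ jγj⁻¹` on parabolic homs
-/

set_option autoImplicit false

namespace Fermat.Agent.S16

open CongruenceSubgroup Matrix.SpecialLinearGroup ModularForm ModularCurve.Period
open scoped MatrixGroups

namespace Invol

/-- `J = diag(1,-1)`. -/
noncomputable def J : GL (Fin 2) ℝ :=
  Matrix.GeneralLinearGroup.mkOfDetNeZero !![1, 0; 0, -1] (by simp)

theorem J_00 : J 0 0 = 1 := rfl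
theorem J_01 : J 0 1 = 0 := rfl
theorem J_10 : J 1 0 = 0 := rfl
theorem J_11 : J 1 1 = -1 := rfl

theorem J_mul_J : J * J = 1 := by
  ext i j
  fin_cases i <;> fin_cases j <;>
    simp [Matrix.mul_apply, Fin.sum_univ_two, J_00, J_01, J_10, J_11]

theorem J_mapGL (g : SL(2, ℤ)) : J * mapGL ℝ g * J = mapGL ℝ (jConjSL g) := by
  ext i j
  fin_cases i <;> fin_cases j <;>
    simp [Matrix.mul_apply, Fin.sum_univ_two, J_00, J_01, J_10, J_11]

/-- the translation matrix `(1 c; 0 1)` as an element of `SL(2,ℤ)`. -/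
def trSL (c : ℤ) : SL(2, ℤ) := ⟨!![1, c; 0, 1], by simp⟩

theorem trSL_00 (c : ℤ) : trSL c 0 0 = 1 := rfl
theorem trSL_01 (c : ℤ) : trSL c 0 1 = c := rfl
theorem trSL_10 (c : ℤ) : trSL c 1 0 = 0 := rfl
theorem trSL_11 (c : ℤ) : trSL c 1 1 = 1 := rfl

/-- the translation matrix `(1 c; 0 1)` as an element of `Gamma0 N`. -/
def tr (N : ℕ) (c : ℤ) : Gamma0 N :=
  ⟨trSL c, by rw [Gamma0_mem, trSL_10]; simp⟩

theorem tr_coe (N : ℕ) (c : ℤ) : ((tr N c : Gamma0 N) : SL(2, ℤ)) = trSL c := rfl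

theorem tr_trace (N : ℕ) (c : ℤ) :
    (((tr N c : Gamma0 N) : SL(2, ℤ)) : Matrix (Fin 2) (Fin 2) ℤ).trace ^ 2 = 4 := by
  rw [tr_coe, Matrix.trace_fin_two, trSL_00, trSL_11]
  norm_num

theorem exists_bar (N : ℕ) {ℓ : ℕ} (hℓ : ℓ.Prime) (x : HIdx N ℓ) :
    ∃ (y : HIdx N ℓ) (c : ℤ),
      J * hRep ℓ x.1 * J = mapGL ℝ ((tr N c : Gamma0 N) : SL(2, ℤ)) * hRep ℓ y.1 := by
  have hℓ0 : ℓ ≠ 0 := hℓ.ne_zero
  obtain ⟨x, hx⟩ := x
  cases x with
  | none =>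
    refine ⟨⟨none, hx⟩, 0, ?_⟩
    rw [tr_coe]
    ext i j
    fin_cases i <;> fin_cases j <;>
      simp [hRep, hℓ0, Matrix.mul_apply, Fin.sum_univ_two, J_00, J_01, J_10, J_11,
        trSL_00, trSL_01, trSL_10, trSL_11]
  | some j =>
    by_cases hj : (j : ℕ) = 0
    · refine ⟨⟨some j, hx⟩, 0, ?_⟩
      rw [tr_coe]
      ext i j
      fin_cases i <;> fin_cases j <;>
        simp [hRep, hℓ0, Matrix.mul_apply, Fin.sum_univ_two, J_00, J_01, J_10, J_11,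
          trSL_00, trSL_01, trSL_10, trSL_11, hj]
    · have hlt : ℓ - (j : ℕ) < ℓ := by have := j.2; omega
      refine ⟨⟨some ⟨ℓ - (j : ℕ), hlt⟩, by simp⟩, -1, ?_⟩
      rw [tr_coe]
      have hle : (j : ℕ) ≤ ℓ := j.2.le
      ext i j
      fin_cases i <;> fin_cases j <;>
        simp [hRep, hℓ0, Matrix.mul_apply, Fin.sum_univ_two, J_00, J_01, J_10, J_11,
          trSL_00, trSL_01, trSL_10, trSL_11, Nat.cast_sub hle]
      ring

noncomputable def bar (N : ℕ) {ℓ : ℕ} (hℓ : ℓ.Prime) (x : HIdx N ℓ) : HIdx N ℓ :=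
  (exists_bar N hℓ x).choose

noncomputable def del (N : ℕ) {ℓ : ℕ} (hℓ : ℓ.Prime) (x : HIdx N ℓ) : Gamma0 N :=
  tr N (exists_bar N hℓ x).choose_spec.choose

theorem bar_spec (N : ℕ) {ℓ : ℕ} (hℓ : ℓ.Prime) (x : HIdx N ℓ) :
    J * hRep ℓ x.1 * J = mapGL ℝ ((del N hℓ x : Gamma0 N) : SL(2, ℤ)) * hRep ℓ (bar N hℓ x).1 :=
  (exists_bar N hℓ x).choose_spec.choose_spec

theorem del_trace (N : ℕ) {ℓ : ℕ} (hℓ : ℓ.Prime) (x : HIdx N ℓ) :
    (((del N hℓ x : Gamma0 N) : SL(2, ℤ)) : Matrix (Fin 2) (Fin 2) ℤ).trace ^ 2 = 4 :=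
  tr_trace N _

theorem bar_bar (N : ℕ) {ℓ : ℕ} (hℓ : ℓ.Prime) (x : HIdx N ℓ) :
    bar N hℓ (bar N hℓ x) = x := by
  have h1 := bar_spec N hℓ x
  have h2 := bar_spec N hℓ (bar N hℓ x)
  have h3 : hRep ℓ x.1 = mapGL ℝ (jConjSL (del N hℓ x : SL(2, ℤ)) *
      (del N hℓ (bar N hℓ x) : SL(2, ℤ))) * hRep ℓ (bar N hℓ (bar N hℓ x)).1 := by
    calc hRep ℓ x.1 = J * (J * hRep ℓ x.1 * J) * J := by
          rw [mul_assoc J, mul_assoc J, mul_assoc J, mul_assoc _ J J, J_mul_J, mul_one,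
            ← mul_assoc, J_mul_J, one_mul]
      _ = (J * mapGL ℝ ((del N hℓ x : Gamma0 N) : SL(2, ℤ)) * J) *
            (J * hRep ℓ (bar N hℓ x).1 * J) := by
          rw [h1]
          have : ∀ a b : GL (Fin 2) ℝ, J * (a * b) * J = (J * a * J) * (J * b * J) := by
            intro a b
            calc J * (a * b) * J = J * a * 1 * b * J := by group
              _ = J * a * (J * J) * b * J := by rw [J_mul_J]
              _ = _ := by group
          exact this _ _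
      _ = _ := by
          rw [h2, J_mapGL, map_mul, mul_assoc]
  exact ((hRep_index_unique N hℓ _ _ _ h3).1).symm

noncomputable def barEquiv (N : ℕ) {ℓ : ℕ} (hℓ : ℓ.Prime) : HIdx N ℓ ≃ HIdx N ℓ where
  toFun := bar N hℓ
  invFun := bar N hℓ
  left_inv := bar_bar N hℓ
  right_inv := bar_bar N hℓ

theorem J_conj_mul (a b : GL (Fin 2) ℝ) : J * (a * b) * J = (J * a * J) * (J * b * J) := by
  calc J * (a * b) * J = J * a * 1 * b * J := by group
    _ = J * a * (J * J) * b * J := by rw [J_mul_J]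
    _ = _ := by group

theorem key (N : ℕ) {ℓ : ℕ} (hℓ : ℓ.Prime) (γ : Gamma0 N) (x : HIdx N ℓ) :
    jConjGamma0 N (hκ N hℓ γ x) * del N hℓ (hσ N hℓ γ x) =
      del N hℓ x * hκ N hℓ (jConjGamma0 N γ) (bar N hℓ x) := by
  have h1 := hRep_mul N hℓ γ x
  have h2 := hRep_mul N hℓ (jConjGamma0 N γ) (bar N hℓ x)
  have h3 : (J * hRep ℓ x.1 * J) * (J * mapGL ℝ (γ : SL(2, ℤ)) * J) =
      (J * mapGL ℝ (hκ N hℓ γ x : SL(2, ℤ)) * J) * (J * hRep ℓ (hσ N hℓ γ x).1 * J) := by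
    rw [← J_conj_mul, ← J_conj_mul, h1]
  rw [bar_spec N hℓ, bar_spec N hℓ, J_mapGL, J_mapGL, mul_assoc] at h3
  rw [jConjGamma0_coe] at h2
  rw [h2] at h3
  set A : SL(2, ℤ) := (del N hℓ x : SL(2, ℤ)) with hA
  set B : SL(2, ℤ) := (hκ N hℓ (jConjGamma0 N γ) (bar N hℓ x) : SL(2, ℤ)) with hB
  set C : SL(2, ℤ) := jConjSL (hκ N hℓ γ x : SL(2, ℤ)) with hC
  set D : SL(2, ℤ) := (del N hℓ (hσ N hℓ γ x) : SL(2, ℤ)) with hD
  have h4 : hRep ℓ (hσ N hℓ (jConjGamma0 N γ) (bar N hℓ x)).1 =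
      mapGL ℝ ((A * B)⁻¹ * (C * D)) * hRep ℓ (bar N hℓ (hσ N hℓ γ x)).1 := by
    rw [map_mul, map_inv, map_mul, map_mul, mul_assoc, mul_assoc (mapGL ℝ C), ← h3]
    group
  have h5 := (hRep_index_unique N hℓ _ _ _ h4).2
  have h6 : C * D = A * B := by
    have := congrArg (fun t => (A * B) * t) h5
    simpa [mul_assoc] using this
  apply Subtype.ext
  rw [Subgroup.coe_mul, Subgroup.coe_mul, jConjGamma0_coe]
  exact h6

end Invol

theorem heckeFun_jConj (N : ℕ) {ℓ : ℕ} (hℓ : ℓ.Prime) {A : Type} [AddCommGroup A]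
    (φ : Additive (Gamma0 N) →+ A) (hφ : IsParabolicHom (Gamma0 N) φ) (γ : Gamma0 N) :
    heckeFun N hℓ (fun δ => φ (Additive.ofMul (jConjGamma0 N δ))) γ =
      heckeFun N hℓ (fun δ => φ (Additive.ofMul δ)) (jConjGamma0 N γ) := by
  unfold heckeFun
  rw [← Equiv.sum_comp (Invol.barEquiv N hℓ)
    (fun x => φ (Additive.ofMul (hκ N hℓ (jConjGamma0 N γ) x)))]
  refine Finset.sum_congr rfl fun x _ => ?_
  have h := congrArg (fun t => φ (Additive.ofMul t)) (Invol.key N hℓ γ x)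
  simp only [ofMul_mul, map_add] at h
  rw [hφ _ (Invol.del_trace N hℓ _), hφ _ (Invol.del_trace N hℓ _), add_zero, zero_add] at h
  exact h

end Fermat.Agent.S16
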