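import Fermat.Agent.S16.PeriodHecke
import Fermat.Agent.S16.Involution
import Fermat.Agent.S16.EisClass
import Fermat.Agent.S16.Lift

/-!
# S16 LB6: the lower bound `n ∣ ε(P)` for every Hecke polynomial `P` killing `S₂(Γ₀(p))`
-/

set_option autoImplicit false

namespace Fermat.Agent.S16

open CongruenceSubgroup Matrix.SpecialLinearGroup ModularForm ModularCurve ModularCurve.Period
open scoped MatrixGroups

/-- `heckeFun` as an additive endomorphism. -/
noncomputable def heckeFunHom (N : ℕ) {ℓ : ℕ} (hℓ : ℓ.Prime) (A : Type) [AddCommGroup A] :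
    (Gamma0 N → A) →+ (Gamma0 N → A) where
  toFun φ := heckeFun N hℓ φ
  map_zero' := by
    funext γ
    simp [heckeFun]
  map_add' φ ψ := heckeFun_add N hℓ φ ψ

/-- the period function. -/
noncomputable def per (N : ℕ) (f : CuspForm (Gamma0 N) 2) : Gamma0 N → ℂ :=
  fun γ => periodMap N f (Additive.ofMul γ)

/-- the twisted period function. -/
noncomputable def perJ (N : ℕ) (f : CuspForm (Gamma0 N) 2) : Gamma0 N → ℂ :=
  fun γ => periodMap N f (Additive.ofMul (jConjGamma0 N γ))

theorem per_add (N : ℕ) [NeZero N] (f g : CuspForm (Gamma0 N) 2) :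
    per N (f + g) = per N f + per N g := by
  funext γ
  simp only [per, Pi.add_apply, Fermat.Agent.ES.periodMap_add, AddMonoidHom.add_apply]

theorem perJ_add (N : ℕ) [NeZero N] (f g : CuspForm (Gamma0 N) 2) :
    perJ N (f + g) = perJ N f + perJ N g := by
  funext γ
  simp only [perJ, Pi.add_apply, Fermat.Agent.ES.periodMap_add, AddMonoidHom.add_apply]

theorem per_zsmul (N : ℕ) [NeZero N] (a : ℤ) (f : CuspForm (Gamma0 N) 2) :
    per N (a • f) = a • per N f := by
  funext γ
  have : a • f = (a : ℂ) • f := by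
    rw [Int.cast_smul_eq_zsmul]
  simp only [per, Pi.smul_apply, this, Fermat.Agent.ES.periodMap_smul, AddMonoidHom.smul_apply]
  simp

theorem perJ_zsmul (N : ℕ) [NeZero N] (a : ℤ) (f : CuspForm (Gamma0 N) 2) :
    perJ N (a • f) = a • perJ N f := by
  funext γ
  have : a • f = (a : ℂ) • f := by
    rw [Int.cast_smul_eq_zsmul]
  simp only [perJ, Pi.smul_apply, this, Fermat.Agent.ES.periodMap_smul, AddMonoidHom.smul_apply]
  simp

/-- the compatible triple of operators attached to a Hecke polynomial. -/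
structure OpTriple (p : ℕ) [Fact p.Prime] (P : HeckeAlg) where
  ΘZ : (Gamma0 p → ℤ) →+ (Gamma0 p → ℤ)
  ΘC : (Gamma0 p → ℂ) →+ (Gamma0 p → ℂ)
  ΘA : (Gamma0 p → Additive (ZMod p)ˣ) →+ (Gamma0 p → Additive (ZMod p)ˣ)
  natC : ∀ φ : Gamma0 p → ℤ, ΘC (fun γ => (φ γ : ℂ)) = fun γ => ((ΘZ φ γ : ℤ) : ℂ)
  natA : ∀ (a : Additive (ZMod p)ˣ) (φ : Gamma0 p → ℤ),
    ΘA (fun γ => φ γ • a) = fun γ => ΘZ φ γ • a
  per : ∀ f : CuspForm (Gamma0 p) 2, ΘC (per p f) =
    Fermat.Agent.S16.per p ((CuspForm.heckeEvalForms p 2 P : Module.End ℂ _) f)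
  perJ : ∀ f : CuspForm (Gamma0 p) 2, ΘC (perJ p f) =
    Fermat.Agent.S16.perJ p ((CuspForm.heckeEvalForms p 2 P : Module.End ℂ _) f)
  eis : ΘA (lam p) = (MvPolynomial.aeval (eisensteinSystem p) P : ℤ) • lam p

theorem nonempty_opTriple (p : ℕ) [Fact p.Prime] (P : HeckeAlg) : Nonempty (OpTriple p P) := by
  induction P using MvPolynomial.induction_on with
  | C a =>
    refine ⟨{ ΘZ := a • AddMonoidHom.id _, ΘC := a • AddMonoidHom.id _,
              ΘA := a • AddMonoidHom.id _, natC := ?_, natA := ?_, per := ?_, perJ := ?_,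
              eis := ?_ }⟩
    · intro φ
      funext γ
      simp
    · intro b φ
      funext γ
      simp [mul_smul]
    · intro f
      rw [CuspForm.heckeEvalForms_C]
      have : ((algebraMap ℤ (CuspForm.heckeAlgebra p 2 ∅) a : CuspForm.heckeAlgebra p 2 ∅) :
          Module.End ℂ (CuspForm (Gamma0 p) 2)) f = a • f := by
        simp
      rw [this, per_zsmul]
      rfl
    · intro f
      rw [CuspForm.heckeEvalForms_C]
      have : ((algebraMap ℤ (CuspForm.heckeAlgebra p 2 ∅) a : CuspForm.heckeAlgebra p 2 ∅) :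
          Module.End ℂ (CuspForm (Gamma0 p) 2)) f = a • f := by
        simp
      rw [this, perJ_zsmul]
      rfl
    · simp
  | add P Q hP hQ =>
    obtain ⟨tP⟩ := hP
    obtain ⟨tQ⟩ := hQ
    refine ⟨{ ΘZ := tP.ΘZ + tQ.ΘZ, ΘC := tP.ΘC + tQ.ΘC, ΘA := tP.ΘA + tQ.ΘA,
              natC := ?_, natA := ?_, per := ?_, perJ := ?_, eis := ?_ }⟩
    · intro φ
      rw [AddMonoidHom.add_apply, tP.natC, tQ.natC]
      funext γ
      simp
    · intro b φ
      rw [AddMonoidHom.add_apply, tP.natA, tQ.natA]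
      funext γ
      simp [add_zsmul]
    · intro f
      rw [AddMonoidHom.add_apply, tP.per, tQ.per, map_add, ← per_add]
      rfl
    · intro f
      rw [AddMonoidHom.add_apply, tP.perJ, tQ.perJ, map_add, ← perJ_add]
      rfl
    · rw [AddMonoidHom.add_apply, tP.eis, tQ.eis, map_add, add_zsmul]
  | mul_X P ℓ hP =>
    obtain ⟨tP⟩ := hP
    refine ⟨{ ΘZ := tP.ΘZ.comp (heckeFunHom p ℓ.2 ℤ), ΘC := tP.ΘC.comp (heckeFunHom p ℓ.2 ℂ),
              ΘA := tP.ΘA.comp (heckeFunHom p ℓ.2 _),
              natC := ?_, natA := ?_, per := ?_, perJ := ?_, eis := ?_ }⟩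
    · intro φ
      rw [AddMonoidHom.comp_apply, AddMonoidHom.comp_apply, ← tP.natC]
      congr 1
      funext γ
      exact heckeFun_comp p ℓ.2 (Int.castAddHom ℂ) φ γ
    · intro b φ
      rw [AddMonoidHom.comp_apply, AddMonoidHom.comp_apply, ← tP.natA]
      congr 1
      funext γ
      exact heckeFun_comp p ℓ.2 ((smulAddHom ℤ _).flip b) φ γ
    · intro f
      have h1 : heckeFunHom p ℓ.2 ℂ (Fermat.Agent.S16.per p f) =
          Fermat.Agent.S16.per p ((CuspForm.heckeFormsGen p 2 ℓ : Module.End ℂ _) f) := by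
        funext γ
        exact (periodMap_heckeFormsGen p ℓ f γ).symm
      rw [AddMonoidHom.comp_apply, h1, tP.per, map_mul]
      have : CuspForm.heckeEvalForms p 2 (MvPolynomial.X ℓ) = CuspForm.heckeFormsGen p 2 ℓ :=
        CuspForm.heckeEvalForms_heckeGen p 2 ℓ
      rw [this]
      rfl
    · intro f
      have h1 : heckeFunHom p ℓ.2 ℂ (Fermat.Agent.S16.perJ p f) =
          Fermat.Agent.S16.perJ p ((CuspForm.heckeFormsGen p 2 ℓ : Module.End ℂ _) f) := by
        funext γ
        have h2 := heckeFun_jConj p ℓ.2 (periodMap p f)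
          ((mem_parabolicHoms_iff (R := ℂ)).mp (Fermat.Agent.ES.periodMap_mem_parabolicHoms p f)) γ
        have h3 := periodMap_heckeFormsGen p ℓ f (jConjGamma0 p γ)
        exact h2.trans h3.symm
      rw [AddMonoidHom.comp_apply, h1, tP.perJ, map_mul]
      have : CuspForm.heckeEvalForms p 2 (MvPolynomial.X ℓ) = CuspForm.heckeFormsGen p 2 ℓ :=
        CuspForm.heckeEvalForms_heckeGen p 2 ℓ
      rw [this]
      rfl
    · have h1 : heckeFunHom p ℓ.2 _ (lam p) = eisensteinSystem p ℓ • lam p := by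
        funext γ
        exact heckeFun_lam p ℓ γ
      rw [AddMonoidHom.comp_apply, h1, map_zsmul, tP.eis, map_mul, MvPolynomial.aeval_X, smul_smul,
        mul_comm]

/-- **Lower bound.** -/
theorem lower_bound (p : ℕ) [Fact p.Prime] (P : HeckeAlg)
    (hP : CuspForm.heckeEvalForms p 2 P = 0) :
    (eisensteinNumerator p : ℤ) ∣ MvPolynomial.aeval (eisensteinSystem p) P := by
  obtain ⟨t⟩ := nonempty_opTriple p P
  obtain ⟨a, ha, hmem, γ₀, hγ₀⟩ := exists_lam_generator p
  let μ : Additive (Gamma0 p) →+ Additive (ZMod p)ˣ :=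
    { toFun := fun γ => lam p (Additive.toMul γ)
      map_zero' := by
        have := lam_mul p 1 1
        rw [mul_one] at this
        exact (add_eq_left.mp this.symm)
      map_add' := fun γ δ => lam_mul p _ _ }
  obtain ⟨φ, hφpar, hφ⟩ := exists_int_lift p μ a (fun γ => hmem _)
    (fun γ hγ => lam_eq_zero_of_smallTrace p γ hγ)
  -- the complexification of `φ` is a combination of periods
  let φC : Additive (Gamma0 p) →+ ℂ := (Int.castAddHom ℂ).comp φ
  have hφC : φC ∈ parabolicHoms ℂ (Gamma0 p) ℂ := by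
    intro γ hγ
    show ((φ (Additive.ofMul γ) : ℤ) : ℂ) = 0
    rw [hφpar γ hγ, Int.cast_zero]
  rw [← (Fermat.Agent.ES.eichlerShimura p).2] at hφC
  obtain ⟨⟨f, g⟩, hfg⟩ := hφC
  obtain ⟨pml, hpml, hdef⟩ := periodHomPair_def p (Fermat.Agent.ES.existsPeriodMapLinear p)
  have hfun : (fun γ : Gamma0 p => ((φ (Additive.ofMul γ) : ℤ) : ℂ)) =
      per p f + perJ p f + (per p g - perJ p g) := by
    funext γ
    have := congrArg (fun ψ : Additive (Gamma0 p) →+ ℂ => ψ (Additive.ofMul γ)) hfg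
    rw [hdef] at this
    simp only [LinearMap.coprod_apply, LinearMap.comp_apply, LinearMap.add_apply,
      LinearMap.sub_apply, LinearMap.id_apply, hpml, AddMonoidHom.add_apply,
      AddMonoidHom.sub_apply, charInvolution_apply] at this
    simp only [Pi.add_apply, Pi.sub_apply, per, perJ]
    exact this.symm
  have hzero : ∀ h : CuspForm (Gamma0 p) 2,
      ((CuspForm.heckeEvalForms p 2 P : CuspForm.heckeAlgebra p 2 ∅) : Module.End ℂ _) h = 0 := by
    intro h
    rw [hP]
    rfl
  have hper0 : per p (0 : CuspForm (Gamma0 p) 2) = 0 := by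
    have := per_zsmul p 0 (0 : CuspForm (Gamma0 p) 2)
    simpa using this
  have hperJ0 : perJ p (0 : CuspForm (Gamma0 p) 2) = 0 := by
    have := perJ_zsmul p 0 (0 : CuspForm (Gamma0 p) 2)
    simpa using this
  have hC : t.ΘC (fun γ : Gamma0 p => ((φ (Additive.ofMul γ) : ℤ) : ℂ)) = 0 := by
    rw [hfun, map_add, map_add, map_sub, t.per, t.perJ, t.per, t.perJ, hzero, hzero, hper0, hperJ0]
    simp
  rw [t.natC] at hC
  have hZ : t.ΘZ (fun γ : Gamma0 p => φ (Additive.ofMul γ)) = 0 := by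
    funext γ
    have := congrFun hC γ
    simpa using this
  have hA := t.natA a (fun γ : Gamma0 p => φ (Additive.ofMul γ))
  rw [hZ] at hA
  have hlam : (fun γ : Gamma0 p => φ (Additive.ofMul γ) • a) = lam p := by
    funext γ
    exact (hφ (Additive.ofMul γ)).symm
  rw [hlam, t.eis] at hA
  have h0 := congrFun hA γ₀
  simp only [Pi.smul_apply, hγ₀, Pi.zero_apply, zero_smul] at h0
  rw [← ha]
  exact (addOrderOf_dvd_iff_zsmul_eq_zero).mpr h0

end Fermat.Agent.S16
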