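import Fermat.Agent.S16.Defs
import Fermat.Agent.S16.LowerBound
import Fermat.Agent.S23

set_option autoImplicit false

open UpperHalfPlane ModularForm CongruenceSubgroup ModularGroup ModularCurve CuspForm
open scoped MatrixGroups ModularForm Manifold

noncomputable section

namespace Fermat.Agent.S16

/-- the lower bound of helper15's team, phrased with `piL` and `eps`. -/
theorem lower_bound_piL (p : ℕ) [Fact p.Prime] (P : HeckeAlg) (h : piL p P = 0) :
    (eisensteinNumerator p : ℤ) ∣ eps p P := by
  have hinj := (latticeRestrictHom_bijective p ∅ (Fermat.Agent.S23.result p)).1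
  have h0 : heckeEvalForms p 2 P = 0 := by
    apply hinj
    rw [map_zero]
    exact h
  exact lower_bound p P h0

end Fermat.Agent.S16

end
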