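import Fermat.Agent.S16.Defs
import Fermat.Agent.S23.Dilate

set_option autoImplicit false

open UpperHalfPlane ModularForm CongruenceSubgroup ModularGroup ModularCurve CuspForm
open scoped MatrixGroups ModularForm Manifold

noncomputable section

namespace Fermat.Agent.S16

open EisensteinSeries Matrix.SpecialLinearGroup

/-- `τ ↦ p E₂(pτ) - E₂(τ)`. -/
def eisFun (p : ℕ) : ℍ → ℂ := E2 ∣[(2 : ℤ)] heckeDiagMatrix p - E2

lemma eis_fun_apply {p : ℕ} (hp : p ≠ 0) (τ : ℍ) :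
    eisFun p τ = (p : ℂ) * E2 (heckeDiagMatrix p • τ) - E2 τ := by
  rw [eisFun, Pi.sub_apply, slash_heckeDiagMatrix_apply 2 hp]
  norm_num

lemma eis_D2_bdd (g : SL(2, ℤ)) : IsBoundedAtImInfty (D2 g) := by
  rw [UpperHalfPlane.isBoundedAtImInfty_iff]
  refine ⟨2 * Real.pi, 1, fun z hz => ?_⟩
  rw [D2]
  by_cases hc : g 1 0 = 0
  · simp [hc]; positivity
  · have hc' : (1 : ℝ) ≤ |((g 1 0 : ℤ) : ℝ)| := by
      have : (1 : ℤ) ≤ |g 1 0| := Int.one_le_abs hc
      exact_mod_cast this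
    have h1 : |((g 1 0 : ℤ) : ℝ)| ≤ ‖denom g z‖ := by
      have h2 : |(denom g z).im| ≤ ‖denom g z‖ := Complex.abs_im_le_norm _
      have h3 : (denom g z).im = ((g 1 0 : ℤ) : ℝ) * z.im := by
        simp [denom]
      rw [h3, abs_mul, abs_of_pos z.im_pos] at h2
      nlinarith [abs_nonneg ((g 1 0 : ℤ) : ℝ)]
    have h0 : 0 < ‖denom g z‖ := lt_of_lt_of_le (by linarith) h1
    rw [norm_div, div_le_iff₀ h0]
    simp only [norm_mul, Complex.norm_ofNat, Complex.norm_real, Complex.norm_I, mul_one,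
      Complex.norm_intCast, Real.norm_eq_abs, abs_of_pos Real.pi_pos]
    exact mul_le_mul_of_nonneg_left h1 (by positivity)

lemma eis_E2_slash_bdd (g : SL(2, ℤ)) : IsBoundedAtImInfty (E2 ∣[(2 : ℤ)] g) := by
  rw [E2_slash_action, sub_eq_add_neg]
  exact isBoundedAtImInfty_E2.add ((eis_D2_bdd g).smul _).neg

lemma eis_E2_bddAt {c : OnePoint ℝ} (hc : IsCusp c 𝒮ℒ) : c.IsBoundedAt E2 2 := by
  rw [OnePoint.isBoundedAt_iff_forall_SL2Z hc]
  intro γ _
  exact eis_E2_slash_bdd γ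

open ConjAct Pointwise in
lemma eis_exists_conj (p : ℕ) [NeZero p] (γ : SL(2, ℤ)) (hγ : γ ∈ Gamma0 p) :
    ∃ δ : SL(2, ℤ), (mapGL ℝ δ : GL (Fin 2) ℝ) * heckeDiagMatrix p
      = heckeDiagMatrix p * mapGL ℝ γ := by
  have h := Fermat.Agent.S23.Gamma0_le_conj p (Subgroup.mem_map_of_mem (mapGL ℝ) hγ)
  rw [map_inv, Subgroup.mem_inv_pointwise_smul_iff, toConjAct_smul] at h
  obtain ⟨δ, hδ⟩ := h
  refine ⟨δ, ?_⟩
  rw [hδ]
  group

lemma eis_D2_slash (p : ℕ) [NeZero p] (γ δ : SL(2, ℤ))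
    (h : (mapGL ℝ δ : GL (Fin 2) ℝ) * heckeDiagMatrix p = heckeDiagMatrix p * mapGL ℝ γ) :
    D2 δ ∣[(2 : ℤ)] heckeDiagMatrix p = D2 γ := by
  have hp : p ≠ 0 := NeZero.ne p
  have hpC : (p : ℂ) ≠ 0 := by exact_mod_cast hp
  have hm := congrArg (fun g : GL (Fin 2) ℝ => (g : Matrix (Fin 2) (Fin 2) ℝ)) h
  simp only [Matrix.GeneralLinearGroup.coe_mul, val_heckeDiagMatrix hp] at hm
  have h10 := congrFun (congrFun hm 1) 0
  have h11 := congrFun (congrFun hm 1) 1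
  simp [Matrix.mul_apply, Fin.sum_univ_two] at h10 h11
  have h10' : ((δ 1 0 : ℤ) : ℂ) * p = ((γ 1 0 : ℤ) : ℂ) := by exact_mod_cast h10
  have h11' : ((δ 1 1 : ℤ) : ℂ) = ((γ 1 1 : ℤ) : ℂ) := by exact_mod_cast h11
  funext τ
  rw [slash_heckeDiagMatrix_apply 2 hp]
  simp only [D2, denom, coe_heckeDiagMatrix_smul hp]
  have e1 : ∀ (g : SL(2, ℤ)) (i j : Fin 2),
      (((toGL ((map (Int.castRingHom ℝ)) g) : GL (Fin 2) ℝ) : Matrix (Fin 2) (Fin 2) ℝ) i j : ℂ)
        = ((g i j : ℤ) : ℂ) := by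
    intro g i j
    simp
  rw [e1, e1, e1, e1, ← h10', ← h11']
  have e2 : ((δ 1 0 : ℤ) : ℂ) * ((p : ℂ) * τ) + ((δ 1 1 : ℤ) : ℂ)
      = ((δ 1 0 : ℤ) : ℂ) * p * τ + ((δ 1 1 : ℤ) : ℂ) := by ring
  rw [e2]
  norm_num
  ring

lemma eis_slash (p : ℕ) [NeZero p] (γ : SL(2, ℤ)) (hγ : γ ∈ Gamma0 p) :
    eisFun p ∣[(2 : ℤ)] (mapGL ℝ γ : GL (Fin 2) ℝ) = eisFun p := by
  obtain ⟨δ, hδ⟩ := eis_exists_conj p γ hγ
  have h1 : (E2 ∣[(2 : ℤ)] heckeDiagMatrix p) ∣[(2 : ℤ)] (mapGL ℝ γ : GL (Fin 2) ℝ)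
      = E2 ∣[(2 : ℤ)] heckeDiagMatrix p - (1 / (2 * riemannZeta 2)) • D2 γ := by
    rw [← SlashAction.slash_mul, ← hδ, SlashAction.slash_mul]
    have h2 : E2 ∣[(2 : ℤ)] (mapGL ℝ δ : GL (Fin 2) ℝ) = E2 ∣[(2 : ℤ)] δ := rfl
    rw [h2, E2_slash_action, sub_eq_add_neg, SlashAction.add_slash, SlashAction.neg_slash,
      ModularForm.smul_slash, eis_D2_slash p γ δ hδ, σ_heckeDiagMatrix, ← sub_eq_add_neg]
    rfl
  have h3 : E2 ∣[(2 : ℤ)] (mapGL ℝ γ : GL (Fin 2) ℝ) = E2 - (1 / (2 * riemannZeta 2)) • D2 γ :=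
    E2_slash_action γ
  rw [eisFun, sub_eq_add_neg, SlashAction.add_slash, SlashAction.neg_slash, h1, h3]
  abel

open ConjAct Pointwise in
/-- `p E₂(pτ) - E₂(τ)` as a modular form of weight `2` on `Γ₀(p)`. -/
def eisForm (p : ℕ) [NeZero p] : ModularForm (Gamma0 p) 2 where
  toFun := eisFun p
  slash_action_eq' γ hγ := by
    obtain ⟨γ', hγ', rfl⟩ := hγ
    exact eis_slash p γ' hγ'
  holo' := (E2_mdifferentiable.slash 2 (heckeDiagMatrix p)).sub E2_mdifferentiable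
  bdd_at_cusps' {c} hc := by
    have hc1 : IsCusp c 𝒮ℒ := hc.mono (Subgroup.map_le_range _ _)
    have hc2 : IsCusp (heckeDiagMatrix p • c) 𝒮ℒ := by
      have := (hc.mono (Fermat.Agent.S23.Gamma0_le_conj p)).smul (heckeDiagMatrix p)
      simpa using this
    have h1 : c.IsBoundedAt (E2 ∣[(2 : ℤ)] heckeDiagMatrix p) 2 :=
      OnePoint.IsBoundedAt.smul_iff.mp (eis_E2_bddAt hc2)
    have h2 : c.IsBoundedAt (-E2) 2 := by
      intro g hg
      rw [SlashAction.neg_slash]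
      exact (eis_E2_bddAt hc1 g hg).neg
    have := h1.add h2
    rwa [← sub_eq_add_neg] at this

lemma eis_sigma_split {p : ℕ} (hp : p ≠ 0) {n : ℕ} (hn : n ≠ 0) :
    ArithmeticFunction.sigma 1 n
      = sigmaP p n + (if p ∣ n then p * ArithmeticFunction.sigma 1 (n / p) else 0) := by
  rw [ArithmeticFunction.sigma_apply, sigmaP]
  simp only [pow_one]
  rw [← Finset.sum_filter_not_add_sum_filter n.divisors (fun d => p ∣ d)]
  congr 1
  split_ifs with h
  · obtain ⟨m, rfl⟩ := h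
    have hm : m ≠ 0 := by rintro rfl; simp at hn
    rw [Nat.mul_div_cancel_left m (Nat.pos_of_ne_zero hp), ArithmeticFunction.sigma_apply,
      Finset.mul_sum]
    simp only [pow_one]
    symm
    refine Finset.sum_nbij' (fun e => p * e) (fun d => d / p) ?_ ?_ ?_ ?_ ?_
    · intro e he
      rw [Nat.mem_divisors] at he
      rw [Finset.mem_filter, Nat.mem_divisors]
      exact ⟨⟨Nat.mul_dvd_mul_left p he.1, hn⟩, Dvd.intro _ rfl⟩
    · intro d hd
      rw [Finset.mem_filter, Nat.mem_divisors] at hd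
      obtain ⟨⟨h1, _⟩, e, rfl⟩ := hd
      rw [Nat.mul_div_cancel_left e (Nat.pos_of_ne_zero hp), Nat.mem_divisors]
      exact ⟨Nat.dvd_of_mul_dvd_mul_left (Nat.pos_of_ne_zero hp) h1, hm⟩
    · intro e _
      exact Nat.mul_div_cancel_left e (Nat.pos_of_ne_zero hp)
    · intro d hd
      rw [Finset.mem_filter] at hd
      exact Nat.mul_div_cancel' hd.2
    · intro e _
      rfl
  · apply Finset.sum_eq_zero
    intro d hd
    rw [Finset.mem_filter, Nat.mem_divisors] at hd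
    exact absurd (hd.2.trans hd.1.1) h

/-- coefficients of `E₂`. -/
def eisA (m : ℕ) : ℂ := if m = 0 then 1 else -24 * (ArithmeticFunction.sigma 1 m : ℂ)

lemma eis_hasSum_E2 (τ : ℍ) :
    HasSum (fun m : ℕ => eisA m • Function.Periodic.qParam 1 τ ^ m) (E2 τ) := by
  have h := hasSum_qExpansion_E2 (z := τ)
  simpa only [Function.Periodic.qParam, Complex.ofReal_one, div_one, eisA] using h

lemma eis_hasSum_E2_dil {p : ℕ} (hp : p ≠ 0) (τ : ℍ) :
    HasSum (fun n : ℕ => (if p ∣ n then eisA (n / p) else 0) • Function.Periodic.qParam 1 τ ^ n)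
      (E2 (heckeDiagMatrix p • τ)) := by
  have hD := eis_hasSum_E2 (heckeDiagMatrix p • τ)
  rw [P2MW.S_UpperHalfPlane_qCoeff_heckeT.M4cP1W2.qParam_heckeDiagMatrix_smul hp τ] at hD
  have hinj : Function.Injective (fun l : ℕ ↦ l * p) := mul_left_injective₀ hp
  refine (hinj.hasSum_iff (fun m hm => ?_)).mp ?_
  · have : ¬ p ∣ m := by
      intro ⟨l, hl⟩
      exact hm ⟨l, by simp [hl, mul_comm]⟩
    simp [this]
  · convert hD using 1
    funext l
    simp only [Function.comp_apply, if_pos (dvd_mul_left p l),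
      Nat.mul_div_cancel _ (Nat.pos_of_ne_zero hp)]
    rw [← pow_mul, mul_comm l p]

lemma eis_coeff {p : ℕ} (hp : p ≠ 0) (n : ℕ) :
    (p : ℂ) * (if p ∣ n then eisA (n / p) else 0) - eisA n
      = PowerSeries.coeff n (toC (eisZ p)) := by
  rw [toC, PowerSeries.coeff_map, eisZ, PowerSeries.coeff_mk]
  by_cases hn : n = 0
  · subst hn
    simp [eisA]
  · have hs := eis_sigma_split hp hn
    have hs' : (ArithmeticFunction.sigma 1 n : ℂ)
        = (sigmaP p n : ℂ) + (if p ∣ n then (p : ℂ) * (ArithmeticFunction.sigma 1 (n / p) : ℂ) else 0) := by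
      rw [hs]; push_cast; split_ifs <;> simp
    rw [if_neg hn]
    simp only [eisA, if_neg hn]
    rw [hs']
    split_ifs with h h0
    · exfalso
      obtain ⟨m, rfl⟩ := h
      rw [Nat.mul_div_cancel_left m (Nat.pos_of_ne_zero hp)] at h0
      subst h0
      simp at hn
    · simp only [eq_intCast]; push_cast; ring
    · simp only [eq_intCast]; push_cast; ring

/-- UB1-Eis -/
theorem exists_eis (p : ℕ) [Fact p.Prime] :
    ∃ E : ModularForm (Gamma0 p) 2, qExpansion 1 E = toC (eisZ p) := by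
  have hp : p ≠ 0 := (Fact.out : p.Prime).ne_zero
  have : NeZero p := ⟨hp⟩
  refine ⟨eisForm p, ?_⟩
  ext n
  symm
  refine ModularFormClass.qExpansion_coeff_unique (f := eisForm p)
    (c := fun n => PowerSeries.coeff n (toC (eisZ p)))
    one_pos (CongruenceSubgroup.one_mem_strictPeriods_Gamma0 p) (fun τ => ?_) n
  have h1 := ((eis_hasSum_E2_dil hp τ).mul_left (p : ℂ)).sub (eis_hasSum_E2 τ)
  have e : eisForm p τ = (p : ℂ) * E2 (heckeDiagMatrix p • τ) - E2 τ := eis_fun_apply hp τ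
  rw [e]
  have e2 : (fun m : ℕ => PowerSeries.coeff m (toC (eisZ p)) • Function.Periodic.qParam 1 τ ^ m)
      = fun m : ℕ => (p : ℂ) * ((if p ∣ m then eisA (m / p) else 0) •
          Function.Periodic.qParam 1 τ ^ m) - eisA m • Function.Periodic.qParam 1 τ ^ m := by
    funext m
    rw [← eis_coeff hp m]
    simp only [smul_eq_mul]
    ring
  rw [e2]
  exact h1

end Fermat.Agent.S16

end
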