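import Fermat.Agent.S16.NoConst
import Fermat.Agent.S16.Eis
import Fermat.Agent.ES.NumIndex
import Fermat.Prelude.Thm_ModularForm_sturm_bound_Gamma0

set_option autoImplicit false

open UpperHalfPlane ModularForm CongruenceSubgroup ModularGroup ModularCurve CuspForm
open scoped MatrixGroups ModularForm Manifold

noncomputable section

namespace Fermat.Agent.S16

/-- for `p = 2, 3` there are no cusp forms of weight two. -/
theorem upper_small (p : ℕ) [Fact p.Prime] (hp : p < 5) (h : CuspForm (Gamma0 p) 2) (n : ℕ) :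
    ModularFormClass.qCoeff h n = 0 := by
  have hpp : p.Prime := Fact.out
  have : NeZero p := ⟨hpp.ne_zero⟩
  have h1Γ := CongruenceSubgroup.one_mem_strictPeriods_Gamma0 p
  have hidx : (2 * ((Gamma0 p).index : ℤ)).toNat / 12 = 0 := by
    rw [Fermat.Agent.ES.index_Gamma0 p]
    have hpsi : dedekindPsi p = p + 1 := by
      have := Fermat.Agent.ES.dedekindPsi_prime_mul_of_not_dvd (p := p) (N := 1) hpp
        (by norm_num) (by simpa using hpp.one_lt.ne')
      simpa [dedekindPsi_one] using this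
    rw [hpsi]
    have : (2 * ((p + 1 : ℕ) : ℤ)).toNat = 2 * (p + 1) := by
      have : (2 * ((p + 1 : ℕ) : ℤ)) = ((2 * (p + 1) : ℕ) : ℤ) := by push_cast; ring
      rw [this, Int.toNat_natCast]
    rw [this]
    omega
  have hmf : (ModularFormClass.modularForm h : ModularForm (Gamma0 p) 2) = 0 := by
    refine ModularForm.sturm_bound_Gamma0 p _ fun n hn ↦ ?_
    rw [hidx] at hn
    obtain rfl : n = 0 := by omega
    exact CuspFormClass.qExpansion_coeff_zero h one_pos h1Γ
  have hcoe : (⇑h : ℍ → ℂ) = 0 := by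
    have := congrArg (fun F : ModularForm (Gamma0 p) 2 ↦ (⇑F : ℍ → ℂ)) hmf
    simpa using this
  unfold ModularFormClass.qCoeff
  rw [hcoe, qExpansion_zero]
  simp

/-- UB10-Main -/
theorem dvd_of_congruent (p : ℕ) [Fact p.Prime] (m : ℤ) (h : CuspForm (Gamma0 p) 2) (a : ℕ → ℤ)
    (ha : ∀ n, ModularFormClass.qCoeff h n = (a n : ℂ))
    (hcong : ∀ n, 1 ≤ n → m ∣ a n - (sigmaP p n : ℤ)) :
    m ∣ (eisensteinNumerator p : ℤ) := by
  have hpp : p.Prime := Fact.out
  have : NeZero p := ⟨hpp.ne_zero⟩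
  have h1Γ := CongruenceSubgroup.one_mem_strictPeriods_Gamma0 p
  by_cases hp : p < 5
  · -- no cusp forms
    have h1 : a 1 = 0 := by
      have := ha 1
      rw [upper_small p hp h 1] at this
      exact_mod_cast this.symm
    have h2 := hcong 1 le_rfl
    rw [h1, noConst_sigmaP_one] at h2
    have h3 : m ∣ 1 := by
      have := (dvd_neg (a := m) (b := (0 - ((1 : ℕ) : ℤ)))).2 h2
      simpa using this
    exact h3.trans (one_dvd _)
  rw [not_lt] at hp
  set ν : ℕ := Nat.gcd (p - 1) 12 with hν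
  have hνpos : 0 < ν := Nat.gcd_pos_of_pos_right _ (by norm_num)
  have hν12 : ν ∣ 12 := Nat.gcd_dvd_right _ _
  have hνp : ν ∣ p - 1 := Nat.gcd_dvd_left _ _
  set n : ℕ := eisensteinNumerator p with hn
  have hnν : n * ν = p - 1 := Nat.div_mul_cancel hνp
  set r : ℕ := 24 / ν with hr
  have hrν : r * ν = 24 := Nat.div_mul_cancel (hν12.trans (by norm_num))
  have hnpos : 0 < n := by
    rcases Nat.eq_zero_or_pos n with h0 | h0
    · rw [h0] at hnν
      omega
    · exact h0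
  -- the gcd
  set g : ℕ := Int.gcd (n : ℤ) m with hg
  have hgpos : 0 < g := Int.gcd_pos_of_ne_zero_left _ (by exact_mod_cast hnpos.ne')
  obtain ⟨n', hn'⟩ : (g : ℤ) ∣ (n : ℤ) := Int.gcd_dvd_left _ _
  obtain ⟨m', hm'⟩ : (g : ℤ) ∣ m := Int.gcd_dvd_right _ _
  have hcop : Int.gcd n' m' = 1 := by
    have h1 : Int.gcd ((g : ℤ) * n') ((g : ℤ) * m') = g := by rw [← hn', ← hm']
    rw [Int.gcd_mul_left] at h1
    simp only [Int.natAbs_natCast] at h1
    exact Nat.eq_of_mul_eq_mul_left hgpos (by rw [h1, mul_one])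
  by_cases hunit : m'.natAbs = 1
  · -- `m = ± g`
    have : m' ∣ 1 := by
      rw [← Int.natAbs_dvd_natAbs, hunit]
      simp
    rw [hm', hn']
    exact mul_dvd_mul_left _ (this.trans (one_dvd _))
  exfalso
  obtain ⟨ℓ, hℓ, hℓm⟩ := Nat.exists_prime_and_dvd hunit
  have hℓm' : (ℓ : ℤ) ∣ m' := Int.natCast_dvd.2 hℓm
  obtain ⟨m'', hm''⟩ := hℓm'
  have hℓn : ¬ (ℓ : ℤ) ∣ n' := by
    intro hd
    have : (ℓ : ℤ) ∣ (Int.gcd n' m' : ℤ) := Int.dvd_coe_gcd hd ⟨m'', hm''⟩
    rw [hcop] at this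
    have h2 : ℓ ∣ 1 := by exact_mod_cast this
    exact hℓ.one_lt.ne' (Nat.dvd_one.1 h2)
  choose! t ht using hcong
  obtain ⟨E, hE⟩ := exists_eis p
  set hM : ModularForm (Gamma0 p) 2 := ModularFormClass.modularForm h with hhM
  have hhMq : qExpansion 1 hM = qExpansion 1 h := rfl
  set F : ModularForm (Gamma0 p) 2 := ((1 : ℂ) / ((ν : ℂ) * (g : ℂ))) • (E - (24 : ℂ) • hM) with hF
  have hFq : qExpansion 1 F
      = ((1 : ℂ) / ((ν : ℂ) * (g : ℂ))) • (toC (eisZ p) - (24 : ℂ) • qExpansion 1 h) := by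
    rw [hF, FunLike.coe_smul, ModularForm.qExpansion_smul one_pos h1Γ, FunLike.coe_sub,
      ModularForm.qExpansion_sub one_pos h1Γ, FunLike.coe_smul,
      ModularForm.qExpansion_smul one_pos h1Γ, hE, hhMq]
  have hνC : (ν : ℂ) ≠ 0 := by exact_mod_cast hνpos.ne'
  have hgC : (g : ℂ) ≠ 0 := by exact_mod_cast hgpos.ne'
  refine no_const p hp ℓ hℓ F n' hℓn (fun k => - (m'' * t k)) ?_ ?_
  · rw [hFq]
    have h0 : (qExpansion 1 h).coeff 0 = 0 := CuspFormClass.qExpansion_coeff_zero h one_pos h1Γ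
    simp only [map_smul, map_sub, h0, smul_eq_mul, mul_zero, sub_zero, toC,
      PowerSeries.coeff_map, eisZ, PowerSeries.coeff_mk, if_true, eq_intCast]
    have h1 : ((p : ℤ) - 1 : ℤ) = (ν : ℤ) * ((g : ℤ) * n') := by
      rw [← hn']
      have : ((p - 1 : ℕ) : ℤ) = (p : ℤ) - 1 := by
        rw [Nat.cast_sub hpp.one_le]; simp
      rw [← this, ← hnν]
      push_cast
      ring
    rw [← Int.cast_sub, h1]
    push_cast
    field_simp
  · intro k hk
    show _ = (((r * ℓ : ℕ) * (- (m'' * t k)) : ℤ) : ℂ)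
    rw [hFq]
    have hak : (qExpansion 1 h).coeff k = (a k : ℂ) := ha k
    have hk0 : k ≠ 0 := by omega
    simp only [map_smul, map_sub, hak, smul_eq_mul, toC, PowerSeries.coeff_map,
      eisZ, PowerSeries.coeff_mk, if_neg hk0, eq_intCast]
    have h1 : a k = (sigmaP p k : ℤ) + (g : ℤ) * ((ℓ : ℤ) * m'') * t k := by
      have := ht k hk
      rw [hm', hm''] at this
      linarith
    have h24 : (24 : ℂ) = (r : ℂ) * (ν : ℂ) := by exact_mod_cast hrν.symm
    rw [h1]
    push_cast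
    rw [h24]
    field_simp
    ring

end Fermat.Agent.S16

end
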