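import Fermat.Agent.S16.Defs
import Fermat.Prelude.Sol.S_UpperHalfPlane_qCoeff_heckeT
import Fermat.Prelude.Thm_CongruenceSubgroup_one_mem_strictPeriods_Gamma0

set_option autoImplicit false

open UpperHalfPlane ModularForm CongruenceSubgroup ModularGroup ModularCurve CuspForm
open scoped MatrixGroups ModularForm Manifold Pointwise

noncomputable section

namespace Fermat.Agent.S16

namespace CalcAux

open Matrix.SpecialLinearGroup

/-- the Fricke matrix `S * diag(p, 1)`. -/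
def fricke (p : ℕ) : GL (Fin 2) ℝ := (mapGL ℝ S) * heckeDiagMatrix p

theorem atZero_eq (p : ℕ) (hp : p ≠ 0) (k : ℤ) (Φ : ℍ → ℂ) :
    atZero p k Φ = (((p : ℂ) ^ (k - 1))⁻¹) • (Φ ∣[k] fricke p) := by
  have hp' : (p : ℂ) ≠ 0 := by exact_mod_cast hp
  funext τ
  rw [fricke, SlashAction.slash_mul, Pi.smul_apply, slash_heckeDiagMatrix_apply k hp, smul_eq_mul,
    ← mul_assoc, inv_mul_cancel₀ (zpow_ne_zero _ hp'), one_mul]
  rfl

theorem mapGL_entry (δ : SL(2, ℤ)) (i j : Fin 2) :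
    ((mapGL ℝ δ : GL (Fin 2) ℝ) : Matrix (Fin 2) (Fin 2) ℝ) i j = ((δ i j : ℤ) : ℝ) := by
  rw [mapGL_coe_matrix]; rfl

open ConjAct in
theorem one_mem_strictPeriods_conj (p : ℕ) (hp : p ≠ 0) :
    (1 : ℝ) ∈ (toConjAct (fricke p)⁻¹ •
      ((Gamma0 p : Subgroup SL(2, ℤ)) : Subgroup (GL (Fin 2) ℝ))).strictPeriods := by
  rw [Subgroup.mem_strictPeriods_iff, map_inv, Subgroup.mem_inv_pointwise_smul_iff, toConjAct_smul]
  let δ : SL(2, ℤ) := ⟨!![1, 0; -(p : ℤ), 1], by rw [Matrix.det_fin_two_of]; ring⟩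
  refine ⟨δ, ?_, ?_⟩
  · show δ ∈ Gamma0 p
    rw [Gamma0_mem]
    simp [δ]
  · rw [eq_mul_inv_iff_mul_eq]
    apply Matrix.GeneralLinearGroup.ext
    intro i j
    simp only [fricke, Matrix.GeneralLinearGroup.coe_mul, val_heckeDiagMatrix hp]
    have d00 : δ 0 0 = 1 := rfl
    have d01 : δ 0 1 = 0 := rfl
    have d10 : δ 1 0 = -(p : ℤ) := rfl
    have d11 : δ 1 1 = 1 := rfl
    fin_cases i <;> fin_cases j <;>
      simp [Matrix.mul_apply, Fin.sum_univ_two, d00, d01, d10, d11,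
        Matrix.GeneralLinearGroup.upperRightHom]

theorem isNice_smul {g : ℍ → ℂ} (hg : S23.IsNice g) (c : ℂ) : S23.IsNice (c • g) := by
  have h1 := (S23.isNice_const c).mul hg
  convert h1 using 1
  funext z
  simp

end CalcAux

open CalcAux

/-- UB3-Calc -/
theorem isNice_atZero (p : ℕ) [Fact p.Prime] {k : ℤ} (f : ModularForm (Gamma0 p) k) :
    Fermat.Agent.S23.IsNice (atZero p k f) := by
  have hp : p ≠ 0 := (Fact.out : p.Prime).ne_zero
  rw [atZero_eq p hp]
  apply isNice_smul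
  exact S23.isNice_of_modularFormClass (one_mem_strictPeriods_conj p hp)
    (ModularForm.translate f (fricke p))

theorem isNice_Gamma0 (p : ℕ) {k : ℤ} (f : ModularForm (Gamma0 p) k) : S23.IsNice f :=
  S23.isNice_of_modularFormClass (CongruenceSubgroup.one_mem_strictPeriods_Gamma0 p) f

theorem IsTwoExp.add {p : ℕ} [Fact p.Prime] {k : ℤ} {Φ Ψ : ℍ → ℂ} {a b a' b' : PowerSeries ℂ}
    (h : IsTwoExp p k Φ a b) (h' : IsTwoExp p k Ψ a' b') :
    IsTwoExp p k (Φ + Ψ) (a + a') (b + b') := by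
  obtain ⟨f, rfl⟩ := h.mf
  obtain ⟨g, rfl⟩ := h'.mf
  refine ⟨⟨f + g, rfl⟩, ?_, ?_⟩
  · rw [qExpansion_add (isNice_Gamma0 p f).analyticAt (isNice_Gamma0 p g).analyticAt, h.inf, h'.inf]
  · have h1 : atZero p k (⇑f + ⇑g) = atZero p k f + atZero p k g := by
      funext τ
      simp only [atZero, SlashAction.add_slash, Pi.add_apply]
    rw [h1, qExpansion_add (isNice_atZero p f).analyticAt (isNice_atZero p g).analyticAt,
      h.zero, h'.zero]

theorem IsTwoExp.smul {p : ℕ} [Fact p.Prime] {k : ℤ} {Φ : ℍ → ℂ} {a b : PowerSeries ℂ}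
    (h : IsTwoExp p k Φ a b) (c : ℂ) :
    IsTwoExp p k (c • Φ) (PowerSeries.C c * a) (PowerSeries.C c * b) := by
  obtain ⟨f, rfl⟩ := h.mf
  refine ⟨⟨c • f, rfl⟩, ?_, ?_⟩
  · rw [qExpansion_smul (isNice_Gamma0 p f).analyticAt, h.inf, PowerSeries.smul_eq_C_mul]
  · have h1 : atZero p k (c • ⇑f) = c • atZero p k f := by
      funext τ
      simp only [atZero, ModularForm.SL_smul_slash, Pi.smul_apply]
    rw [h1, qExpansion_smul (isNice_atZero p f).analyticAt, h.zero, PowerSeries.smul_eq_C_mul]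

theorem IsTwoExp.mul {p : ℕ} [Fact p.Prime] {k k' : ℤ} {Φ Ψ : ℍ → ℂ} {a b a' b' : PowerSeries ℂ}
    (h : IsTwoExp p k Φ a b) (h' : IsTwoExp p k' Ψ a' b') :
    IsTwoExp p (k + k') (Φ * Ψ) (a * a') (b * b') := by
  obtain ⟨f, rfl⟩ := h.mf
  obtain ⟨g, rfl⟩ := h'.mf
  refine ⟨⟨f.mul g, rfl⟩, ?_, ?_⟩
  · rw [qExpansion_mul (isNice_Gamma0 p f).analyticAt (isNice_Gamma0 p g).analyticAt, h.inf, h'.inf]
  · have h1 : atZero p (k + k') (⇑f * ⇑g) = atZero p k f * atZero p k' g := by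
      funext τ
      simp only [atZero, ModularForm.mul_slash_SL2, Pi.mul_apply]
    rw [h1, qExpansion_mul (isNice_atZero p f).analyticAt (isNice_atZero p g).analyticAt,
      h.zero, h'.zero]

/-- restriction of a level one form to `Γ₀(p)`. -/
def restr (p : ℕ) {k : ℤ} (f : ModularForm 𝒮ℒ k) : ModularForm (Gamma0 p) k where
  toFun := f
  slash_action_eq' γ hγ := f.slash_action_eq' γ (Subgroup.map_le_range _ _ hγ)
  holo' := f.holo'
  bdd_at_cusps' hc := f.bdd_at_cusps' (hc.mono (Subgroup.map_le_range _ _))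

theorem isTwoExp_levelOne (p : ℕ) [Fact p.Prime] {k : ℤ} (f : ModularForm 𝒮ℒ k) :
    IsTwoExp p k f (qExpansion 1 f) (expand p (qExpansion 1 f)) := by
  have hp : p ≠ 0 := (Fact.out : p.Prime).ne_zero
  refine ⟨⟨restr p f, rfl⟩, rfl, ?_⟩
  have hnice : S23.IsNice (atZero p k f) := isNice_atZero p (restr p f)
  have hf : S23.IsNice f := S23.isNice_of_modularFormClass one_mem_strictPeriods_SL f
  have hS : (f : ℍ → ℂ) ∣[k] S = f :=
    SlashInvariantFormClass.slash_action_eq f _ ⟨S, rfl⟩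
  ext n
  symm
  refine P2MW.S_UpperHalfPlane_qCoeff_heckeT.M4cP1W2.qExpansion_coeff_unique'
    (c := fun n => (expand p (qExpansion 1 f)).coeff n) hnice.2.1.continuous hnice.analyticAt
    (fun τ => ?_) n
  have h := P2MW.S_UpperHalfPlane_qCoeff_heckeT.M4cP1W2.hasSum_diag (p := p) hp
    (f := f) hf.1 hf.2.1 hf.2.2 1 τ
  simp only [sub_self, zpow_zero, one_mul] at h
  have h2 : atZero p k f τ = f (heckeDiagMatrix p • τ) := by
    simp only [atZero, hS, dil]
  rw [h2]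
  convert h using 1
  funext m
  simp only [expand, PowerSeries.coeff_mk]
  split_ifs
  · rfl
  · simp

theorem qExpansion_E₄_eq : qExpansion 1 E₄ = toC e4Z := by
  ext n
  rw [EisensteinSeries.E_qExpansion_coeff _ ⟨2, rfl⟩]
  simp only [toC, e4Z, PowerSeries.coeff_map, PowerSeries.coeff_mk]
  by_cases h : n = 0
  · simp [h]
  · rw [if_neg h, if_neg h]
    have h1 : (ArithmeticFunction.sigma 3 n : ℕ) = sigma3 n := by
      simp [ArithmeticFunction.sigma_apply, sigma3]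
    norm_num [show bernoulli 4 = -1 / 30 by decide +kernel, h1]

theorem qExpansion_E₆_eq : qExpansion 1 E₆ = toC e6Z := by
  ext n
  rw [EisensteinSeries.E_qExpansion_coeff _ ⟨3, rfl⟩]
  simp only [toC, e6Z, PowerSeries.coeff_map, PowerSeries.coeff_mk]
  by_cases h : n = 0
  · simp [h]
  · rw [if_neg h, if_neg h]
    have h1 : (ArithmeticFunction.sigma 5 n : ℕ) = sigma5 n := by
      simp [ArithmeticFunction.sigma_apply, sigma5]
    norm_num [show bernoulli 6 = 1 / 42 by decide +kernel, h1]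

end Fermat.Agent.S16

end
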