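import Fermat.Agent.S16.Calc
import Fermat.Agent.ES.Gamma0Frame
import Fermat.Agent.ES.FrameBasics
import Fermat.Agent.ES.NumIndex

/-!
# S16: coset representatives of `Γ₀(p)` in `SL(2,ℤ)`; components of the vector valued form
-/

set_option autoImplicit false

open UpperHalfPlane ModularForm CongruenceSubgroup ModularGroup ModularCurve CuspForm
open scoped MatrixGroups ModularForm Manifold

noncomputable section

namespace Fermat.Agent.S16

namespace Cosets

/-- the representatives: `none ↦ 1`, `some j ↦ (S T^j)⁻¹`. -/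
def rep (p : ℕ) : Option (Fin p) → SL(2, ℤ)
  | none => 1
  | some j => (S * T ^ (j : ℕ))⁻¹

theorem ST_pow_coe (j : ℕ) : ((S * T ^ j : SL(2, ℤ)) : Matrix (Fin 2) (Fin 2) ℤ) =
    !![0, -1; 1, (j : ℤ)] := by
  rw [Matrix.SpecialLinearGroup.coe_mul, ← zpow_natCast, coe_T_zpow, coe_S]
  ext a b
  fin_cases a <;> fin_cases b <;> simp [Matrix.mul_apply, Fin.sum_univ_two]

theorem rep_some_00 (p : ℕ) (j : Fin p) : rep p (some j) 0 0 = (j : ℤ) := by
  simp only [rep]
  rw [Matrix.SpecialLinearGroup.coe_inv, ST_pow_coe, Matrix.adjugate_fin_two]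
  simp

theorem rep_some_10 (p : ℕ) (j : Fin p) : rep p (some j) 1 0 = -1 := by
  simp only [rep]
  rw [Matrix.SpecialLinearGroup.coe_inv, ST_pow_coe, Matrix.adjugate_fin_two]
  simp

theorem rep_injective (p : ℕ) [Fact p.Prime] :
    Function.Injective (fun x : Option (Fin p) => (rep p x : SL(2, ℤ) ⧸ Gamma0 p)) := by
  have hp : p.Prime := Fact.out
  have hp1 : ¬ (p : ℤ) ∣ 1 := by
    intro h
    have := Int.natCast_dvd_natCast.mp (by simpa using h : (p : ℤ) ∣ ((1 : ℕ) : ℤ))
    exact hp.one_lt.ne' (Nat.dvd_one.mp this)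
  intro x y hxy
  simp only [ES.coset_eq_iff] at hxy
  cases x with
  | none =>
    cases y with
    | none => rfl
    | some j =>
      exfalso
      rw [rep_some_00, rep_some_10] at hxy
      simp only [rep, Matrix.SpecialLinearGroup.coe_one, Matrix.one_apply_eq] at hxy
      apply hp1
      simpa using hxy
  | some i =>
    cases y with
    | none =>
      exfalso
      rw [rep_some_00, rep_some_10] at hxy
      simp only [rep, Matrix.SpecialLinearGroup.coe_one, Matrix.one_apply_eq] at hxy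
      apply hp1
      simpa using hxy
    | some j =>
      rw [rep_some_00, rep_some_10, rep_some_00, rep_some_10] at hxy
      have h1 : (p : ℤ) ∣ (j : ℤ) - (i : ℤ) := by
        have : (i : ℤ) * -1 - (j : ℤ) * -1 = (j : ℤ) - (i : ℤ) := by ring
        rwa [this] at hxy
      have hi := i.2
      have hj := j.2
      have h2 : (j : ℤ) - (i : ℤ) = 0 := by
        apply Int.eq_zero_of_abs_lt_dvd h1
        rw [abs_lt]
        constructor <;> omega
      congr 1
      apply Fin.ext
      omega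

theorem rep_surjective (p : ℕ) [Fact p.Prime] :
    Function.Surjective (fun x : Option (Fin p) => (rep p x : SL(2, ℤ) ⧸ Gamma0 p)) := by
  have hp : p.Prime := Fact.out
  intro q
  induction q using QuotientGroup.induction_on with
  | H g =>
    by_cases hc : (p : ℤ) ∣ g 1 0
    · refine ⟨none, ?_⟩
      simp only [ES.coset_eq_iff, rep, Matrix.SpecialLinearGroup.coe_one, Matrix.one_apply_eq]
      simpa using hc
    · -- choose `j` with `j * g 1 0 + g 0 0 ≡ 0`
      have hc' : ((g 1 0 : ℤ) : ZMod p) ≠ 0 := by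
        rwa [Ne, ZMod.intCast_zmod_eq_zero_iff_dvd]
      set j : ZMod p := - ((g 0 0 : ℤ) : ZMod p) * ((g 1 0 : ℤ) : ZMod p)⁻¹ with hj
      have : NeZero p := ⟨hp.ne_zero⟩
      refine ⟨some ⟨j.val, ZMod.val_lt j⟩, ?_⟩
      simp only [ES.coset_eq_iff]
      rw [rep_some_00, rep_some_10, ← ZMod.intCast_zmod_eq_zero_iff_dvd]
      push_cast
      rw [ZMod.natCast_val, ZMod.cast_id', id, hj]
      field_simp
      ring

/-- `Option (Fin p) ≃ SL(2,ℤ) ⧸ Γ₀(p)`. -/
def equiv (p : ℕ) [Fact p.Prime] : Option (Fin p) ≃ SL(2, ℤ) ⧸ Gamma0 p :=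
  Equiv.ofBijective _ ⟨rep_injective p, rep_surjective p⟩

theorem equiv_apply (p : ℕ) [Fact p.Prime] (x : Option (Fin p)) :
    equiv p x = (rep p x : SL(2, ℤ) ⧸ Gamma0 p) := rfl

theorem slash_ST {p : ℕ} (hp : p ≠ 0) (k : ℤ) (Φ : ℍ → ℂ) (j : ℕ) (τ : ℍ) :
    (Φ ∣[k] (S * T ^ j)) τ = atZero p k Φ (heckeMatrix p j • τ) := by
  have hp' : (p : ℂ) ≠ 0 := by exact_mod_cast hp
  have h2 : (T ^ j : SL(2, ℤ)) • τ = dil p (heckeMatrix p j • τ) := by
    apply UpperHalfPlane.ext
    rw [dil, coe_heckeDiagMatrix_smul hp, coe_heckeMatrix_smul hp, ← zpow_natCast,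
      coe_T_zpow_smul_eq]
    push_cast
    field_simp
  have h1 : denom ((T ^ j : SL(2, ℤ))) τ = 1 := by
    rw [← zpow_natCast, denom_apply, coe_T_zpow]
    simp
  rw [SlashAction.slash_mul, SL_slash_apply, h1, h2, one_zpow, mul_one]
  rfl

theorem slash_invariant {p : ℕ} {k : ℤ} (f : ModularForm (Gamma0 p) k) :
    ∀ γ ∈ Gamma0 p, (f : ℍ → ℂ) ∣[k] γ = f := by
  intro γ hγ
  exact SlashInvariantFormClass.slash_action_eq f _ ⟨γ, hγ, rfl⟩

/-- the components of the vector valued form attached to `f`. -/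
theorem vfOf_equiv_none {p : ℕ} [Fact p.Prime] {k : ℤ} (f : ModularForm (Gamma0 p) k) (z : ℍ) :
    ES.vfOf (Gamma0 p) k f (slash_invariant f) z (equiv p none) = f z := by
  rw [equiv_apply, ES.vfOf_mk]
  simp [rep]

theorem vfOf_equiv_some {p : ℕ} [Fact p.Prime] {k : ℤ} (f : ModularForm (Gamma0 p) k) (z : ℍ)
    (j : Fin p) :
    ES.vfOf (Gamma0 p) k f (slash_invariant f) z (equiv p (some j)) =
      atZero p k f (heckeMatrix p j • z) := by
  rw [equiv_apply, ES.vfOf_mk]
  simp only [rep, inv_inv]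
  exact slash_ST (Fact.out : p.Prime).ne_zero k f j z

end Cosets

end Fermat.Agent.S16

end
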