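import Fermat.Statements.S16
import Fermat.Agent.S23.Nice

/-!
# S16 (Mazur: `|T/I| = num((p-1)/12)`): common definitions
-/

set_option autoImplicit false

open UpperHalfPlane ModularForm CongruenceSubgroup ModularGroup ModularCurve CuspForm
open scoped MatrixGroups ModularForm Manifold

noncomputable section

namespace Fermat.Agent.S16

/-- evaluation of Hecke polynomials at the Eisenstein system `T_ℓ ↦ 1 + ℓ`, `U_p ↦ 1`. -/
def eps (p : ℕ) : HeckeAlg →+* ℤ :=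
  (MvPolynomial.aeval (R := ℤ) (eisensteinSystem p)).toRingHom

/-- the ring hom from Hecke polynomials to the Hecke algebra acting on the integral lattice. -/
def piL (p : ℕ) [NeZero p] : HeckeAlg →+* ↥(heckeLatticeAlgebra p ∅) :=
  (latticeRestrictHom p ∅).toRingHom.comp (heckeEvalForms p 2)

/-- `σ'(n) = ∑_{d ∣ n, p ∤ d} d`. -/
def sigmaP (p n : ℕ) : ℕ := ∑ d ∈ n.divisors.filter (fun d => ¬ p ∣ d), d

/-- `σ₃(n)`. -/
def sigma3 (n : ℕ) : ℕ := ∑ d ∈ n.divisors, d ^ 3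

/-- `σ₅(n)`. -/
def sigma5 (n : ℕ) : ℕ := ∑ d ∈ n.divisors, d ^ 5

/-- `1 + 240 ∑ σ₃(n) qⁿ`. -/
def e4Z : PowerSeries ℤ := PowerSeries.mk fun n => if n = 0 then 1 else 240 * (sigma3 n : ℤ)

/-- `1 - 504 ∑ σ₅(n) qⁿ`. -/
def e6Z : PowerSeries ℤ := PowerSeries.mk fun n => if n = 0 then 1 else -504 * (sigma5 n : ℤ)

/-- `(p - 1) + 24 ∑ σ'(n) qⁿ`, the `q`-expansion of `24 E`. -/
def eisZ (p : ℕ) : PowerSeries ℤ :=
  PowerSeries.mk fun n => if n = 0 then (p : ℤ) - 1 else 24 * (sigmaP p n : ℤ)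

/-- cast of an integral power series to `ℂ`. -/
abbrev toC (a : PowerSeries ℤ) : PowerSeries ℂ := a.map (Int.castRingHom ℂ)

/-- `a(q) ↦ a(q^p)`. -/
def expand {R : Type*} [CommSemiring R] (p : ℕ) (a : PowerSeries R) : PowerSeries R :=
  PowerSeries.mk fun n => if p ∣ n then PowerSeries.coeff (n / p) a else 0

/-- `∑ aₙ qⁿ ↦ ∑ a_{pn} qⁿ`. -/
def uOp {R : Type*} [CommSemiring R] (p : ℕ) (a : PowerSeries R) : PowerSeries R :=
  PowerSeries.mk fun n => PowerSeries.coeff (p * n) a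

/-- `τ ↦ p τ`. -/
def dil (p : ℕ) (τ : ℍ) : ℍ := heckeDiagMatrix p • τ

/-- `τ ↦ (Φ ∣[k] S)(p τ)`: the expansion of `Φ` at the cusp `0`, made `1`-periodic. -/
def atZero (p : ℕ) (k : ℤ) (Φ : ℍ → ℂ) : ℍ → ℂ := fun τ => (Φ ∣[k] S) (dil p τ)

/-- `Φ` is a modular form of weight `k` on `Γ₀(p)` with `q`-expansion `a` at `∞` and such that
`τ ↦ (Φ ∣[k] S)(p τ)` has `q`-expansion `b`. -/
structure IsTwoExp (p : ℕ) (k : ℤ) (Φ : ℍ → ℂ) (a b : PowerSeries ℂ) : Prop where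
  mf : ∃ f : ModularForm (Gamma0 p) k, ⇑f = Φ
  inf : qExpansion 1 Φ = a
  zero : qExpansion 1 (atZero p k Φ) = b

end Fermat.Agent.S16

end
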