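import Mathlib
import Fermat.Prelude.Def_ModularForm_HeckeOperator
import Fermat.Prelude.Def_ModularCurve_PeriodHomPair
import Fermat.Prelude.Def_CuspForm_HeckeEvalForms
import Fermat.Prelude.Def_ModularCurve_ModularUnit

/-!
# S16, lower bound: shared definitions

`Γ = Gamma0 N`.  Hecke operators on functions `Γ → A` (group cohomology in degree one, no cocycle
formalism needed), the Eisenstein class `lam`.
-/

set_option autoImplicit false

namespace Fermat.Agent.S16

open CongruenceSubgroup Matrix.SpecialLinearGroup ModularForm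
open scoped MatrixGroups

/-- index set of the Hecke representatives at `ℓ` in level `N`: `some j ↔ heckeMatrix ℓ j`,
`none ↔ heckeDiagMatrix ℓ` (allowed only if `ℓ ∤ N`). -/
def HIdx (N ℓ : ℕ) : Type := {x : Option (Fin ℓ) // x = none → ¬ ℓ ∣ N}

noncomputable instance (N ℓ : ℕ) : Fintype (HIdx N ℓ) := by
  classical
  exact Subtype.fintype _

/-- the Hecke representatives, exactly the matrices used by the Prelude `heckeT`, `heckeU`. -/
noncomputable def hRep (ℓ : ℕ) : Option (Fin ℓ) → GL (Fin 2) ℝ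
  | some j => heckeMatrix ℓ j
  | none => heckeDiagMatrix ℓ

/-- elements of trace `0, ±1, ±2` (elliptic, parabolic, `±1`). -/
def SmallTrace (γ : SL(2, ℤ)) : Prop := (γ : Matrix (Fin 2) (Fin 2) ℤ).trace ^ 2 ≤ 4

/-- homs killing all elements of small trace. -/
def smallHoms (k : Type) [Field k] (Γ : Subgroup SL(2, ℤ)) : Submodule k (Additive Γ →+ k) where
  carrier := {φ | ∀ γ : Γ, SmallTrace γ → φ (Additive.ofMul γ) = 0}
  zero_mem' := fun _ _ => rfl
  add_mem' := by
    intro φ ψ hφ hψ γ hγ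
    show φ (Additive.ofMul γ) + ψ (Additive.ofMul γ) = 0
    rw [hφ γ hγ, hψ γ hγ, add_zero]
  smul_mem' := by
    intro c φ hφ γ hγ
    show c • φ (Additive.ofMul γ) = 0
    rw [hφ γ hγ, smul_zero]

/-- upper left entry mod `N`, a monoid hom on `Gamma0 N`. -/
def a00 (N : ℕ) : Gamma0 N →* ZMod N where
  toFun γ := (((γ : SL(2, ℤ)) 0 0 : ℤ) : ZMod N)
  map_one' := by simp
  map_mul' γ δ := by
    have h : ((((δ : SL(2, ℤ)) 1 0 : ℤ)) : ZMod N) = 0 := Gamma0_mem.mp δ.2
    simp only [Subgroup.coe_mul, Matrix.SpecialLinearGroup.coe_mul, Matrix.mul_apply,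
      Fin.sum_univ_two, Int.cast_add, Int.cast_mul, h, mul_zero, add_zero]

/-- The Eisenstein class: `γ ↦ (a mod p)^12`, with values in the additive group of `(ZMod p)ˣ`. -/
noncomputable def lam (p : ℕ) (γ : Gamma0 p) : Additive (ZMod p)ˣ :=
  Additive.ofMul ((a00 p).toHomUnits γ ^ 12)

end Fermat.Agent.S16
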