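import Fermat.Agent.S16.Defs
import Fermat.Prelude.Thm_ModularForm_heckeU_slash_eq_self_of_mem_Gamma0
import Fermat.Prelude.Thm_ModularForm_isBoundedAtImInfty_heckeU
import Fermat.Prelude.Thm_ModularForm_mdifferentiable_heckeU
import Fermat.Prelude.Thm_ModularFormClass_qCoeff_heckeU
import Fermat.Prelude.Thm_CongruenceSubgroup_one_mem_strictPeriods_Gamma0
import Fermat.Prelude.Def_ModularForm_HeckeOperatorForms

set_option autoImplicit false

open UpperHalfPlane ModularForm CongruenceSubgroup ModularGroup ModularCurve CuspForm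
open Matrix.SpecialLinearGroup
open scoped MatrixGroups ModularForm Manifold

noncomputable section

namespace Fermat.Agent.S16

/-- equality in `GL₂(ℝ)` from equality of the four entries. -/
theorem ss_ext {A B : GL (Fin 2) ℝ}
    (h00 : (A : Matrix (Fin 2) (Fin 2) ℝ) 0 0 = (B : Matrix (Fin 2) (Fin 2) ℝ) 0 0)
    (h01 : (A : Matrix (Fin 2) (Fin 2) ℝ) 0 1 = (B : Matrix (Fin 2) (Fin 2) ℝ) 0 1)
    (h10 : (A : Matrix (Fin 2) (Fin 2) ℝ) 1 0 = (B : Matrix (Fin 2) (Fin 2) ℝ) 1 0)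
    (h11 : (A : Matrix (Fin 2) (Fin 2) ℝ) 1 1 = (B : Matrix (Fin 2) (Fin 2) ℝ) 1 1) : A = B := by
  apply Units.ext
  ext i j
  fin_cases i <;> fin_cases j
  · exact h00
  · exact h01
  · exact h10
  · exact h11

theorem ss_mapGL_apply (g : SL(2, ℤ)) (i j : Fin 2) :
    (mapGL ℝ g : Matrix (Fin 2) (Fin 2) ℝ) i j = ((g i j : ℤ) : ℝ) := by
  simp [mapGL_coe_matrix]

/-- an element of `SL₂(ℤ)` from its entries. -/
def ss_mk (a b c d : ℤ) (h : a * d - b * c = 1) : SL(2, ℤ) :=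
  ⟨!![a, b; c, d], by rw [Matrix.det_fin_two_of]; exact h⟩

theorem ss_mk_00 (a b c d : ℤ) (h : a * d - b * c = 1) : ss_mk a b c d h 0 0 = a := rfl
theorem ss_mk_01 (a b c d : ℤ) (h : a * d - b * c = 1) : ss_mk a b c d h 0 1 = b := rfl
theorem ss_mk_10 (a b c d : ℤ) (h : a * d - b * c = 1) : ss_mk a b c d h 1 0 = c := rfl
theorem ss_mk_11 (a b c d : ℤ) (h : a * d - b * c = 1) : ss_mk a b c d h 1 1 = d := rfl
theorem ss_S_00 : (S : SL(2, ℤ)) 0 0 = 0 := rfl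
theorem ss_S_01 : (S : SL(2, ℤ)) 0 1 = -1 := rfl
theorem ss_S_10 : (S : SL(2, ℤ)) 1 0 = 1 := rfl
theorem ss_S_11 : (S : SL(2, ℤ)) 1 1 = 0 := rfl
theorem ss_T_00 : (T : SL(2, ℤ)) 0 0 = 1 := rfl
theorem ss_T_01 : (T : SL(2, ℤ)) 0 1 = 1 := rfl
theorem ss_T_10 : (T : SL(2, ℤ)) 1 0 = 0 := rfl
theorem ss_T_11 : (T : SL(2, ℤ)) 1 1 = 1 := rfl

theorem ss_D_00 {p : ℕ} (hp : p ≠ 0) :
    (heckeDiagMatrix p : Matrix (Fin 2) (Fin 2) ℝ) 0 0 = p := by simp [val_heckeDiagMatrix hp]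
theorem ss_D_01 {p : ℕ} (hp : p ≠ 0) :
    (heckeDiagMatrix p : Matrix (Fin 2) (Fin 2) ℝ) 0 1 = 0 := by simp [val_heckeDiagMatrix hp]
theorem ss_D_10 {p : ℕ} (hp : p ≠ 0) :
    (heckeDiagMatrix p : Matrix (Fin 2) (Fin 2) ℝ) 1 0 = 0 := by simp [val_heckeDiagMatrix hp]
theorem ss_D_11 {p : ℕ} (hp : p ≠ 0) :
    (heckeDiagMatrix p : Matrix (Fin 2) (Fin 2) ℝ) 1 1 = 1 := by simp [val_heckeDiagMatrix hp]
theorem ss_B_00 {p : ℕ} (hp : p ≠ 0) (j : ℕ) :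
    (heckeMatrix p j : Matrix (Fin 2) (Fin 2) ℝ) 0 0 = 1 := by simp [val_heckeMatrix hp]
theorem ss_B_01 {p : ℕ} (hp : p ≠ 0) (j : ℕ) :
    (heckeMatrix p j : Matrix (Fin 2) (Fin 2) ℝ) 0 1 = j := by simp [val_heckeMatrix hp]
theorem ss_B_10 {p : ℕ} (hp : p ≠ 0) (j : ℕ) :
    (heckeMatrix p j : Matrix (Fin 2) (Fin 2) ℝ) 1 0 = 0 := by simp [val_heckeMatrix hp]
theorem ss_B_11 {p : ℕ} (hp : p ≠ 0) (j : ℕ) :
    (heckeMatrix p j : Matrix (Fin 2) (Fin 2) ℝ) 1 1 = p := by simp [val_heckeMatrix hp]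

theorem ss_mk_mem (p : ℕ) (a b c d : ℤ) (h : a * d - b * c = 1) (hc : (p : ℤ) ∣ c) :
    mapGL ℝ (ss_mk a b c d h) ∈ (Gamma0 p : Subgroup (GL (Fin 2) ℝ)) := by
  refine ⟨ss_mk a b c d h, ?_, rfl⟩
  rw [SetLike.mem_coe, Gamma0_mem]
  show ((c : ℤ) : ZMod p) = 0
  exact (ZMod.intCast_zmod_eq_zero_iff_dvd c p).mpr hc

theorem ss_inv (p : ℕ) (F : ModularForm (Gamma0 p) 2) (a b c d : ℤ) (h : a * d - b * c = 1)
    (hc : (p : ℤ) ∣ c) : (⇑F) ∣[(2 : ℤ)] (mapGL ℝ (ss_mk a b c d h)) = ⇑F :=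
  SlashInvariantFormClass.slash_action_eq F _ (ss_mk_mem p a b c d h hc)

/-- `S D T = γ₀ S D`. -/
theorem ss_rel_T {p : ℕ} (hp : p ≠ 0) :
    mapGL ℝ S * heckeDiagMatrix p * mapGL ℝ T =
      mapGL ℝ (ss_mk 1 0 (-p) 1 (by ring)) * (mapGL ℝ S * heckeDiagMatrix p) := by
  apply ss_ext <;>
  simp only [Matrix.GeneralLinearGroup.coe_mul, Matrix.mul_apply, Fin.sum_univ_two, ss_mapGL_apply,
    ss_D_00 hp, ss_D_01 hp, ss_D_10 hp, ss_D_11 hp, ss_mk_00, ss_mk_01, ss_mk_10, ss_mk_11,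
    ss_S_00, ss_S_01, ss_S_10, ss_S_11, ss_T_00, ss_T_01, ss_T_10, ss_T_11] <;>
  push_cast <;> ring

/-- `S D S = (-1) β₀`. -/
theorem ss_rel_SDS {p : ℕ} (hp : p ≠ 0) :
    mapGL ℝ S * heckeDiagMatrix p * mapGL ℝ S =
      mapGL ℝ (ss_mk (-1) 0 0 (-1) (by ring)) * heckeMatrix p 0 := by
  apply ss_ext <;>
  simp only [Matrix.GeneralLinearGroup.coe_mul, Matrix.mul_apply, Fin.sum_univ_two, ss_mapGL_apply,
    ss_D_00 hp, ss_D_01 hp, ss_D_10 hp, ss_D_11 hp, ss_mk_00, ss_mk_01, ss_mk_10, ss_mk_11,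
    ss_B_00 hp, ss_B_01 hp, ss_B_10 hp, ss_B_11 hp,
    ss_S_00, ss_S_01, ss_S_10, ss_S_11] <;>
  push_cast <;> ring

/-- `β₀ S = S D`. -/
theorem ss_rel_zero {p : ℕ} (hp : p ≠ 0) :
    heckeMatrix p 0 * mapGL ℝ S = mapGL ℝ S * heckeDiagMatrix p := by
  apply ss_ext <;>
  simp only [Matrix.GeneralLinearGroup.coe_mul, Matrix.mul_apply, Fin.sum_univ_two, ss_mapGL_apply,
    ss_D_00 hp, ss_D_01 hp, ss_D_10 hp, ss_D_11 hp,
    ss_B_00 hp, ss_B_01 hp, ss_B_10 hp, ss_B_11 hp,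
    ss_S_00, ss_S_01, ss_S_10, ss_S_11] <;>
  push_cast <;> ring

/-- `β_j S = γ β_{j'}` if `j j' + 1 = p m`. -/
theorem ss_rel_j {p : ℕ} (hp : p ≠ 0) (j j' : ℕ) (m : ℤ) (hm : (j : ℤ) * j' + 1 = p * m) :
    heckeMatrix p j * mapGL ℝ S =
      mapGL ℝ (ss_mk j (-m) p (-j') (by linear_combination -hm)) * heckeMatrix p j' := by
  have hm' : (j : ℝ) * j' + 1 = p * m := by exact_mod_cast hm
  apply ss_ext <;>
  simp only [Matrix.GeneralLinearGroup.coe_mul, Matrix.mul_apply, Fin.sum_univ_two, ss_mapGL_apply,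
    ss_mk_00, ss_mk_01, ss_mk_10, ss_mk_11,
    ss_B_00 hp, ss_B_01 hp, ss_B_10 hp, ss_B_11 hp,
    ss_S_00, ss_S_01, ss_S_10, ss_S_11] <;>
  push_cast
  · ring
  · linear_combination -hm'
  · ring
  · ring

/-- `F ∣ W`, `W = S D`. -/
def ss_A (p : ℕ) (F : ℍ → ℂ) : ℍ → ℂ := F ∣[(2 : ℤ)] (mapGL ℝ S * heckeDiagMatrix p)

/-- the trace of `F ∣ W`. -/
def ss_H (p : ℕ) (F : ℍ → ℂ) : ℍ → ℂ := ss_A p F + heckeU 2 p F

theorem ss_A_T {p : ℕ} (hp : p ≠ 0) (F : ModularForm (Gamma0 p) 2) :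
    ss_A p F ∣[(2 : ℤ)] mapGL ℝ T = ss_A p F := by
  unfold ss_A
  rw [← SlashAction.slash_mul, ss_rel_T hp, SlashAction.slash_mul, ss_inv p F _ _ _ _ _ (by simp)]

theorem ss_T_mem (p : ℕ) : mapGL ℝ T ∈ (Gamma0 p : Subgroup (GL (Fin 2) ℝ)) := by
  refine ⟨T, ?_, rfl⟩
  rw [SetLike.mem_coe, Gamma0_mem, ss_T_10]
  simp

theorem ss_H_T {p : ℕ} (hp : p ≠ 0) (F : ModularForm (Gamma0 p) 2) :
    ss_H p F ∣[(2 : ℤ)] mapGL ℝ T = ss_H p F := by
  unfold ss_H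
  rw [SlashAction.add_slash, ss_A_T hp,
    heckeU_slash_eq_self_of_mem_Gamma0 2 (dvd_refl p)
      (fun γ hγ => SlashInvariantFormClass.slash_action_eq F γ hγ) _ (ss_T_mem p)]

theorem ss_A_S {p : ℕ} (hp : p ≠ 0) (F : ModularForm (Gamma0 p) 2) :
    ss_A p F ∣[(2 : ℤ)] mapGL ℝ S = (⇑F) ∣[(2 : ℤ)] heckeMatrix p 0 := by
  unfold ss_A
  rw [← SlashAction.slash_mul, ss_rel_SDS hp, SlashAction.slash_mul,
    ss_inv p F _ _ _ _ _ (by simp)]

theorem ss_B0_S {p : ℕ} (hp : p ≠ 0) (F : ℍ → ℂ) :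
    (F ∣[(2 : ℤ)] heckeMatrix p 0) ∣[(2 : ℤ)] mapGL ℝ S = ss_A p F := by
  unfold ss_A
  rw [← SlashAction.slash_mul, ss_rel_zero hp]

/-- the involution `j ↦ -1/j` on `{1, …, p-1}`. -/
def ss_iota (p : ℕ) (j : ℕ) : ℕ := (-((j : ZMod p))⁻¹).val

theorem ss_iota_spec (p : ℕ) [Fact p.Prime] {j : ℕ} (hj : j ∈ (Finset.range p).erase 0) :
    ss_iota p j ∈ (Finset.range p).erase 0 ∧ ss_iota p (ss_iota p j) = j ∧
      (p : ℤ) ∣ (j : ℤ) * ss_iota p j + 1 := by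
  have hp : p.Prime := Fact.out
  have : NeZero p := ⟨hp.ne_zero⟩
  rw [Finset.mem_erase, Finset.mem_range] at hj
  have hj0 : (j : ZMod p) ≠ 0 := by
    intro h
    rw [ZMod.natCast_eq_zero_iff] at h
    exact hj.1 (Nat.eq_zero_of_dvd_of_lt h hj.2)
  have hcast : ((ss_iota p j : ℕ) : ZMod p) = -((j : ZMod p))⁻¹ := by
    unfold ss_iota
    rw [ZMod.natCast_val, ZMod.cast_id', id]
  refine ⟨?_, ?_, ?_⟩
  · rw [Finset.mem_erase, Finset.mem_range]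
    refine ⟨?_, ZMod.val_lt _⟩
    intro h
    have : ((ss_iota p j : ℕ) : ZMod p) = 0 := by rw [h]; simp
    rw [hcast, neg_eq_zero, inv_eq_zero] at this
    exact hj0 this
  · show (-(((ss_iota p j : ℕ) : ZMod p))⁻¹).val = j
    rw [hcast, inv_neg, inv_inv, neg_neg, ZMod.val_natCast, Nat.mod_eq_of_lt hj.2]
  · rw [← ZMod.intCast_zmod_eq_zero_iff_dvd]
    push_cast
    rw [hcast]
    field_simp
    ring

theorem ss_Bj_S (p : ℕ) [Fact p.Prime] (F : ModularForm (Gamma0 p) 2) {j : ℕ}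
    (hj : j ∈ (Finset.range p).erase 0) :
    ((⇑F) ∣[(2 : ℤ)] heckeMatrix p j) ∣[(2 : ℤ)] mapGL ℝ S =
      (⇑F) ∣[(2 : ℤ)] heckeMatrix p (ss_iota p j) := by
  have hp : p.Prime := Fact.out
  obtain ⟨m, hm⟩ := (ss_iota_spec p hj).2.2
  rw [← SlashAction.slash_mul, ss_rel_j hp.ne_zero j (ss_iota p j) m hm, SlashAction.slash_mul,
    ss_inv p F _ _ _ _ _ (dvd_refl _)]

theorem ss_H_S (p : ℕ) [Fact p.Prime] (F : ModularForm (Gamma0 p) 2) :
    ss_H p F ∣[(2 : ℤ)] mapGL ℝ S = ss_H p F := by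
  have hp : p.Prime := Fact.out
  have h0 : 0 ∈ Finset.range p := Finset.mem_range.mpr hp.pos
  unfold ss_H
  rw [SlashAction.add_slash, ss_A_S hp.ne_zero, heckeU_def, SlashAction.sum_slash,
    ← Finset.add_sum_erase _ _ h0, ← Finset.add_sum_erase _ _ h0, ss_B0_S hp.ne_zero]
  have hsum : ∑ j ∈ (Finset.range p).erase 0,
      ((⇑F) ∣[(2 : ℤ)] heckeMatrix p j) ∣[(2 : ℤ)] mapGL ℝ S =
      ∑ j ∈ (Finset.range p).erase 0, (⇑F) ∣[(2 : ℤ)] heckeMatrix p j := by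
    rw [Finset.sum_congr rfl fun j hj => ss_Bj_S p F hj]
    exact Finset.sum_nbij' (ss_iota p) (ss_iota p) (fun j hj => (ss_iota_spec p hj).1)
      (fun j hj => (ss_iota_spec p hj).1) (fun j hj => (ss_iota_spec p hj).2.1)
      (fun j hj => (ss_iota_spec p hj).2.1) (fun j _ => rfl)
  rw [hsum]
  abel

theorem ss_H_SL (p : ℕ) [Fact p.Prime] (F : ModularForm (Gamma0 p) 2) (g : SL(2, ℤ)) :
    ss_H p F ∣[(2 : ℤ)] mapGL ℝ g = ss_H p F := by
  have hp : p.Prime := Fact.out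
  have hg : g ∈ Subgroup.closure ({S, T} : Set SL(2, ℤ)) := by
    rw [_root_.SpecialLinearGroup.SL2Z_generators]
    trivial
  induction hg using Subgroup.closure_induction with
  | mem x hx =>
    rcases hx with rfl | hx
    · exact ss_H_S p F
    · rw [Set.mem_singleton_iff.mp hx]
      exact ss_H_T hp.ne_zero F
  | one => rw [map_one, SlashAction.slash_one]
  | mul x y _ _ hx hy => rw [map_mul, SlashAction.slash_mul, hx, hy]
  | inv x _ hx =>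
    conv_lhs => rw [← hx]
    rw [← SlashAction.slash_mul, ← map_mul, mul_inv_cancel, map_one, SlashAction.slash_one]

theorem ss_H_holo (p : ℕ) (F : ModularForm (Gamma0 p) 2) : MDiff (ss_H p F) :=
  ((ModularFormClass.holo F).slash 2 _).add (mdifferentiable_heckeU (ModularFormClass.holo F) 2 p)

theorem ss_H_bdd (p : ℕ) [Fact p.Prime] (F : ModularForm (Gamma0 p) 2) :
    IsBoundedAtImInfty (ss_H p F) := by
  have hp : p.Prime := Fact.out
  have : NeZero p := ⟨hp.ne_zero⟩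
  have h1 : IsBoundedAtImInfty ((⇑F) ∣[(2 : ℤ)] (S : SL(2, ℤ))) :=
    ModularFormClass.bdd_at_infty_slash F S
  have h2 : IsBoundedAtImInfty (ss_A p F) := by
    unfold ss_A
    rw [SlashAction.slash_mul]
    exact IsBoundedAtImInfty.slash 2 (ss_D_10 hp.ne_zero) h1
  have h3 : IsBoundedAtImInfty (⇑F) := by
    have := ModularFormClass.bdd_at_infty_slash F (1 : SL(2, ℤ))
    simpa using this
  exact h2.add (isBoundedAtImInfty_heckeU h3 2 p)

theorem ss_H_eq_zero (p : ℕ) [Fact p.Prime] (F : ModularForm (Gamma0 p) 2) : ss_H p F = 0 := by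
  let f' : ModularForm 𝒮ℒ 2 :=
    { toFun := ss_H p F
      slash_action_eq' := by
        rintro _ ⟨g, rfl⟩
        exact ss_H_SL p F g
      holo' := ss_H_holo p F
      bdd_at_cusps' := by
        intro c hc
        rw [OnePoint.isBoundedAt_iff_forall_SL2Z hc]
        intro g _
        rw [ModularForm.SL_slash]
        rw [show ((g : SL(2, ℤ)) : GL (Fin 2) ℝ) = mapGL ℝ g from rfl, ss_H_SL p F g]
        exact ss_H_bdd p F }
  have h0 : f' = 0 := rank_zero_iff_forall_zero.mp ModularForm.levelOne_weight_two_rank_zero f'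
  have : (⇑f' : ℍ → ℂ) = 0 := by rw [h0]; rfl
  exact this

theorem ss_A_apply {p : ℕ} (hp : p ≠ 0) (F : ℍ → ℂ) (τ : ℍ) :
    ss_A p F τ = (p : ℂ) * atZero p 2 F τ := by
  unfold ss_A atZero dil
  rw [SlashAction.slash_mul, slash_heckeDiagMatrix_apply 2 hp, ModularForm.SL_slash]
  rw [show (2 : ℤ) - 1 = 1 by norm_num, zpow_one]
  rfl

/-- UB2-SlashS -/
theorem atZero_weight_two (p : ℕ) [Fact p.Prime] (F : ModularForm (Gamma0 p) 2) (τ : ℍ) :
    atZero p 2 F τ = -(p : ℂ)⁻¹ * heckeU 2 p F τ := by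
  have hp : p.Prime := Fact.out
  have hp' : (p : ℂ) ≠ 0 := by exact_mod_cast hp.ne_zero
  have h := congrFun (ss_H_eq_zero p F) τ
  unfold ss_H at h
  rw [Pi.add_apply, ss_A_apply hp.ne_zero, Pi.zero_apply] at h
  field_simp
  linear_combination h

theorem ss_heckeU_eq (p : ℕ) [Fact p.Prime] (F : ModularForm (Gamma0 p) 2) :
    heckeU 2 p F = -ss_A p F := by
  have h := ss_H_eq_zero p F
  unfold ss_H at h
  exact eq_neg_of_add_eq_zero_right h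

theorem ss_A_A {p : ℕ} (hp : p ≠ 0) (F : ModularForm (Gamma0 p) 2) :
    ss_A p (ss_A p F) = F := by
  have hp' : (p : ℂ) ≠ 0 := by exact_mod_cast hp
  have h1 : ss_A p (ss_A p F) =
      ((⇑F) ∣[(2 : ℤ)] heckeMatrix p 0) ∣[(2 : ℤ)] heckeDiagMatrix p := by
    conv_lhs => unfold ss_A
    rw [← SlashAction.slash_mul, ← mul_assoc, ss_rel_SDS hp, SlashAction.slash_mul,
      SlashAction.slash_mul, ss_inv p F _ _ _ _ _ (by simp)]
  rw [h1]
  funext τ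
  rw [slash_heckeDiagMatrix_apply 2 hp, slash_heckeMatrix_apply 2 hp]
  have h2 : heckeMatrix p 0 • heckeDiagMatrix p • τ = τ := by
    ext
    rw [coe_heckeMatrix_smul hp, coe_heckeDiagMatrix_smul hp]
    field_simp
    simp
  rw [h2]
  norm_num
  field_simp

theorem heckeU_heckeU_weight_two (p : ℕ) [Fact p.Prime] (F : ModularForm (Gamma0 p) 2) :
    heckeU 2 p (heckeU 2 p F) = F := by
  have hp : p.Prime := Fact.out
  have : NeZero p := ⟨hp.ne_zero⟩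
  have h1 := ss_heckeU_eq p (ModularForm.heckeULin 2 (dvd_refl p) F)
  rw [ModularForm.coe_heckeULin_apply] at h1
  rw [h1, ss_heckeU_eq p F]
  have h2 : ss_A p (-ss_A p F) = -ss_A p (ss_A p F) := by
    conv_lhs => unfold ss_A
    rw [SlashAction.neg_slash]
    rfl
  rw [h2, neg_neg, ss_A_A hp.ne_zero]

theorem ss_coeff_heckeU (p : ℕ) [Fact p.Prime] (F : ModularForm (Gamma0 p) 2) (n : ℕ) :
    (qExpansion 1 (heckeU 2 p F)).coeff n = (qExpansion 1 F).coeff (p * n) := by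
  have hp : p.Prime := Fact.out
  have h := ModularFormClass.qCoeff_heckeU F (CongruenceSubgroup.one_mem_strictPeriods_Gamma0 p)
    hp.ne_zero n
  rw [coeffHeckeU_apply, mul_comm] at h
  exact h

theorem isTwoExp_weight_two (p : ℕ) [Fact p.Prime] (F : ModularForm (Gamma0 p) 2) :
    IsTwoExp p 2 F (qExpansion 1 F) (PowerSeries.C (-(p : ℂ)⁻¹) * uOp p (qExpansion 1 F)) := by
  have hp : p.Prime := Fact.out
  have : NeZero p := ⟨hp.ne_zero⟩
  refine ⟨⟨F, rfl⟩, rfl, ?_⟩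
  have h1 : atZero p 2 F = (-(p : ℂ)⁻¹) • heckeU 2 p F := by
    funext τ
    rw [atZero_weight_two, Pi.smul_apply, smul_eq_mul]
  have hnice : Fermat.Agent.S23.IsNice (heckeU 2 p F) :=
    Fermat.Agent.S23.isNice_of_modularFormClass
      (CongruenceSubgroup.one_mem_strictPeriods_Gamma0 p) (ModularForm.heckeULin 2 (dvd_refl p) F)
  rw [h1, qExpansion_smul hnice.analyticAt]
  ext n
  rw [PowerSeries.coeff_C_mul, PowerSeries.coeff_smul, smul_eq_mul, ss_coeff_heckeU]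
  simp [uOp]

theorem coeff_p_sq_mul (p : ℕ) [Fact p.Prime] (F : ModularForm (Gamma0 p) 2) (n : ℕ) :
    (qExpansion 1 F).coeff (p * (p * n)) = (qExpansion 1 F).coeff n := by
  have hp : p.Prime := Fact.out
  have : NeZero p := ⟨hp.ne_zero⟩
  have h1 := ss_coeff_heckeU p (ModularForm.heckeULin 2 (dvd_refl p) F) n
  rw [ModularForm.coe_heckeULin_apply, heckeU_heckeU_weight_two, ss_coeff_heckeU] at h1
  exact h1.symm

end Fermat.Agent.S16

end
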