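import Fermat.Agent.S16.Cosets
import Fermat.Prelude.Thm_UpperHalfPlane_qCoeff_heckeU
import Fermat.Prelude.Thm_ModularForm_periodic_heckeU_comp_ofComplex
import Fermat.Prelude.Thm_ModularForm_mdifferentiable_heckeU
import Fermat.Prelude.Thm_ModularForm_isBoundedAtImInfty_heckeU
import Fermat.Prelude.Thm_CongruenceSubgroup_one_mem_strictPeriods_Gamma0

set_option autoImplicit false

open UpperHalfPlane ModularForm CongruenceSubgroup ModularGroup ModularCurve CuspForm
open scoped MatrixGroups ModularForm Manifold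

noncomputable section

namespace Fermat.Agent.S16

theorem trace_isNice_heckeU {g : ℍ → ℂ} (hg : S23.IsNice g) (k : ℤ) (p : ℕ) :
    S23.IsNice (heckeU k p g) :=
  ⟨ModularForm.periodic_heckeU_comp_ofComplex hg.1 k p,
    ModularForm.mdifferentiable_heckeU hg.2.1 k p,
    ModularForm.isBoundedAtImInfty_heckeU hg.2.2 k p⟩

/-- UB4-Trace -/
theorem exists_trace {p : ℕ} [Fact p.Prime] {k : ℤ} {Φ : ℍ → ℂ} {a b : PowerSeries ℂ}
    (h : IsTwoExp p k Φ a b) :
    ∃ t : ModularForm 𝒮ℒ k, ∀ n, (qExpansion 1 t).coeff n = a.coeff n + p * b.coeff (p * n) := by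
  obtain ⟨f, rfl⟩ := h.mf
  have hp : p.Prime := Fact.out
  have hp0 : p ≠ 0 := hp.ne_zero
  have hpC : (p : ℂ) ≠ 0 := by exact_mod_cast hp0
  have : NeZero p := ⟨hp0⟩
  classical
  let _ : Fintype (SL(2, ℤ) ⧸ Gamma0 p) := Fintype.ofEquiv _ (Cosets.equiv p)
  have hVF := ES.isVF_vfOf (Gamma0 p) k f (Cosets.slash_invariant f)
  have hfun : (fun z => ∑ q, ES.vfOf (Gamma0 p) k f (Cosets.slash_invariant f) z q) =
      ⇑f + (p : ℂ) • heckeU k p (atZero p k f) := by
    funext z
    rw [← Equiv.sum_comp (Cosets.equiv p), Fintype.sum_option, Cosets.vfOf_equiv_none]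
    simp only [Cosets.vfOf_equiv_some]
    rw [Pi.add_apply, Pi.smul_apply, heckeU_apply k hp0,
      Fin.sum_univ_eq_sum_range (fun j => atZero p k f (heckeMatrix p j • z)), smul_eq_mul,
      ← mul_assoc, mul_inv_cancel₀ hpC, one_mul]
  obtain ⟨t, ht⟩ := ES.levelOne_of (k := k)
    (fun z => ∑ q, ES.vfOf (Gamma0 p) k f (Cosets.slash_invariant f) z q)
    (by
      have : (fun z => ∑ q, ES.vfOf (Gamma0 p) k f (Cosets.slash_invariant f) z q) =
          ∑ q, (fun z => ES.vfOf (Gamma0 p) k f (Cosets.slash_invariant f) z q) := by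
        funext z; simp
      rw [this]
      exact .sum fun q _ => hVF.holo q)
    (by
      intro g z
      rw [← Equiv.sum_comp (MulAction.toPerm g : Equiv.Perm (SL(2, ℤ) ⧸ Gamma0 p))]
      simp only [MulAction.toPerm_apply, hVF.equiv, Finset.mul_sum])
    (by
      have hf : S23.IsNice f :=
        S23.isNice_of_modularFormClass (CongruenceSubgroup.one_mem_strictPeriods_Gamma0 p) f
      have hg : S23.IsNice (atZero p k f) := isNice_atZero p f
      rw [hfun]
      exact hf.2.2.add ((trace_isNice_heckeU hg k p).2.2.const_smul_left _))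
  refine ⟨t, fun n => ?_⟩
  have hf : S23.IsNice f :=
    S23.isNice_of_modularFormClass (CongruenceSubgroup.one_mem_strictPeriods_Gamma0 p) f
  have hg : S23.IsNice (atZero p k f) := isNice_atZero p f
  have hU := trace_isNice_heckeU hg k p
  have hsm : AnalyticAt ℂ (cuspFunction 1 ((p : ℂ) • heckeU k p (atZero p k f))) 0 := by
    have : S23.IsNice ((p : ℂ) • heckeU k p (atZero p k f)) := by
      have h1 := (S23.isNice_const (p : ℂ)).mul hU
      convert h1 using 1
      funext z
      simp
    exact this.analyticAt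
  rw [ht, hfun, qExpansion_add hf.analyticAt hsm, qExpansion_smul hU.analyticAt, h.inf]
  have h3 := UpperHalfPlane.qCoeff_heckeU hg.1 hg.2.1 hg.2.2 k hp0 n
  rw [coeffHeckeU_apply] at h3
  simp only [ModularFormClass.qCoeff] at h3
  rw [map_add, PowerSeries.coeff_smul, h3, h.zero, smul_eq_mul, mul_comm n p]

end Fermat.Agent.S16

end
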