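import Fermat.Agent.S16.Eis
import Fermat.Agent.S16.SlashS
import Fermat.Agent.S16.Trace

set_option autoImplicit false

open UpperHalfPlane ModularForm CongruenceSubgroup ModularGroup ModularCurve CuspForm
open scoped MatrixGroups ModularForm Manifold

noncomputable section

namespace Fermat.Agent.S16

theorem master_sigmaP_mul {p : ℕ} (hp : p.Prime) (n : ℕ) : sigmaP p (p * n) = sigmaP p n := by
  unfold sigmaP
  congr 1
  ext d
  simp only [Finset.mem_filter, Nat.mem_divisors]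
  constructor
  · rintro ⟨⟨h1, h2⟩, h3⟩
    refine ⟨⟨?_, fun h => h2 (by simp [h])⟩, h3⟩
    have hc : Nat.Coprime d p := ((Nat.Prime.coprime_iff_not_dvd hp).mpr h3).symm
    exact hc.dvd_of_dvd_mul_left h1
  · rintro ⟨⟨h1, h2⟩, h3⟩
    exact ⟨⟨h1.mul_left p, Nat.mul_ne_zero hp.ne_zero h2⟩, h3⟩

theorem master_coeff_mul (c M e0 : ℤ) (R s : ℕ → ℤ) (A B : PowerSeries ℤ)
    (hA0 : PowerSeries.coeff 0 A = c) (hA : ∀ n, 1 ≤ n → PowerSeries.coeff n A = M * R n)
    (hB0 : PowerSeries.coeff 0 B = e0) (hB : ∀ n, 1 ≤ n → PowerSeries.coeff n B = 24 * s n)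
    (n : ℕ) (hn : 1 ≤ n) :
    ∃ K : ℤ, PowerSeries.coeff n (A * B) = 24 * c * s n + e0 * M * R n + 24 * M * K := by
  obtain ⟨m, rfl⟩ : ∃ m, n = m + 1 := ⟨n - 1, by omega⟩
  refine ⟨∑ k ∈ Finset.range m, R (k + 1) * s (m - k), ?_⟩
  rw [PowerSeries.coeff_mul,
    Finset.Nat.sum_antidiagonal_eq_sum_range_succ
      (fun i j => PowerSeries.coeff i A * PowerSeries.coeff j B) (m + 1),
    Finset.sum_range_succ, Finset.sum_range_succ']
  have h1 : ∑ k ∈ Finset.range m,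
      PowerSeries.coeff (k + 1) A * PowerSeries.coeff (m + 1 - (k + 1)) B =
      24 * M * ∑ k ∈ Finset.range m, R (k + 1) * s (m - k) := by
    rw [Finset.mul_sum]
    refine Finset.sum_congr rfl fun k hk => ?_
    have hk' : k < m := Finset.mem_range.mp hk
    have h2 : m + 1 - (k + 1) = m - k := by omega
    rw [h2, hA (k + 1) (by omega), hB (m - k) (by omega)]
    ring
  rw [h1, hA0, Nat.sub_zero, hB (m + 1) hn, Nat.sub_self, hB0, hA (m + 1) hn]
  ring

theorem master_uOp_toC (p : ℕ) (x : PowerSeries ℤ) : uOp p (toC x) = toC (uOp p x) := by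
  ext n
  simp [uOp]

theorem master_toC_mul (x y : PowerSeries ℤ) : toC (x * y) = toC x * toC y :=
  map_mul (PowerSeries.map (Int.castRingHom ℂ)) x y

theorem master_coeff_toC (x : PowerSeries ℤ) (n : ℕ) :
    PowerSeries.coeff n (toC x) = ((PowerSeries.coeff n x : ℤ) : ℂ) := by
  simp

/-- UB8-Master -/
theorem master_identity (p : ℕ) [Fact p.Prime] (F : ModularForm (Gamma0 p) 2) (c M : ℤ)
    (R : ℕ → ℤ) (h0 : (qExpansion 1 F).coeff 0 = c)
    (hR : ∀ n, 1 ≤ n → (qExpansion 1 F).coeff n = ((M * R n : ℤ) : ℂ)) (n : ℕ) (hn : 1 ≤ n) :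
    ∃ K : ℤ, 24 * ((p : ℤ) + 1) * c * sigmaP p n + M * ((p : ℤ) ^ 2 - 1) * R n + 24 * M * K
      = 240 * ((p : ℤ) ^ 2 - 1) * c * sigma3 n := by
  have hp : p.Prime := Fact.out
  have hp0 : p ≠ 0 := hp.ne_zero
  have hpC : (p : ℂ) ≠ 0 := by exact_mod_cast hp0
  obtain ⟨E, hE⟩ := exists_eis p
  set fZ : PowerSeries ℤ := PowerSeries.mk (fun n => if n = 0 then c else M * R n) with hfZ
  have hf : qExpansion 1 F = toC fZ := by
    ext m
    rw [PowerSeries.coeff_map, hfZ, PowerSeries.coeff_mk]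
    by_cases hm : m = 0
    · subst hm; simpa using h0
    · rw [if_neg hm, hR m (Nat.one_le_iff_ne_zero.mpr hm)]; rfl
  have hF2 := isTwoExp_weight_two p F
  have hE2 := isTwoExp_weight_two p E
  have hFE := hF2.mul hE2
  rw [hf, hE, master_uOp_toC, master_uOp_toC] at hFE
  have h22 : (2 : ℤ) + 2 = 4 := by norm_num
  rw [h22] at hFE
  obtain ⟨t, ht⟩ := exists_trace hFE
  -- `t` is a multiple of `E₄`
  have hE4ne : (E₄ : ModularForm 𝒮ℒ 4) ≠ 0 := by
    intro h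
    have h1 : (qExpansion 1 E₄).coeff 1 = 240 := E₄_qExpansion_coeff_one
    rw [h] at h1
    have h2 : qExpansion 1 (⇑(0 : ModularForm 𝒮ℒ 4)) = 0 := by
      rw [FunLike.coe_zero]; exact qExpansion_zero 1
    rw [h2] at h1
    simp at h1
  obtain ⟨c', hc'⟩ := (finrank_eq_one_iff_of_nonzero' (E₄ : ModularForm 𝒮ℒ 4) hE4ne).mp
    (Module.rank_eq_one_iff_finrank_eq_one.mp levelOne_weight_four_rank_one) t
  have hE4nice : S23.IsNice (E₄ : ModularForm 𝒮ℒ 4) :=
    S23.isNice_of_modularFormClass one_mem_strictPeriods_SL _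
  have htq : qExpansion 1 t = c' • toC e4Z := by
    rw [← hc', FunLike.coe_smul, qExpansion_smul hE4nice.analyticAt, qExpansion_E₄_eq]
  -- coefficient formula
  have hcoef : ∀ m, (p : ℂ) * (c' * ((PowerSeries.coeff m e4Z : ℤ) : ℂ)) =
      (((p : ℤ) * PowerSeries.coeff m (fZ * eisZ p) +
        PowerSeries.coeff (p * m) (uOp p fZ * uOp p (eisZ p)) : ℤ) : ℂ) := by
    intro m
    have h1 := ht m
    rw [htq] at h1
    have h2 : (PowerSeries.C (-(p : ℂ)⁻¹) * toC (uOp p fZ)) *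
        (PowerSeries.C (-(p : ℂ)⁻¹) * toC (uOp p (eisZ p))) =
        PowerSeries.C ((p : ℂ)⁻¹ * (p : ℂ)⁻¹) * toC (uOp p fZ * uOp p (eisZ p)) := by
      rw [master_toC_mul, map_mul PowerSeries.C]
      have : PowerSeries.C (-(p : ℂ)⁻¹) = - PowerSeries.C ((p : ℂ)⁻¹) := by
        rw [map_neg]
      rw [this]
      ring
    rw [h2, ← master_toC_mul, PowerSeries.coeff_C_mul,
      PowerSeries.coeff_smul, master_coeff_toC, master_coeff_toC, master_coeff_toC,
      smul_eq_mul] at h1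
    push_cast
    rw [h1]
    field_simp
  -- coefficients of the integral series
  have hfZ0 : PowerSeries.coeff 0 fZ = c := by simp [hfZ]
  have hfZn : ∀ m, 1 ≤ m → PowerSeries.coeff m fZ = M * R m := by
    intro m hm
    rw [hfZ, PowerSeries.coeff_mk, if_neg (by omega)]
  have he0 : PowerSeries.coeff 0 (eisZ p) = (p : ℤ) - 1 := by simp [eisZ]
  have hen : ∀ m, 1 ≤ m → PowerSeries.coeff m (eisZ p) = 24 * (sigmaP p m : ℤ) := by
    intro m hm
    rw [eisZ, PowerSeries.coeff_mk, if_neg (by omega)]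
  have hufZ0 : PowerSeries.coeff 0 (uOp p fZ) = c := by simp [uOp, hfZ0]
  have hufZn : ∀ m, 1 ≤ m → PowerSeries.coeff m (uOp p fZ) = M * R (p * m) := by
    intro m hm
    rw [uOp, PowerSeries.coeff_mk, hfZn _ (Nat.mul_pos hp.pos hm)]
  have hue0 : PowerSeries.coeff 0 (uOp p (eisZ p)) = (p : ℤ) - 1 := by simp [uOp, he0]
  have huen : ∀ m, 1 ≤ m → PowerSeries.coeff m (uOp p (eisZ p)) = 24 * (sigmaP p m : ℤ) := by
    intro m hm
    rw [uOp, PowerSeries.coeff_mk, hen _ (Nat.mul_pos hp.pos hm), master_sigmaP_mul hp]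
  have hpn : 1 ≤ p * n := Nat.mul_pos hp.pos hn
  obtain ⟨K₁, hK₁⟩ := master_coeff_mul c M ((p : ℤ) - 1) R (fun m => (sigmaP p m : ℤ)) fZ (eisZ p)
    hfZ0 hfZn he0 hen n hn
  obtain ⟨K₂, hK₂⟩ := master_coeff_mul c M ((p : ℤ) - 1) (fun m => R (p * m))
    (fun m => (sigmaP p m : ℤ)) (uOp p fZ) (uOp p (eisZ p)) hufZ0 hufZn hue0 huen (p * n) hpn
  simp only [master_sigmaP_mul hp] at hK₂
  -- `M R (p (p n)) = M R n`
  have hRR : M * R (p * (p * n)) = M * R n := by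
    have h1 := coeff_p_sq_mul p F n
    rw [hR n hn, hR _ (Nat.mul_pos hp.pos hpn)] at h1
    exact_mod_cast h1
  have hz := hcoef 0
  have hnn := hcoef n
  have he40 : PowerSeries.coeff 0 e4Z = 1 := by simp [e4Z]
  have he4n : PowerSeries.coeff n e4Z = 240 * (sigma3 n : ℤ) := by
    rw [e4Z, PowerSeries.coeff_mk, if_neg (by omega)]
  have hm0 : ∀ A B : PowerSeries ℤ, PowerSeries.coeff 0 (A * B) =
      PowerSeries.coeff 0 A * PowerSeries.coeff 0 B := by
    intro A B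
    simp [PowerSeries.coeff_mul]
  rw [he40, Nat.mul_zero, hm0, hm0, hfZ0, he0, hufZ0, hue0] at hz
  rw [he4n, hK₁, hK₂] at hnn
  have hfin : (((p : ℤ) * (c * ((p : ℤ) - 1)) + c * ((p : ℤ) - 1)) * (240 * (sigma3 n : ℤ)) : ℤ) =
      (p : ℤ) * (24 * c * (sigmaP p n : ℤ) + ((p : ℤ) - 1) * M * R n + 24 * M * K₁) +
        (24 * c * (sigmaP p n : ℤ) + ((p : ℤ) - 1) * M * R (p * (p * n)) + 24 * M * K₂) := by
    have : ((((p : ℤ) * (c * ((p : ℤ) - 1)) + c * ((p : ℤ) - 1)) * (240 * (sigma3 n : ℤ)) : ℤ) : ℂ) =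
      (((p : ℤ) * (24 * c * (sigmaP p n : ℤ) + ((p : ℤ) - 1) * M * R n + 24 * M * K₁) +
        (24 * c * (sigmaP p n : ℤ) + ((p : ℤ) - 1) * M * R (p * (p * n)) + 24 * M * K₂) : ℤ) : ℂ) := by
      rw [← hnn, Int.cast_mul, ← hz]
      push_cast
      ring
    exact_mod_cast this
  refine ⟨(p : ℤ) * K₁ + K₂, ?_⟩
  linear_combination (-1 : ℤ) * hfin - ((p : ℤ) - 1) * hRR

end Fermat.Agent.S16

end
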