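import Fermat.Agent.S16.Defs
import Fermat.Agent.S23.LevelOne
import Fermat.Agent.S28.DeltaQExp

set_option autoImplicit false

open UpperHalfPlane ModularForm CongruenceSubgroup ModularGroup ModularCurve CuspForm
open scoped MatrixGroups ModularForm Manifold

noncomputable section

namespace Fermat.Agent.S16

namespace SturmAux

/-- an integral series times a series with coefficients (up to `N`) in `M` has coefficients
(up to `N`) in `M`. -/
theorem coeff_int_mul_mem (a : PowerSeries ℤ) (s : PowerSeries ℂ) (M : AddSubgroup ℂ) (N : ℕ)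
    (hs : ∀ n ≤ N, s.coeff n ∈ M) : ∀ n ≤ N, (toC a * s).coeff n ∈ M := by
  intro n hn
  rw [PowerSeries.coeff_mul]
  refine AddSubgroup.sum_mem _ fun x hx => ?_
  have hx' : x.1 + x.2 = n := by simpa using hx
  have h1 : (toC a).coeff x.1 * s.coeff x.2 = (a.coeff x.1) • s.coeff x.2 := by
    simp [toC]
  rw [h1]
  exact M.zsmul_mem (hs _ (by omega)) _

theorem exists_int_one (k : ℕ) (hk2 : Even k) (hk : k ≠ 2) :
    ∃ G : ModularForm 𝒮ℒ (k : ℤ), (∃ g : PowerSeries ℤ, qExpansion 1 G = toC g) ∧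
      (qExpansion 1 G).coeff 0 = 1 := by
  by_cases h0 : k = 0
  · subst h0
    have h1 : qExpansion 1 (1 : ModularForm 𝒮ℒ 0) = 1 := ModularForm.qExpansion_one
    refine ⟨(1 : ModularForm 𝒮ℒ 0), ⟨1, ?_⟩, ?_⟩
    · rw [h1]; simp [toC]
    · rw [h1]; simp
  · have h4 : 4 ≤ k := by
      obtain ⟨m, rfl⟩ := hk2
      omega
    obtain ⟨G, hG, hG0⟩ := Fermat.Agent.S23.exists_intForm_coeff_zero_eq_one k h4 hk2
    obtain ⟨g, hg⟩ := hG
    exact ⟨G, ⟨g, hg.symm⟩, hG0⟩

theorem aux (M : AddSubgroup ℂ) (k : ℕ) : ∀ (f : ModularForm 𝒮ℒ (k : ℤ)),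
    (∀ n, 12 * n ≤ k → (qExpansion 1 f).coeff n ∈ M) → ∀ n, (qExpansion 1 f).coeff n ∈ M := by
  induction k using Nat.strong_induction_on with | h k ih =>
  intro f h n
  have hzero : ∀ f : ModularForm 𝒮ℒ (k : ℤ), f = 0 → (qExpansion 1 f).coeff n ∈ M := by
    intro f hf
    subst hf
    have : qExpansion 1 ((0 : ModularForm 𝒮ℒ (k : ℤ)) : ℍ → ℂ) = 0 := by
      rw [FunLike.coe_zero]; exact qExpansion_zero 1
    rw [this]; simp
  by_cases hodd : Odd k
  · exact hzero f (ModularForm.levelOne_odd_weight_eq_zero (by exact_mod_cast hodd) f)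
  have heven : Even k := Nat.not_odd_iff_even.mp hodd
  by_cases h2 : k = 2
  · subst h2
    exact hzero f (rank_zero_iff_forall_zero.mp levelOne_weight_two_rank_zero f)
  obtain ⟨G, ⟨g, hg⟩, hG0⟩ := exists_int_one k heven h2
  set a0 : ℂ := (qExpansion 1 f).coeff 0 with ha0
  have ha0M : a0 ∈ M := h 0 (by omega)
  set f' : ModularForm 𝒮ℒ (k : ℤ) := f - a0 • G with hf'
  have hq : qExpansion 1 f' = qExpansion 1 f - a0 • toC g := by
    rw [hf', ← hg, FunLike.coe_sub, ModularForm.qExpansion_sub one_pos one_mem_strictPeriods_SL,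
      FunLike.coe_smul, ModularForm.qExpansion_smul one_pos one_mem_strictPeriods_SL]
  have hgM : ∀ m, (a0 • toC g).coeff m ∈ M := by
    intro m
    have : (a0 • toC g).coeff m = (g.coeff m) • a0 := by
      simp [toC, mul_comm]
    rw [this]
    exact M.zsmul_mem ha0M _
  have hiff : ∀ m, (qExpansion 1 f').coeff m ∈ M ↔ (qExpansion 1 f).coeff m ∈ M := by
    intro m
    rw [hq, map_sub]
    constructor
    · intro hm
      have := M.add_mem hm (hgM m)
      simpa using this
    · intro hm
      exact M.sub_mem hm (hgM m)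
  have hcusp : (qExpansion 1 f').coeff 0 = 0 := by
    rw [hq, ← hg, map_sub, PowerSeries.coeff_smul, hG0]
    simp [ha0]
  rw [← hiff]
  have hfac := ModularForm.qExpansion_eq_qExpansion_discriminant_mul f' hcusp
  rw [Fermat.Agent.S28.qExpansion_discriminant] at hfac
  set hh := CuspForm.discriminantEquiv (toCuspForm f' hcusp) with hhh
  by_cases hk12 : k < 12
  · have : (hh : ℍ → ℂ) = 0 :=
      ModularFormClass.levelOne_neg_weight_eq_zero (by omega) hh
    rw [hfac, this, qExpansion_zero]
    simp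
  · push Not at hk12
    have hw : (k : ℤ) - 12 = ((k - 12 : ℕ) : ℤ) := by omega
    set h' : ModularForm 𝒮ℒ ((k - 12 : ℕ) : ℤ) := ModularForm.mcast hw hh with hh'
    have hqh : qExpansion 1 h' = qExpansion 1 hh := by
      rw [hh', ModularForm.qExpansion_mcast]
    have hinv : PowerSeries.X * qExpansion 1 hh = toC dedekindEtaUnitInv * qExpansion 1 f' := by
      have hU : toC dedekindEtaUnitInv * toC dedekindEtaUnit = 1 := by
        rw [toC, toC, ← map_mul, mul_comm, dedekindEtaUnit_mul_inv, map_one]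
      rw [hfac]
      calc PowerSeries.X * qExpansion 1 hh
          = (toC dedekindEtaUnitInv * toC dedekindEtaUnit) * (PowerSeries.X * qExpansion 1 hh) := by
            rw [hU, one_mul]
        _ = _ := by simp only [toC]; ring
    have hall : ∀ m, (qExpansion 1 h').coeff m ∈ M := by
      apply ih (k - 12) (by omega) h'
      intro m hm
      rw [hqh]
      have h3 : (qExpansion 1 hh).coeff m = (PowerSeries.X * qExpansion 1 hh).coeff (m + 1) := by
        rw [mul_comm, PowerSeries.coeff_succ_mul_X]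
      rw [h3, hinv]
      refine coeff_int_mul_mem _ _ M (m + 1) (fun j hj => ?_) (m + 1) le_rfl
      rw [hiff]
      exact h j (by omega)
    rw [hfac, mul_assoc]
    cases n with
    | zero => simp
    | succ n =>
      rw [mul_comm, PowerSeries.coeff_succ_mul_X]
      refine coeff_int_mul_mem _ _ M n (fun j _ => ?_) n le_rfl
      rw [← hqh]
      exact hall j

end SturmAux

/-- UB6-Sturm -/
theorem levelOne_coeff_mem {k : ℕ} (f : ModularForm 𝒮ℒ k) (M : AddSubgroup ℂ)
    (h : ∀ n, 12 * n ≤ k → (qExpansion 1 f).coeff n ∈ M) (n : ℕ) :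
    (qExpansion 1 f).coeff n ∈ M :=
  SturmAux.aux M k f h n

end Fermat.Agent.S16

end
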