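import Fermat.Agent.S16.Norm
import Fermat.Agent.S16.Sturm
import Fermat.Prelude.Def_FLTPrelim_ModularRep

set_option autoImplicit false

open UpperHalfPlane ModularForm CongruenceSubgroup ModularGroup ModularCurve CuspForm
open scoped MatrixGroups ModularForm Manifold

noncomputable section

namespace Fermat.Agent.S16

namespace TwoCusp

/-- `expand` commutes with coefficientwise ring homs. -/
theorem map_expand {R S : Type*} [CommSemiring R] [CommSemiring S] (φ : R →+* S) (p : ℕ)
    (a : PowerSeries R) : (expand p a).map φ = expand p (a.map φ) := by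
  ext n
  simp only [expand, PowerSeries.coeff_map, PowerSeries.coeff_mk]
  split_ifs <;> simp

theorem map_rescale {R S : Type*} [CommSemiring R] [CommSemiring S] (φ : R →+* S) (z : R)
    (a : PowerSeries R) :
    (PowerSeries.rescale z a).map φ = PowerSeries.rescale (φ z) (a.map φ) := by
  ext n
  simp [PowerSeries.coeff_rescale]

theorem order_expand {R : Type*} [CommSemiring R] {p : ℕ} (hp : 0 < p) {a : PowerSeries R} {i : ℕ}
    (h : a.order = i) : (expand p a).order = ((p * i : ℕ) : ℕ∞) := by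
  rw [PowerSeries.order_eq_nat] at h ⊢
  refine ⟨?_, fun m hm => ?_⟩
  · simp only [expand, PowerSeries.coeff_mk, dvd_mul_right, if_true]
    rw [Nat.mul_div_cancel_left _ hp]
    exact h.1
  · simp only [expand, PowerSeries.coeff_mk]
    split_ifs with hd
    · obtain ⟨c, rfl⟩ := hd
      rw [Nat.mul_div_cancel_left _ hp]
      exact h.2 c (lt_of_mul_lt_mul_left hm (Nat.zero_le p))
    · rfl

theorem order_rescale {R : Type*} [CommRing R] [IsDomain R] {z : R} (hz : z ≠ 0)
    {b : PowerSeries R} {j : ℕ} (h : b.order = j) : (PowerSeries.rescale z b).order = j := by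
  rw [PowerSeries.order_eq_nat] at h ⊢
  refine ⟨?_, fun m hm => ?_⟩
  · rw [PowerSeries.coeff_rescale]
    exact mul_ne_zero (pow_ne_zero _ hz) h.1
  · rw [PowerSeries.coeff_rescale, h.2 m hm, mul_zero]

theorem coeff_expand_mul {R : Type*} [CommSemiring R] {p : ℕ} (hp : 0 < p) (a : PowerSeries R)
    (n : ℕ) : (expand p a).coeff (p * n) = a.coeff n := by
  simp only [expand, PowerSeries.coeff_mk, dvd_mul_right, if_true]
  rw [Nat.mul_div_cancel_left _ hp]

end TwoCusp

open TwoCusp in
/-- UB7-TwoCusp -/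
theorem two_cusp_sturm {p ℓ : ℕ} [Fact p.Prime] [Fact ℓ.Prime] {k : ℕ} {Φ : ℍ → ℂ}
    {a b : PowerSeries ℤ} (h : IsTwoExp p k Φ (toC a) (toC b)) (i j : ℕ)
    (hai : ¬ (ℓ : ℤ) ∣ a.coeff i) (ha : ∀ i' < i, (ℓ : ℤ) ∣ a.coeff i')
    (hbj : ¬ (ℓ : ℤ) ∣ b.coeff j) (hb : ∀ j' < j, (ℓ : ℤ) ∣ b.coeff j') :
    12 * (i + j) ≤ k * (p + 1) := by
  by_contra hlt
  rw [not_le] at hlt
  have hp : 0 < p := (Fact.out : p.Prime).pos
  have hℓ : ℓ.Prime := Fact.out
  obtain ⟨t, ht⟩ := exists_norm h
  obtain ⟨𝔩, h𝔩max, h𝔩mem⟩ := FLTPrelim.exists_maximalIdeal_natCast_prime_mem hℓ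
  have := h𝔩max
  -- integers in `𝔩` are divisible by `ℓ`
  have hint : ∀ n : ℤ, ((n : ℤ) : integralClosure ℤ ℂ) ∈ 𝔩 → (ℓ : ℤ) ∣ n := by
    intro n hn
    by_contra hnd
    have hcop : IsCoprime (ℓ : ℤ) n :=
      ((Nat.prime_iff_prime_int.mp hℓ).coprime_iff_not_dvd).mpr hnd
    obtain ⟨u, v, huv⟩ := hcop
    apply h𝔩max.ne_top
    rw [Ideal.eq_top_iff_one]
    have : (1 : integralClosure ℤ ℂ) = (u : integralClosure ℤ ℂ) * (ℓ : integralClosure ℤ ℂ)
        + (v : integralClosure ℤ ℂ) * (n : integralClosure ℤ ℂ) := by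
      have := congrArg (fun x : ℤ => (x : integralClosure ℤ ℂ)) huv
      push_cast at this
      exact this.symm
    rw [this]
    exact 𝔩.add_mem (𝔩.mul_mem_left _ h𝔩mem) (𝔩.mul_mem_left _ hn)
  have hint' : ∀ n : ℤ, (ℓ : ℤ) ∣ n → ((n : ℤ) : integralClosure ℤ ℂ) ∈ 𝔩 := by
    rintro n ⟨c, rfl⟩
    push_cast
    exact 𝔩.mul_mem_right _ h𝔩mem
  -- roots of unity in the ring of algebraic integers
  have hzint : ∀ m : ℕ, IsIntegral ℤ (Complex.exp (2 * Real.pi * Complex.I * m / p)) := by
    intro m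
    refine IsIntegral.of_pow hp ?_
    rw [← Complex.exp_nat_mul]
    have : (p : ℂ) * (2 * Real.pi * Complex.I * m / p) = m * (2 * Real.pi * Complex.I) := by
      have : (p : ℂ) ≠ 0 := by exact_mod_cast hp.ne'
      field_simp
    rw [this, Complex.exp_nat_mul_two_pi_mul_I]
    exact isIntegral_one
  let z : ℕ → integralClosure ℤ ℂ := fun m => ⟨_, hzint m⟩
  have hzpow : ∀ m, z m ^ p = 1 := by
    intro m
    apply Subtype.ext
    simp only [z, SubmonoidClass.coe_pow, OneMemClass.coe_one]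
    rw [← Complex.exp_nat_mul]
    have : (p : ℂ) * (2 * Real.pi * Complex.I * m / p) = m * (2 * Real.pi * Complex.I) := by
      have : (p : ℂ) ≠ 0 := by exact_mod_cast hp.ne'
      field_simp
    rw [this, Complex.exp_nat_mul_two_pi_mul_I]
  let ι : integralClosure ℤ ℂ →+* ℂ := (integralClosure ℤ ℂ).val.toRingHom
  let π : integralClosure ℤ ℂ →+* (integralClosure ℤ ℂ ⧸ 𝔩) := Ideal.Quotient.mk 𝔩
  let A : PowerSeries (integralClosure ℤ ℂ) := a.map (Int.castRingHom _)
  let B : PowerSeries (integralClosure ℤ ℂ) := b.map (Int.castRingHom _)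
  let R : PowerSeries (integralClosure ℤ ℂ) :=
    expand p A * ∏ m ∈ Finset.range p, PowerSeries.rescale (z m) B
  have hιA : A.map ι = toC a := by
    ext n; simp [A, ι, toC]
  have hιB : B.map ι = toC b := by
    ext n; simp [B, ι, toC]
  have hιR : R.map ι = expand p (qExpansion 1 t) := by
    rw [ht]
    simp only [R, map_mul, map_prod]
    rw [map_expand, hιA]
    refine congrArg (expand p (toC a) * ·) (Finset.prod_congr rfl fun m _ => ?_)
    rw [map_rescale, hιB]
    rfl
  -- orders in the residue field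
  have hA : (A.map π).order = i := by
    rw [PowerSeries.order_eq_nat]
    refine ⟨?_, fun m hm => ?_⟩
    · simp only [A, π, PowerSeries.coeff_map, eq_intCast]
      rw [Ne, Ideal.Quotient.eq_zero_iff_mem]
      exact fun hmem => hai (hint _ hmem)
    · simp only [A, π, PowerSeries.coeff_map, eq_intCast]
      rw [Ideal.Quotient.eq_zero_iff_mem]
      exact hint' _ (ha m hm)
  have hB : (B.map π).order = j := by
    rw [PowerSeries.order_eq_nat]
    refine ⟨?_, fun m hm => ?_⟩
    · simp only [B, π, PowerSeries.coeff_map, eq_intCast]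
      rw [Ne, Ideal.Quotient.eq_zero_iff_mem]
      exact fun hmem => hbj (hint _ hmem)
    · simp only [B, π, PowerSeries.coeff_map, eq_intCast]
      rw [Ideal.Quotient.eq_zero_iff_mem]
      exact hint' _ (hb m hm)
  let _ : Field (integralClosure ℤ ℂ ⧸ 𝔩) := Ideal.Quotient.field 𝔩
  have hzne : ∀ m, π (z m) ≠ 0 := by
    intro m h0
    have := congrArg π (hzpow m)
    rw [map_pow, h0, zero_pow hp.ne', map_one] at this
    exact zero_ne_one this
  have hR : (R.map π).order = ((p * (i + j) : ℕ) : ℕ∞) := by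
    simp only [R, map_mul, map_prod]
    rw [PowerSeries.order_mul, PowerSeries.order_prod, map_expand, order_expand hp hA]
    have : ∀ m ∈ Finset.range p,
        ((PowerSeries.map π) ((PowerSeries.rescale (z m)) B)).order = (j : ℕ∞) := by
      intro m _
      rw [map_rescale]
      exact order_rescale (hzne m) hB
    rw [Finset.sum_congr rfl this]
    simp only [Finset.sum_const, Finset.card_range, nsmul_eq_mul]
    push_cast
    ring
  rw [PowerSeries.order_eq_nat] at hR
  obtain ⟨hR1, hR2⟩ := hR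
  -- the additive subgroup
  let M : AddSubgroup ℂ := (𝔩.toAddSubgroup).map ι.toAddMonoidHom
  have hc : ∀ n, (qExpansion 1 t).coeff n = ι (R.coeff (p * n)) := by
    intro n
    rw [← coeff_expand_mul hp, ← hιR, PowerSeries.coeff_map]
  have hk : (k : ℤ) * ((p : ℤ) + 1) = ((k * (p + 1) : ℕ) : ℤ) := by push_cast; ring
  let t' : ModularForm 𝒮ℒ ((k * (p + 1) : ℕ) : ℤ) := ModularForm.mcast hk t
  have ht' : (⇑t' : ℍ → ℂ) = ⇑t := rfl
  have hmem := levelOne_coeff_mem t' M (fun n hn => by
    rw [ht', hc n]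
    refine ⟨R.coeff (p * n), ?_, rfl⟩
    have hlt' : p * n < p * (i + j) := by
      apply Nat.mul_lt_mul_of_pos_left _ hp
      omega
    have := hR2 _ hlt'
    rw [PowerSeries.coeff_map] at this
    exact Ideal.Quotient.eq_zero_iff_mem.mp this) (i + j)
  rw [ht', hc (i + j)] at hmem
  obtain ⟨x, hx, hxe⟩ := hmem
  have hxe' : x = R.coeff (p * (i + j)) := Subtype.ext hxe
  apply hR1
  rw [PowerSeries.coeff_map]
  exact Ideal.Quotient.eq_zero_iff_mem.mpr (hxe' ▸ hx)

end Fermat.Agent.S16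

end
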