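import Fermat.Agent.S16.SlashS
import Fermat.Agent.S16.TwoCusp

set_option autoImplicit false

open UpperHalfPlane ModularForm CongruenceSubgroup ModularGroup ModularCurve CuspForm
open scoped MatrixGroups ModularForm Manifold

noncomputable section

namespace Fermat.Agent.S16


section ring
variable {A : Type*} [CommRing A]

/-- the weight 10 polynomial. -/
def ncP (γ X E4 E6 : A) : A :=
  X * (-1 * (X * X * X * X) + (6 * γ ^ 2) * (E4 * (X * X)) + (-8 * γ ^ 3) * (E6 * X)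
    + (3 * γ ^ 4) * (E4 * E4))

def ncB4 (γ ρ s : A) : A := γ * ρ + 4 * ρ ^ 2 - 15 * γ ^ 2 * s

def ncB6 (γ ρ s a : A) : A := 3 * γ * ρ ^ 2 + 8 * ρ ^ 3 - 90 * γ ^ 2 * ρ * s - 27 * γ ^ 3 * a

def ncQ (γ ρ s a : A) : A :=
  (γ + 8 * ρ) * (3 * ncB4 γ ρ s ^ 2 - (γ + 8 * ρ) * ncB6 γ ρ s a)

theorem ncP_eq (γ ρ s a : A) :
    ncP γ (γ + 8 * ρ) (1 + 240 * s) (1 + 360 * s - 864 * a) = 256 * ncQ γ ρ s a := by
  unfold ncP ncQ ncB4 ncB6
  ring

theorem ncQ_mod_two (g ρ s a : A) : ∃ W : A, ncQ (1 + 2 * g) ρ s a = s ^ 2 + a + 2 * W := by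
  let x : A := g + 4 * ρ
  let u : A := g * ρ + 2 * ρ ^ 2 - 8 * s - 30 * g * s - 30 * g ^ 2 * s
  let v : A := ρ ^ 2 + 3 * g * ρ ^ 2 + 4 * ρ ^ 3 - 45 * (1 + 2 * g) ^ 2 * ρ * s - 14 * a
    - 27 * (3 * g + 6 * g ^ 2 + 4 * g ^ 3) * a
  let P : A := 3 * (ρ + s + 2 * u) ^ 2
  let Q : A := ρ ^ 2 + a + 2 * v
  refine ⟨ρ ^ 2 + 3 * ρ * s + s ^ 2 - a - v + 6 * u * (ρ + s) + 6 * u ^ 2 + x * P - 2 * x * Q
    - 2 * x ^ 2 * Q, ?_⟩
  simp only [x, u, v, P, Q]
  unfold ncQ ncB4 ncB6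
  ring

end ring



def ncS3 : PowerSeries ℤ := PowerSeries.mk fun n => (sigma3 n : ℤ)

def ncA6 : PowerSeries ℤ := PowerSeries.mk fun n => (5 * (sigma3 n : ℤ) + 7 * sigma5 n) / 12

theorem nc_dvd_aux (d : ℕ) : (12 : ℤ) ∣ 5 * (d : ℤ) ^ 3 + 7 * (d : ℤ) ^ 5 := by
  have h : ∀ x : ZMod 12, 5 * x ^ 3 + 7 * x ^ 5 = 0 := by decide
  have h1 := h (d : ZMod 12)
  have h2 : ((5 * (d : ℤ) ^ 3 + 7 * (d : ℤ) ^ 5 : ℤ) : ZMod 12) = 0 := by
    push_cast
    exact h1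
  exact (ZMod.intCast_zmod_eq_zero_iff_dvd _ 12).1 h2

theorem nc_dvd (n : ℕ) : (12 : ℤ) ∣ 5 * (sigma3 n : ℤ) + 7 * sigma5 n := by
  unfold sigma3 sigma5
  push_cast
  rw [Finset.mul_sum, Finset.mul_sum, ← Finset.sum_add_distrib]
  exact Finset.dvd_sum fun d _ => nc_dvd_aux d

theorem nc_coeff_int_mul (k : ℤ) (s : PowerSeries ℤ) (n : ℕ) :
    PowerSeries.coeff n ((k : PowerSeries ℤ) * s) = k * PowerSeries.coeff n s := by
  have : (k : PowerSeries ℤ) = PowerSeries.C k := by simp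
  rw [this, PowerSeries.coeff_C_mul]

theorem nc_sigma3_zero : sigma3 0 = 0 := by simp [sigma3]
theorem nc_sigma5_zero : sigma5 0 = 0 := by simp [sigma5]
theorem nc_sigma3_one : sigma3 1 = 1 := by simp [sigma3]
theorem nc_sigma5_one : sigma5 1 = 1 := by simp [sigma5]

theorem nc_e4Z : e4Z = 1 + 240 * ncS3 := by
  ext n
  have h := nc_coeff_int_mul 240 ncS3 n
  rw [map_add, show (240 : PowerSeries ℤ) = ((240 : ℤ) : PowerSeries ℤ) by norm_cast, h]
  simp only [e4Z, ncS3, PowerSeries.coeff_mk, PowerSeries.coeff_one]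
  split_ifs with h0
  · subst h0; simp [nc_sigma3_zero]
  · simp

theorem nc_e6Z : e6Z = 1 + 360 * ncS3 - 864 * ncA6 := by
  ext n
  have h := nc_coeff_int_mul 360 ncS3 n
  have h' := nc_coeff_int_mul 864 ncA6 n
  rw [map_sub, map_add, show (360 : PowerSeries ℤ) = ((360 : ℤ) : PowerSeries ℤ) by norm_cast, h,
    show (864 : PowerSeries ℤ) = ((864 : ℤ) : PowerSeries ℤ) by norm_cast, h']
  simp only [e6Z, ncS3, ncA6, PowerSeries.coeff_mk, PowerSeries.coeff_one]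
  obtain ⟨t, ht⟩ := nc_dvd n
  rw [ht, Int.mul_ediv_cancel_left _ (by norm_num)]
  split_ifs with h0
  · subst h0
    simp only [nc_sigma3_zero, nc_sigma5_zero] at ht ⊢
    omega
  · omega


theorem nc_expand_add {R : Type*} [CommRing R] (p : ℕ) (a b : PowerSeries R) :
    expand p (a + b) = expand p a + expand p b := by
  ext n
  simp only [expand, PowerSeries.coeff_mk, map_add]
  split_ifs <;> simp

theorem nc_expand_sub {R : Type*} [CommRing R] (p : ℕ) (a b : PowerSeries R) :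
    expand p (a - b) = expand p a - expand p b := by
  ext n
  simp only [expand, PowerSeries.coeff_mk, map_sub]
  split_ifs <;> simp

theorem nc_expand_int_mul (p : ℕ) (k : ℤ) (a : PowerSeries ℤ) :
    expand p ((k : PowerSeries ℤ) * a) = (k : PowerSeries ℤ) * expand p a := by
  ext n
  rw [nc_coeff_int_mul]
  simp only [expand, PowerSeries.coeff_mk, nc_coeff_int_mul]
  split_ifs <;> simp

theorem nc_expand_one (p : ℕ) (hp : p ≠ 0) : expand p (1 : PowerSeries ℤ) = 1 := by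
  ext n
  simp only [expand, PowerSeries.coeff_mk, PowerSeries.coeff_one]
  by_cases h : p ∣ n
  · obtain ⟨m, rfl⟩ := h
    rw [if_pos (Dvd.intro m rfl), Nat.mul_div_cancel_left _ (Nat.pos_of_ne_zero hp)]
    simp [hp]
  · rw [if_neg h, if_neg]
    rintro rfl
    exact h (dvd_zero p)

theorem nc_expand_e4Z (p : ℕ) (hp : p ≠ 0) : expand p e4Z = 1 + 240 * expand p ncS3 := by
  rw [nc_e4Z, nc_expand_add, nc_expand_one p hp,
    show (240 : PowerSeries ℤ) = ((240 : ℤ) : PowerSeries ℤ) by norm_cast, nc_expand_int_mul]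

theorem nc_expand_e6Z (p : ℕ) (hp : p ≠ 0) :
    expand p e6Z = 1 + 360 * expand p ncS3 - 864 * expand p ncA6 := by
  rw [nc_e6Z, nc_expand_sub, nc_expand_add, nc_expand_one p hp,
    show (360 : PowerSeries ℤ) = ((360 : ℤ) : PowerSeries ℤ) by norm_cast, nc_expand_int_mul,
    show (864 : PowerSeries ℤ) = ((864 : ℤ) : PowerSeries ℤ) by norm_cast, nc_expand_int_mul]

theorem nc_expand_toC (p : ℕ) (a : PowerSeries ℤ) : expand p (toC a) = toC (expand p a) := by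
  ext n
  simp only [expand, PowerSeries.coeff_mk, PowerSeries.coeff_map]
  split_ifs <;> simp

theorem nc_uOp_toC (p : ℕ) (a : PowerSeries ℤ) : uOp p (toC a) = toC (uOp p a) := by
  ext n
  simp only [uOp, PowerSeries.coeff_mk, PowerSeries.coeff_map]

theorem IsTwoExp.nc_cast {p : ℕ} {k k' : ℤ} {Φ : ℍ → ℂ} {a b : PowerSeries ℂ}
    (h : IsTwoExp p k Φ a b) (hk : k = k') : IsTwoExp p k' Φ a b := hk ▸ h

theorem nc_isTwoExp {p : ℕ} [Fact p.Prime] {G E4f E6f : ℍ → ℂ} {x x' e e' h h' : PowerSeries ℂ}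
    (hG : IsTwoExp p 2 G x x') (hE4 : IsTwoExp p 4 E4f e e') (hE6 : IsTwoExp p 6 E6f h h')
    (γ κ : ℂ) :
    ∃ Φ, IsTwoExp p 10 Φ (PowerSeries.C κ * ncP (PowerSeries.C γ) x e h)
      (PowerSeries.C κ * ncP (PowerSeries.C γ) x' e' h') := by
  have t1 := ((((hG.mul hG).mul hG).mul hG).nc_cast (k' := 8) (by norm_num)).smul (-1)
  have t2 := ((hE4.mul (hG.mul hG)).nc_cast (k' := 8) (by norm_num)).smul (6 * γ ^ 2)
  have t3 := ((hE6.mul hG).nc_cast (k' := 8) (by norm_num)).smul (-8 * γ ^ 3)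
  have t4 := ((hE4.mul hE4).nc_cast (k' := 8) (by norm_num)).smul (3 * γ ^ 4)
  have t := ((hG.mul (((t1.add t2).add t3).add t4)).nc_cast (k' := 10) (by norm_num)).smul κ
  have hC : ∀ y f g : PowerSeries ℂ, ncP (PowerSeries.C γ) y f g =
      y * (PowerSeries.C (-1) * (y * y * y * y) + PowerSeries.C (6 * γ ^ 2) * (f * (y * y)) +
        PowerSeries.C (-8 * γ ^ 3) * (g * y) + PowerSeries.C (3 * γ ^ 4) * (f * f)) := by
    intro y f g
    have h6 : (PowerSeries.C (6 : ℂ) : PowerSeries ℂ) = 6 := map_ofNat _ 6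
    have h8 : (PowerSeries.C (8 : ℂ) : PowerSeries ℂ) = 8 := map_ofNat _ 8
    have h3 : (PowerSeries.C (3 : ℂ) : PowerSeries ℂ) = 3 := map_ofNat _ 3
    simp only [ncP, map_mul, map_pow, map_neg, map_one, h6, h8, h3]
  rw [hC, hC]
  exact ⟨_, t⟩

theorem nc_C_intCast (k : ℤ) : (PowerSeries.C (k : ℂ) : PowerSeries ℂ) = toC (k : PowerSeries ℤ) := by
  simp

theorem nc_toC_mul (a b : PowerSeries ℤ) : toC (a * b) = toC a * toC b := map_mul _ a b

theorem nc_series (γ : ℤ) (ρ s a : PowerSeries ℤ) :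
    PowerSeries.C (1 / 256 : ℂ) * ncP (PowerSeries.C (γ : ℂ)) (toC ((γ : PowerSeries ℤ) + 8 * ρ))
      (toC (1 + 240 * s)) (toC (1 + 360 * s - 864 * a)) = toC (ncQ (γ : PowerSeries ℤ) ρ s a) := by
  have h1 : ncP (PowerSeries.C (γ : ℂ)) (toC ((γ : PowerSeries ℤ) + 8 * ρ))
      (toC (1 + 240 * s)) (toC (1 + 360 * s - 864 * a)) =
      toC (ncP (γ : PowerSeries ℤ) ((γ : PowerSeries ℤ) + 8 * ρ) (1 + 240 * s)
        (1 + 360 * s - 864 * a)) := by
    rw [nc_C_intCast]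
    simp only [ncP, map_mul, map_add, map_neg, map_pow, map_one, map_ofNat]
  rw [h1, ncP_eq, nc_toC_mul, ← mul_assoc]
  have h2 : PowerSeries.C (1 / 256 : ℂ) * toC (256 : PowerSeries ℤ) = 1 := by
    have : toC (256 : PowerSeries ℤ) = PowerSeries.C (256 : ℂ) := by
      rw [map_ofNat]
      exact map_ofNat (PowerSeries.map (Int.castRingHom ℂ)) 256
    rw [this, ← map_mul]
    norm_num
  rw [h2, one_mul]

theorem nc_coeff_sq_zero (s : PowerSeries ℤ) (m n : ℕ) (hs : ∀ i < m, PowerSeries.coeff i s = 0)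
    (hn : n < 2 * m) : PowerSeries.coeff n (s ^ 2) = 0 := by
  rw [sq, PowerSeries.coeff_mul]
  apply Finset.sum_eq_zero
  rintro ⟨i, j⟩ hij
  rw [Finset.HasAntidiagonal.mem_antidiagonal] at hij
  simp only at hij
  by_cases hi : i < m
  · rw [hs i hi, zero_mul]
  · rw [hs j (by omega), mul_zero]

theorem nc_coeff_form (s a W : PowerSeries ℤ) (n : ℕ) :
    PowerSeries.coeff n (s ^ 2 + a + 2 * W) =
      PowerSeries.coeff n (s ^ 2) + PowerSeries.coeff n a + 2 * PowerSeries.coeff n W := by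
  rw [map_add, map_add, show (2 : PowerSeries ℤ) = ((2 : ℤ) : PowerSeries ℤ) by norm_cast,
    nc_coeff_int_mul]

/-- NC3 -/
theorem case_two_norm (p : ℕ) [Fact p.Prime] (hp : 5 ≤ p) (hd : 8 ∣ p + 1)
    (F : ModularForm (Gamma0 p) 2) (c : ℤ) (hc : ¬ (2 : ℤ) ∣ c) (R : ℕ → ℤ)
    (h0 : (qExpansion 1 F).coeff 0 = c)
    (hR : ∀ n, 1 ≤ n → (qExpansion 1 F).coeff n = ((8 * R n : ℤ) : ℂ)) : False := by
  have hpp : p.Prime := Fact.out
  have hp0 : p ≠ 0 := hpp.ne_zero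
  have hpC : (p : ℂ) ≠ 0 := Nat.cast_ne_zero.2 hp0
  obtain ⟨t, ht⟩ := hd
  have htZ : (p : ℤ) + 1 = 8 * t := by exact_mod_cast ht
  obtain ⟨c', hc'⟩ : ∃ c' : ℤ, c = 2 * c' + 1 := ⟨c / 2, by omega⟩
  obtain ⟨g, hg⟩ : ∃ g : ℤ, (p : ℤ) * c = 1 + 2 * g :=
    ⟨8 * t * c' + 4 * t - c' - 1, by
      have : (p : ℤ) = 8 * t - 1 := by linarith
      rw [this, hc']; ring⟩
  set γ : ℤ := (p : ℤ) * c with hγ
  have hγA : (γ : PowerSeries ℤ) = 1 + 2 * (g : PowerSeries ℤ) := by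
    rw [hg]; push_cast; ring
  -- the series
  let fZ : PowerSeries ℤ := PowerSeries.mk fun n => if n = 0 then c else 8 * R n
  have hf : qExpansion 1 F = toC fZ := by
    ext n
    rw [PowerSeries.coeff_map, PowerSeries.coeff_mk]
    split_ifs with hn
    · subst hn; simpa using h0
    · simpa using hR n (Nat.pos_of_ne_zero hn)
  let ρ1 : PowerSeries ℤ := PowerSeries.mk fun n => if n = 0 then 0 else (p : ℤ) * R n
  let ρ2 : PowerSeries ℤ := PowerSeries.mk fun n => if n = 0 then -c * t else -R (p * n)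
  have hX1 : (γ : PowerSeries ℤ) + 8 * ρ1 = ((p : ℤ) : PowerSeries ℤ) * fZ := by
    ext n
    rw [map_add, show (8 : PowerSeries ℤ) = ((8 : ℤ) : PowerSeries ℤ) by norm_cast,
      nc_coeff_int_mul, nc_coeff_int_mul, PowerSeries.coeff_mk, PowerSeries.coeff_mk]
    have : (γ : PowerSeries ℤ) = PowerSeries.C γ := by simp
    rw [this, PowerSeries.coeff_C]
    split_ifs with hn
    · simp [hγ]
    · ring
  have hX2 : (γ : PowerSeries ℤ) + 8 * ρ2 = ((-1 : ℤ) : PowerSeries ℤ) * uOp p fZ := by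
    ext n
    rw [map_add, show (8 : PowerSeries ℤ) = ((8 : ℤ) : PowerSeries ℤ) by norm_cast,
      nc_coeff_int_mul, nc_coeff_int_mul, PowerSeries.coeff_mk, uOp, PowerSeries.coeff_mk,
      PowerSeries.coeff_mk]
    have : (γ : PowerSeries ℤ) = PowerSeries.C γ := by simp
    rw [this, PowerSeries.coeff_C]
    by_cases hn : n = 0
    · subst hn
      simp only [if_true, mul_zero]
      rw [hγ]
      linear_combination c * htZ
    · rw [if_neg hn, if_neg hn, if_neg (mul_ne_zero hp0 hn)]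
      ring
  have hG : IsTwoExp p 2 ((p : ℂ) • ⇑F) (toC ((γ : PowerSeries ℤ) + 8 * ρ1))
      (toC ((γ : PowerSeries ℤ) + 8 * ρ2)) := by
    have h1 := (isTwoExp_weight_two p F).smul (p : ℂ)
    rw [hf, nc_uOp_toC, ← mul_assoc, ← map_mul] at h1
    have e1 : PowerSeries.C (p : ℂ) * toC fZ = toC ((γ : PowerSeries ℤ) + 8 * ρ1) := by
      rw [hX1, nc_toC_mul, ← nc_C_intCast]
      simp
    have e2 : PowerSeries.C ((p : ℂ) * -(p : ℂ)⁻¹) * toC (uOp p fZ) =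
        toC ((γ : PowerSeries ℤ) + 8 * ρ2) := by
      rw [hX2, nc_toC_mul, ← nc_C_intCast]
      congr 2
      field_simp
      simp
    rw [e1, e2] at h1
    exact h1
  have hE4 : IsTwoExp p 4 E₄ (toC (1 + 240 * ncS3)) (toC (1 + 240 * expand p ncS3)) := by
    have h1 := isTwoExp_levelOne p E₄
    rw [qExpansion_E₄_eq, nc_expand_toC, nc_expand_e4Z p hp0, nc_e4Z] at h1
    exact h1
  have hE6 : IsTwoExp p 6 E₆ (toC (1 + 360 * ncS3 - 864 * ncA6))
      (toC (1 + 360 * expand p ncS3 - 864 * expand p ncA6)) := by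
    have h1 := isTwoExp_levelOne p E₆
    rw [qExpansion_E₆_eq, nc_expand_toC, nc_expand_e6Z p hp0, nc_e6Z] at h1
    exact h1
  obtain ⟨Φ, hΦ⟩ := nc_isTwoExp hG hE4 hE6 (γ : ℂ) (1 / 256)
  rw [nc_series, nc_series] at hΦ
  obtain ⟨W1, hW1⟩ := ncQ_mod_two (g : PowerSeries ℤ) ρ1 ncS3 ncA6
  obtain ⟨W2, hW2⟩ := ncQ_mod_two (g : PowerSeries ℤ) ρ2 (expand p ncS3) (expand p ncA6)
  rw [hγA, hW1, hW2] at hΦ
  have hs1 : ∀ i < 1, PowerSeries.coeff i ncS3 = 0 := by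
    intro i hi
    obtain rfl : i = 0 := by omega
    simp [ncS3, nc_sigma3_zero]
  have hexp : ∀ (a : PowerSeries ℤ), PowerSeries.coeff 0 a = 0 → ∀ i < p,
      PowerSeries.coeff i (expand p a) = 0 := by
    intro a ha i hi
    rw [expand, PowerSeries.coeff_mk]
    split_ifs with hdvd
    · obtain rfl : i = 0 := Nat.eq_zero_of_dvd_of_lt hdvd hi
      simpa using ha
    · rfl
  have hA0 : PowerSeries.coeff 0 ncA6 = 0 := by
    simp [ncA6, nc_sigma3_zero, nc_sigma5_zero]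
  have hA1 : PowerSeries.coeff 1 ncA6 = 1 := by
    simp [ncA6, nc_sigma3_one, nc_sigma5_one]
  have hΦ' : IsTwoExp p ((10 : ℕ) : ℤ) Φ (toC (ncS3 ^ 2 + ncA6 + 2 * W1))
      (toC (expand p ncS3 ^ 2 + expand p ncA6 + 2 * W2)) := hΦ
  have key := two_cusp_sturm (ℓ := 2) hΦ' 1 p ?_ ?_ ?_ ?_
  · omega
  · rw [nc_coeff_form, nc_coeff_sq_zero ncS3 1 1 hs1 (by norm_num), hA1]
    intro h
    have h2 : ((2 : ℕ) : ℤ) = 2 := rfl
    rw [h2] at h
    omega
  · intro i hi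
    obtain rfl : i = 0 := by omega
    rw [nc_coeff_form, nc_coeff_sq_zero ncS3 1 0 hs1 (by norm_num), hA0]
    exact ⟨PowerSeries.coeff 0 W1, by push_cast; ring⟩
  · rw [nc_coeff_form, nc_coeff_sq_zero (expand p ncS3) p p (hexp _ (hs1 0 (by norm_num)))
      (by omega)]
    have : PowerSeries.coeff p (expand p ncA6) = 1 := by
      rw [expand, PowerSeries.coeff_mk, if_pos dvd_rfl, Nat.div_self (Nat.pos_of_ne_zero hp0), hA1]
    rw [this]
    intro h
    have h2 : ((2 : ℕ) : ℤ) = 2 := rfl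
    rw [h2] at h
    omega
  · intro i hi
    rw [nc_coeff_form, nc_coeff_sq_zero (expand p ncS3) p i (hexp _ (hs1 0 (by norm_num)))
      (by omega), hexp _ hA0 i hi]
    exact ⟨PowerSeries.coeff i W2, by push_cast; ring⟩

end Fermat.Agent.S16

end
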