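import Mathlib
import Fermat.Statements.S16
import Fermat.Agent.S23.Main
import Fermat.Agent.S28.DeltaQExp
import Fermat.Prelude.Thm_ModularFormClass_qCoeff_heckeT
import Fermat.Prelude.Thm_CuspForm_intLattice_fg

/-!
# S16, upper bound, step (S1): `G ≡ c mod ℓ^a` in weight 2 forces `ℓ^a ∣ 24`.
-/

set_option autoImplicit false

namespace Fermat.Agent.S16.UBHecke

open UpperHalfPlane ModularForm CongruenceSubgroup Filter Topology ModularFormClass
open Fermat.Agent.S23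
open scoped MatrixGroups Manifold

/-- integrality of all `q`-coefficients -/
def IsInt {N : ℕ} {k : ℤ} (f : CuspForm (Gamma0 N) k) : Prop :=
  ∀ n, ∃ m : ℤ, coeffMap N k f n = m

theorem isInt_of_mem {N : ℕ} {k : ℤ} {f : CuspForm (Gamma0 N) k}
    (hf : f ∈ CuspForm.intLattice N k) : IsInt f := by
  unfold CuspForm.intLattice at hf
  induction hf using Submodule.span_induction with
  | mem x hx => exact hx
  | zero => intro n; exact ⟨0, by simp⟩
  | add x y _ _ hx hy =>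
    intro n
    obtain ⟨a, ha⟩ := hx n
    obtain ⟨b, hb⟩ := hy n
    exact ⟨a + b, by rw [map_add, Pi.add_apply, ha, hb]; push_cast; ring⟩
  | smul c x _ hx =>
    intro n
    obtain ⟨a, ha⟩ := hx n
    refine ⟨c * a, ?_⟩
    have : c • x = (c : ℂ) • x := by
      rw [Int.cast_smul_eq_zsmul]
    rw [this, map_smul, Pi.smul_apply, ha]; push_cast; simp

theorem mem_of_isInt {N : ℕ} {k : ℤ} {f : CuspForm (Gamma0 N) k} (hf : IsInt f) :
    f ∈ CuspForm.intLattice N k :=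
  Submodule.subset_span hf

/-- non-effective Sturm bound modulo a prime. -/
theorem exists_sturm (N : ℕ) [NeZero N] (k : ℤ) (ℓ : ℕ) (hℓ : ℓ ≠ 0) :
    ∃ B : ℕ, ∀ f : CuspForm (Gamma0 N) k, IsInt f →
      (∀ n ≤ B, ∃ m : ℤ, coeffMap N k f n = (ℓ : ℂ) * m) →
      ∀ n, ∃ m : ℤ, coeffMap N k f n = (ℓ : ℂ) * m := by
  classical
  obtain ⟨S, hS⟩ := CuspForm.intLattice_fg N k
  have hSint : ∀ g : S, IsInt (g : CuspForm (Gamma0 N) k) := fun g =>
    isInt_of_mem (hS ▸ Submodule.subset_span g.2)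
  choose cz hcz using hSint
  have : NeZero ℓ := ⟨hℓ⟩
  let w : (S → ZMod ℓ) → ℕ → ZMod ℓ := fun t n => ∑ g : S, t g * (cz g n : ZMod ℓ)
  let nt : (S → ZMod ℓ) → ℕ := fun t => if h : ∃ n, w t n ≠ 0 then h.choose else 0
  refine ⟨Finset.univ.sup nt, fun f hf hB n => ?_⟩
  have hfm : f ∈ Submodule.span ℤ (S : Set (CuspForm (Gamma0 N) k)) := hS ▸ mem_of_isInt hf
  rw [Submodule.mem_span_finset'] at hfm
  obtain ⟨m, hm⟩ := hfm
  have hco : ∀ n, coeffMap N k f n = ((∑ g : S, m g * cz g n : ℤ) : ℂ) := by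
    intro n
    rw [← hm, map_sum, Finset.sum_apply]
    push_cast
    refine Finset.sum_congr rfl fun g _ => ?_
    have : m g • (g : CuspForm (Gamma0 N) k) = (m g : ℂ) • (g : CuspForm (Gamma0 N) k) := by
      rw [Int.cast_smul_eq_zsmul]
    rw [this, map_smul, Pi.smul_apply, hcz g n, smul_eq_mul]
  let t : S → ZMod ℓ := fun g => (m g : ZMod ℓ)
  have hw : ∀ n, w t n = ((∑ g : S, m g * cz g n : ℤ) : ZMod ℓ) := by
    intro n; simp [w, t]
  have hzero : ∀ n, w t n = 0 := by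
    by_contra hne
    push Not at hne
    have hnt : nt t = hne.choose := dif_pos hne
    have h1 : nt t ≤ Finset.univ.sup nt := Finset.le_sup (Finset.mem_univ t)
    obtain ⟨m', hm'⟩ := hB _ h1
    rw [hco] at hm'
    have h2 : (∑ g : S, m g * cz g (nt t) : ℤ) = ℓ * m' := by exact_mod_cast hm'
    have h3 := hne.choose_spec
    rw [← hnt, hw, h2] at h3
    simp at h3
  have h4 := hzero n
  rw [hw, ZMod.intCast_zmod_eq_zero_iff_dvd] at h4
  obtain ⟨m', hm'⟩ := h4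
  exact ⟨m', by rw [hco, hm']; push_cast; ring⟩

/-- non-effective Sturm bound modulo a prime power. -/
theorem exists_sturm_pow (N : ℕ) [NeZero N] (k : ℤ) (ℓ : ℕ) (hℓ : ℓ ≠ 0) :
    ∃ B : ℕ, ∀ (a : ℕ) (f : CuspForm (Gamma0 N) k), IsInt f →
      (∀ n ≤ B, ∃ m : ℤ, coeffMap N k f n = (ℓ : ℂ) ^ a * m) →
      ∀ n, ∃ m : ℤ, coeffMap N k f n = (ℓ : ℂ) ^ a * m := by
  obtain ⟨B, hB⟩ := exists_sturm N k ℓ hℓ
  have hℓ' : (ℓ : ℂ) ≠ 0 := by exact_mod_cast hℓ
  refine ⟨B, fun a => ?_⟩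
  induction a with
  | zero =>
    intro f hf _ n
    obtain ⟨m, hm⟩ := hf n
    exact ⟨m, by simpa using hm⟩
  | succ a ih =>
    intro f hf h n
    have h1 : ∀ n, ∃ m : ℤ, coeffMap N k f n = (ℓ : ℂ) * m := by
      refine hB f hf fun n hn => ?_
      obtain ⟨m, hm⟩ := h n hn
      exact ⟨ℓ ^ a * m, by rw [hm]; push_cast; ring⟩
    have hco : ∀ n, coeffMap N k ((ℓ : ℂ)⁻¹ • f) n = (ℓ : ℂ)⁻¹ * coeffMap N k f n := by
      intro n; rw [map_smul, Pi.smul_apply, smul_eq_mul]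
    have h2 : IsInt ((ℓ : ℂ)⁻¹ • f) := by
      intro n
      obtain ⟨m, hm⟩ := h1 n
      exact ⟨m, by rw [hco, hm]; field_simp⟩
    have h3 : ∀ n ≤ B, ∃ m : ℤ, coeffMap N k ((ℓ : ℂ)⁻¹ • f) n = (ℓ : ℂ) ^ a * m := by
      intro n hn
      obtain ⟨m, hm⟩ := h n hn
      exact ⟨m, by rw [hco, hm, pow_succ]; field_simp⟩
    obtain ⟨m, hm⟩ := ih _ h2 h3 n
    refine ⟨m, ?_⟩
    rw [hco] at hm
    have : coeffMap N k f n = (ℓ : ℂ) * ((ℓ : ℂ)⁻¹ * coeffMap N k f n) := by field_simp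
    rw [this, hm]; ring

/-- the discriminant as a cusp form on `Γ₀(N)`. -/
theorem exists_delta (N : ℕ) [NeZero N] :
    ∃ D : CuspForm (Gamma0 N) 12, ⇑D = ModularForm.discriminant := by
  refine conj_exists_cuspForm N _ (CuspFormClass.holo CuspForm.discriminant) ?_ ?_
  · intro γ _
    exact SlashInvariantFormClass.slash_action_eq CuspForm.discriminant _ ⟨γ, rfl⟩
  · intro γ
    have : (ModularForm.discriminant ∣[(12 : ℤ)] γ) = ModularForm.discriminant :=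
      SlashInvariantFormClass.slash_action_eq CuspForm.discriminant _ ⟨γ, rfl⟩
    rw [this]
    exact discriminant_isZeroAtImInfty

/-- product of a modular form and a cusp form. -/
theorem exists_mul (N : ℕ) [NeZero N] {k₁ k₂ : ℤ} (G : ModularForm (Gamma0 N) k₁)
    (D : CuspForm (Gamma0 N) k₂) :
    ∃ H : CuspForm (Gamma0 N) (k₁ + k₂), ⇑H = ⇑G * ⇑D := by
  refine conj_exists_cuspForm N _ ((ModularFormClass.holo G).mul (CuspFormClass.holo D)) ?_ ?_
  · intro γ hγ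
    rw [mul_slash_SL2]
    have h1 : (⇑G ∣[k₁] γ) = G := SlashInvariantFormClass.slash_action_eq G _ ⟨γ, hγ, rfl⟩
    have h2 : (⇑D ∣[k₂] γ) = D := SlashInvariantFormClass.slash_action_eq D _ ⟨γ, hγ, rfl⟩
    rw [h1, h2]
  · intro γ
    rw [mul_slash_SL2]
    have h1 : IsBoundedAtImInfty (⇑G ∣[k₁] γ) := ModularFormClass.bdd_at_infty_slash G γ
    have h2 : IsZeroAtImInfty (⇑D ∣[k₂] γ) := CuspFormClass.zero_at_infty_slash D γ
    exact BoundedAtFilter.mul_zeroAtFilter h1 h2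

/-- multiplying an integral series by a series `≡ c mod M`. -/
theorem coeff_mul_cong (g d : PowerSeries ℂ) (c : ℤ) (M : ℂ) (h0 : g.coeff 0 = c)
    (hg : ∀ n ≥ 1, ∃ x : ℤ, g.coeff n = M * x) (hd : ∀ n, ∃ x : ℤ, d.coeff n = x) (n : ℕ) :
    ∃ x : ℤ, (g * d).coeff n = c * d.coeff n + M * x := by
  classical
  choose dz hdz using hd
  have hg' : ∀ n, ∃ x : ℤ, g.coeff n = (if n = 0 then (c : ℂ) else 0) + M * x := by
    intro n
    by_cases hn : n = 0
    · subst hn; exact ⟨0, by simp [h0]⟩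
    · obtain ⟨x, hx⟩ := hg n (Nat.one_le_iff_ne_zero.mpr hn)
      exact ⟨x, by simp [hn, hx]⟩
  choose gz hgz using hg'
  refine ⟨∑ ij ∈ Finset.HasAntidiagonal.antidiagonal n, gz ij.1 * dz ij.2, ?_⟩
  rw [PowerSeries.coeff_mul]
  have : ∀ ij ∈ Finset.HasAntidiagonal.antidiagonal n, g.coeff ij.1 * d.coeff ij.2 =
      (if ij.1 = 0 then (c : ℂ) * d.coeff ij.2 else 0) + M * ((gz ij.1 * dz ij.2 : ℤ) : ℂ) := by
    intro ij _
    rw [hgz ij.1, hdz ij.2]
    split_ifs <;> push_cast <;> ring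
  rw [Finset.sum_congr rfl this, Finset.sum_add_distrib, ← Finset.mul_sum]
  congr 1
  · rw [Finset.sum_eq_single (0, n)]
    · simp
    · rintro ⟨i, j⟩ hij hne
      have : i ≠ 0 := by
        rintro rfl
        have hij' : 0 + j = n := Finset.HasAntidiagonal.mem_antidiagonal.mp hij
        exact hne (by rw [← hij', zero_add])
      simp [this]
    · intro h; simp at h
  · push_cast; rfl

theorem delta_int (n : ℕ) : ∃ m : ℤ, (qExpansion 1 ModularForm.discriminant).coeff n = m := by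
  rw [Fermat.Agent.S28.qExpansion_discriminant]
  cases n with
  | zero => exact ⟨0, by simp⟩
  | succ n => exact ⟨_, by rw [PowerSeries.coeff_succ_X_mul, PowerSeries.coeff_map]; rfl⟩

theorem delta_zero : (qExpansion 1 ModularForm.discriminant).coeff 0 = 0 := by
  rw [Fermat.Agent.S28.qExpansion_discriminant]; simp

theorem key (p : ℕ) [Fact p.Prime] (ℓ : ℕ) (hℓ : ℓ ≠ 0) (a : ℕ)
    (G : ModularForm (Gamma0 p) 2) (c : ℤ) (h0 : qCoeff G 0 = c)
    (hG : ∀ n ≥ 1, ∃ x : ℤ, qCoeff G n = (ℓ : ℂ) ^ a * x) :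
    ∃ B : ℕ, ∀ q : ℕ, q.Prime → q ≠ p → B < q →
      ∃ m : ℤ, c * (q : ℤ) ^ 11 * ((q : ℤ) ^ 2 - 1) = (ℓ : ℤ) ^ a * m := by
  classical
  obtain ⟨B, hB⟩ := exists_sturm_pow p (2 + 12) ℓ hℓ
  obtain ⟨D, hD⟩ := exists_delta p
  refine ⟨B, fun q hq hqp hBq => ?_⟩
  have hqN : ¬ q ∣ p := fun h => hqp ((Nat.prime_dvd_prime_iff_eq hq Fact.out).mp h)
  have h1Γ := CongruenceSubgroup.one_mem_strictPeriods_Gamma0 p
  obtain ⟨A, hA⟩ := exists_mul p G D
  set D' := CuspForm.heckeTLin 12 hq hqN D with hD'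
  obtain ⟨A', hA'⟩ := exists_mul p G D'
  choose tz htz using delta_int
  -- coefficients of `D`
  have cD : ∀ n, (qExpansion 1 D).coeff n = tz n := by
    intro n; rw [hD, htz]
  -- coefficients of `D'`
  have cD' : ∀ n, (qExpansion 1 D').coeff n =
      ((tz (n * q) + if q ∣ n then (q : ℤ) ^ 11 * tz (n / q) else 0 : ℤ) : ℂ) := by
    intro n
    have := ModularFormClass.qCoeff_heckeT D h1Γ hq.ne_zero n
    rw [← CuspForm.coe_heckeTLin_apply 12 hq hqN D, coeffHeckeT_apply] at this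
    unfold qCoeff at this
    rw [← hD', cD, cD] at this
    rw [this]
    split_ifs <;> push_cast <;> norm_num
  -- coefficients of `A`, `A'`
  have cA : ∀ n, ∃ x : ℤ, (qExpansion 1 A).coeff n = c * tz n + (ℓ : ℂ) ^ a * x := by
    intro n
    rw [hA, ModularForm.qExpansion_mul_coe one_pos h1Γ G D, ← cD]
    exact coeff_mul_cong _ _ c _ h0 hG (fun n => ⟨_, cD n⟩) n
  have cA' : ∀ n, ∃ x : ℤ, (qExpansion 1 A').coeff n =
      c * ((tz (n * q) + if q ∣ n then (q : ℤ) ^ 11 * tz (n / q) else 0 : ℤ) : ℂ)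
        + (ℓ : ℂ) ^ a * x := by
    intro n
    rw [hA', ModularForm.qExpansion_mul_coe one_pos h1Γ G D', ← cD']
    exact coeff_mul_cong _ _ c _ h0 hG (fun n => ⟨_, cD' n⟩) n
  choose xA hxA using cA
  choose xA' hxA' using cA'
  have cTA : ∀ n, (qExpansion 1 (CuspForm.heckeTLin (2 + 12) hq hqN A)).coeff n =
      (c * tz (n * q) + (ℓ : ℂ) ^ a * xA (n * q)) +
        if q ∣ n then (q : ℂ) ^ 13 * (c * tz (n / q) + (ℓ : ℂ) ^ a * xA (n / q)) else 0 := by
    intro n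
    have := ModularFormClass.qCoeff_heckeT A h1Γ hq.ne_zero n
    rw [← CuspForm.coe_heckeTLin_apply (2 + 12) hq hqN A, coeffHeckeT_apply] at this
    unfold qCoeff at this
    rw [this, hxA, hxA]
    split_ifs <;> norm_num
  set Ξ := CuspForm.heckeTLin (2 + 12) hq hqN A - A' with hΞ
  have cΞ : ∀ n, coeffMap p (2 + 12) Ξ n =
      (((if q ∣ n then c * (q : ℤ) ^ 11 * ((q : ℤ) ^ 2 - 1) * tz (n / q) else 0) +
        (ℓ : ℤ) ^ a * (xA (n * q) + (if q ∣ n then (q : ℤ) ^ 13 * xA (n / q) else 0) - xA' n) : ℤ) : ℂ) := by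
    intro n
    rw [hΞ, map_sub, Pi.sub_apply, coeffMap_apply, coeffMap_apply, cTA, hxA']
    split_ifs <;> push_cast <;> ring
  have hint : IsInt Ξ := fun n => ⟨_, cΞ n⟩
  have hlow : ∀ n ≤ B, ∃ m : ℤ, coeffMap p (2 + 12) Ξ n = (ℓ : ℂ) ^ a * m := by
    intro n hn
    rw [cΞ]
    by_cases hn0 : n = 0
    · subst hn0
      have ht0 : tz 0 = 0 := by
        have := htz 0
        rw [delta_zero] at this
        exact_mod_cast this.symm
      refine ⟨(xA (0 * q) + (if q ∣ 0 then (q : ℤ) ^ 13 * xA (0 / q) else 0) - xA' 0), ?_⟩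
      simp only [dvd_zero, if_true, Nat.zero_div, ht0, mul_zero, zero_add]
      push_cast
      rfl
    · have hqn : ¬ q ∣ n := fun h => by
        have := Nat.le_of_dvd (Nat.pos_of_ne_zero hn0) h
        omega
      refine ⟨(xA (n * q) + (if q ∣ n then (q : ℤ) ^ 13 * xA (n / q) else 0) - xA' n), ?_⟩
      simp only [hqn, if_false, zero_add]
      push_cast
      rfl
  obtain ⟨m, hm⟩ := hB a Ξ hint hlow q
  rw [cΞ] at hm
  have ht1 : tz 1 = 1 := by
    have := htz 1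
    rw [discriminant_qExpansion_coeff_one] at this
    exact_mod_cast this.symm
  simp only [dvd_refl, if_true, Nat.div_self hq.pos, ht1, mul_one] at hm
  have hm' : c * (q : ℤ) ^ 11 * ((q : ℤ) ^ 2 - 1) +
      (ℓ : ℤ) ^ a * (xA (q * q) + (q : ℤ) ^ 13 * xA 1 - xA' q) = (ℓ : ℤ) ^ a * m := by
    exact_mod_cast hm
  exact ⟨m - (xA (q * q) + (q : ℤ) ^ 13 * xA 1 - xA' q), by linarith⟩

end Fermat.Agent.S16.UBHecke

namespace Fermat.Agent.S16

open UpperHalfPlane ModularForm CongruenceSubgroup ModularFormClass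

/-- **(S1)** A weight two form on `Γ₀(p)` with integral coefficients which is congruent to a unit
constant modulo `ℓ^a` can only exist when `ℓ^a ∣ 24`. -/
theorem dvd_24_of_cong (p : ℕ) [Fact p.Prime] (ℓ : ℕ) (hℓ : ℓ.Prime) (a : ℕ)
    (G : ModularForm (Gamma0 p) 2) (c : ℤ) (hc : ¬ (ℓ : ℤ) ∣ c) (h0 : qCoeff G 0 = c)
    (hG : ∀ n ≥ 1, ∃ x : ℤ, qCoeff G n = (ℓ : ℂ) ^ a * x) : ℓ ^ a ∣ 24 := by
  obtain ⟨B, hB⟩ := UBHecke.key p ℓ hℓ.ne_zero a G c h0 hG
  have hℓZ : Prime (ℓ : ℤ) := Nat.prime_iff_prime_int.mp hℓ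
  -- the residue class
  obtain ⟨t, ht, ht24⟩ : ∃ t : ℤ, IsCoprime t (ℓ : ℤ) ∧ (t ^ 2 - 1) ∣ 24 := by
    by_cases h2 : ℓ = 2
    · subst h2
      exact ⟨3, by decide +kernel, by norm_num⟩
    · refine ⟨2, ?_, by norm_num⟩
      have : Nat.Coprime 2 ℓ := (Nat.coprime_primes Nat.prime_two hℓ).mpr (Ne.symm h2)
      exact_mod_cast Nat.isCoprime_iff_coprime.mpr this
  have hcop : IsCoprime t ((ℓ ^ a : ℕ) : ℤ) := by
    push_cast
    exact ht.pow_right
  obtain ⟨q, hqgt, hq, hqt⟩ := Nat.forall_exists_prime_gt_and_zmodEq (max B (max p ℓ))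
    (pow_ne_zero a hℓ.ne_zero) hcop
  have hqB : B < q := lt_of_le_of_lt (le_max_left _ _) hqgt
  have hqp : q ≠ p := by
    have : p < q := lt_of_le_of_lt ((le_max_left _ _).trans (le_max_right _ _)) hqgt
    omega
  have hqℓ : q ≠ ℓ := by
    have : ℓ < q := lt_of_le_of_lt ((le_max_right _ _).trans (le_max_right _ _)) hqgt
    omega
  obtain ⟨m, hm⟩ := hB q hq hqp hqB
  have h1 : IsCoprime ((ℓ : ℤ) ^ a) (c * (q : ℤ) ^ 11) := by
    apply IsCoprime.pow_left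
    apply IsCoprime.mul_right
    · exact (Prime.coprime_iff_not_dvd hℓZ).mpr hc
    · apply IsCoprime.pow_right
      have : Nat.Coprime ℓ q := (Nat.coprime_primes hℓ hq).mpr (Ne.symm hqℓ)
      exact_mod_cast Nat.isCoprime_iff_coprime.mpr this
  have h2 : (ℓ : ℤ) ^ a ∣ (q : ℤ) ^ 2 - 1 := h1.dvd_of_dvd_mul_left ⟨m, hm⟩
  have h3 : (ℓ : ℤ) ^ a ∣ (q : ℤ) ^ 2 - t ^ 2 := by
    have := (hqt.pow 2).symm.dvd
    push_cast at this
    exact this
  have h4 : (ℓ : ℤ) ^ a ∣ t ^ 2 - 1 := by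
    have := dvd_sub h2 h3
    simpa using this
  have h5 : (ℓ : ℤ) ^ a ∣ 24 := h4.trans ht24
  exact_mod_cast h5

end Fermat.Agent.S16
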