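import Fermat.Agent.S16.Master
import Fermat.Agent.S16.NormCaseC
import Fermat.Agent.S16.UBHecke

set_option autoImplicit false

open UpperHalfPlane ModularForm CongruenceSubgroup ModularGroup ModularCurve CuspForm
open scoped MatrixGroups ModularForm Manifold

noncomputable section

namespace Fermat.Agent.S16

theorem noConst_sigmaP_one (p : ℕ) [Fact p.Prime] : sigmaP p 1 = 1 := by
  have hp : 2 ≤ p := (Fact.out : p.Prime).two_le
  have h : ¬ p ∣ 1 := by
    intro h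
    have := Nat.le_of_dvd one_pos h
    omega
  simp [sigmaP, Finset.filter_singleton, h]

theorem noConst_sigma3_one : sigma3 1 = 1 := by
  simp [sigma3]

theorem noConst_gcd (p : ℕ) : Nat.gcd (p - 1) 12 = Nat.gcd ((p - 1) % 12) 12 := by
  rw [Nat.gcd_comm, Nat.gcd_rec]

/-- the master identity at `n = 1`. -/
theorem noConst_mi_one (p : ℕ) [Fact p.Prime] (F : ModularForm (Gamma0 p) 2) (c M : ℤ)
    (R : ℕ → ℤ) (h0 : (qExpansion 1 F).coeff 0 = c)
    (hR : ∀ n, 1 ≤ n → (qExpansion 1 F).coeff n = ((M * R n : ℤ) : ℂ)) :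
    ∃ K : ℤ, 24 * ((p : ℤ) + 1) * c + M * ((p : ℤ) ^ 2 - 1) * R 1 + 24 * M * K
      = 240 * ((p : ℤ) ^ 2 - 1) * c := by
  obtain ⟨K, hK⟩ := master_identity p F c M R h0 hR 1 le_rfl
  rw [noConst_sigmaP_one, noConst_sigma3_one] at hK
  exact ⟨K, by simpa using hK⟩

/-- UB9-NoConst -/
theorem no_const (p : ℕ) [Fact p.Prime] (hp : 5 ≤ p) (ℓ : ℕ) (hℓ : ℓ.Prime)
    (F : ModularForm (Gamma0 p) 2) (c : ℤ) (hc : ¬ (ℓ : ℤ) ∣ c) (R : ℕ → ℤ)
    (h0 : (qExpansion 1 F).coeff 0 = c)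
    (hR : ∀ n, 1 ≤ n →
      (qExpansion 1 F).coeff n = (((24 / Nat.gcd (p - 1) 12 * ℓ : ℕ) * R n : ℤ) : ℂ)) : False := by
  have hpp : p.Prime := Fact.out
  have hodd : p % 2 = 1 := by
    rcases hpp.eq_two_or_odd with h | h
    · omega
    · exact h
  have h3 : p % 3 ≠ 0 := by
    intro h
    have : 3 ∣ p := Nat.dvd_of_mod_eq_zero h
    rcases (Nat.dvd_prime hpp).1 this with h | h <;> omega
  set r : ℕ := 24 / Nat.gcd (p - 1) 12 with hr
  -- general tool: congruence modulo `ℓ ^ a` when `ℓ ^ a ∣ r * ℓ`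
  have tool : ∀ a : ℕ, ℓ ^ a ∣ r * ℓ → ℓ ^ a ∣ 24 := by
    intro a ha
    obtain ⟨w, hw⟩ := ha
    refine dvd_24_of_cong p ℓ hℓ a F c hc h0 (fun n hn => ⟨w * R n, ?_⟩)
    show (qExpansion 1 F).coeff n = _
    rw [hR n hn, hw]
    push_cast
    ring
  by_cases hℓ5 : 5 ≤ ℓ
  · have h := tool 1 (by rw [pow_one]; exact Dvd.intro_left r rfl)
    rw [pow_one] at h
    have hle : ℓ ≤ 24 := Nat.le_of_dvd (by norm_num) h
    interval_cases ℓ <;> revert hℓ h <;> decide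
  have hℓ23 : ℓ = 2 ∨ ℓ = 3 := by
    have := hℓ.two_le
    have h4 : ℓ ≠ 4 := by
      rintro rfl
      revert hℓ
      decide
    omega
  have hs : (p - 1) % 12 < 12 := Nat.mod_lt _ (by norm_num)
  have hrval : r = 24 / Nat.gcd ((p - 1) % 12) 12 := by rw [hr, noConst_gcd]
  obtain ⟨u, hu⟩ : ∃ u : ℕ, p = 24 * u + p % 24 := ⟨p / 24, (Nat.div_add_mod p 24).symm⟩
  have hp24 : p % 24 < 24 := Nat.mod_lt _ (by norm_num)
  rcases hℓ23 with rfl | rfl
  · -- `ℓ = 2`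
    by_cases h4 : p % 4 = 1
    · -- `4 ∣ r * 2`
      have hr4 : ∃ w : ℤ, ((r * 2 : ℕ) : ℤ) = 4 * w := by
        have h12 : (p - 1) % 12 = 0 ∨ (p - 1) % 12 = 4 ∨ (p - 1) % 12 = 8 := by omega
        rcases h12 with h | h | h <;> rw [hrval, h]
        · exact ⟨1, by norm_num⟩
        · exact ⟨3, by norm_num⟩
        · exact ⟨3, by norm_num⟩
      obtain ⟨w, hw⟩ := hr4
      obtain ⟨K, hK⟩ := noConst_mi_one p F c ((r * 2 : ℕ) : ℤ) R h0 hR
      rw [hw] at hK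
      obtain ⟨v, hv⟩ : ∃ v : ℤ, (p : ℤ) = 4 * v + 1 := ⟨(p / 4 : ℕ), by push_cast; omega⟩
      have hc2 : c % 2 = 1 := by
        have : ¬ (2 : ℤ) ∣ c := by exact_mod_cast hc
        omega
      obtain ⟨c', hc'⟩ : ∃ c' : ℤ, c = 2 * c' + 1 := ⟨c / 2, by omega⟩
      rw [hv, hc'] at hK
      ring_nf at hK
      omega
    · have h43 : p % 4 = 3 := by omega
      have hr8 : ∃ w : ℤ, ((r * 2 : ℕ) : ℤ) = 8 * w := by
        have h12 : (p - 1) % 12 = 2 ∨ (p - 1) % 12 = 6 ∨ (p - 1) % 12 = 10 := by omega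
        rcases h12 with h | h | h <;> rw [hrval, h]
        · exact ⟨3, by norm_num⟩
        · exact ⟨1, by norm_num⟩
        · exact ⟨3, by norm_num⟩
      obtain ⟨w, hw⟩ := hr8
      have hc2' : ¬ (2 : ℤ) ∣ c := by exact_mod_cast hc
      by_cases h8 : p % 8 = 3
      · obtain ⟨K, hK⟩ := noConst_mi_one p F c ((r * 2 : ℕ) : ℤ) R h0 hR
        rw [hw] at hK
        obtain ⟨v, hv⟩ : ∃ v : ℤ, (p : ℤ) = 8 * v + 3 := ⟨(p / 8 : ℕ), by push_cast; omega⟩
        obtain ⟨c', hc'⟩ : ∃ c' : ℤ, c = 2 * c' + 1 := ⟨c / 2, by omega⟩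
        rw [hv, hc'] at hK
        ring_nf at hK
        omega
      · have h87 : 8 ∣ p + 1 := by omega
        refine case_two_norm p hp h87 F c hc2' (fun n => w * R n) h0 (fun n hn => ?_)
        rw [hR n hn, hw]
        push_cast
        ring
  · -- `ℓ = 3`
    by_cases h31 : p % 3 = 1
    · obtain ⟨K, hK⟩ := noConst_mi_one p F c ((r * 3 : ℕ) : ℤ) R h0 hR
      obtain ⟨v, hv⟩ : ∃ v : ℤ, (p : ℤ) = 3 * v + 1 := ⟨(p / 3 : ℕ), by push_cast; omega⟩
      have hc3 : ¬ (3 : ℤ) ∣ c := by exact_mod_cast hc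
      push_cast at hK
      rw [hv] at hK
      -- reduce modulo 9
      have h9 : (9 : ℤ) ∣ 24 * (3 * v + 1 + 1) * c := by
        have e : 24 * (3 * v + 1 + 1) * c = 9 * (80 * (3 * v ^ 2 + 2 * v) * c
            - (r : ℤ) * (3 * v ^ 2 + 2 * v) * R 1 - 8 * (r : ℤ) * K) := by
          linear_combination hK
        exact ⟨_, e⟩
      have h3' : (3 : ℤ) ∣ (3 * v + 2) * c * 8 := by
        obtain ⟨z, hz⟩ := h9
        exact ⟨z, by linarith⟩
      have hp3 : Prime (3 : ℤ) := Int.prime_three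
      rcases hp3.dvd_or_dvd h3' with h | h
      · rcases hp3.dvd_or_dvd h with h | h
        · omega
        · exact hc3 h
      · omega
    · have h32 : p % 3 = 2 := by omega
      have hr3 : 3 ∣ r := by
        have h12 : (p - 1) % 12 = 4 ∨ (p - 1) % 12 = 10 := by omega
        rcases h12 with h | h <;> rw [hrval, h] <;> decide
      have h := tool 2 (by
        obtain ⟨w, hw⟩ := hr3
        exact ⟨w, by rw [hw]; ring⟩)
      revert h
      decide

end Fermat.Agent.S16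

end
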