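import Fermat.Agent.S16.Cosets
import Fermat.Prelude.Sol.S_UpperHalfPlane_qCoeff_heckeT
import Fermat.Prelude.Thm_CongruenceSubgroup_one_mem_strictPeriods_Gamma0

set_option autoImplicit false

open UpperHalfPlane ModularForm CongruenceSubgroup ModularGroup ModularCurve CuspForm
open scoped MatrixGroups ModularForm Manifold

noncomputable section

namespace Fermat.Agent.S16

namespace Norm

open P2MW.S_UpperHalfPlane_qCoeff_heckeT.M4cP1W2

/-- `τ ↦ F (p τ)` is nice. -/
theorem isNice_comp_dil {p : ℕ} (hp : p ≠ 0) {F : ℍ → ℂ} (hF : S23.IsNice F) :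
    S23.IsNice (fun τ => F (dil p τ)) := by
  have h1 : (fun τ => F (dil p τ)) = F ∣[(1 : ℤ)] heckeDiagMatrix p := by
    funext τ
    rw [slash_heckeDiagMatrix_apply 1 hp]
    simp [dil]
  refine ⟨?_, ?_, ?_⟩
  · refine periodic_comp_ofComplex_of_vadd fun τ => ?_
    exact apply_eq_of_coe_eq_add_nat hF.1 p (coe_heckeDiagMatrix_smul_vadd hp τ)
  · rw [h1]; exact hF.2.1.slash 1 _
  · rw [h1]; exact hF.2.2.slash 1 (heckeDiagMatrix_one_zero p)

theorem qExpansion_comp_dil {p : ℕ} (hp : p ≠ 0) {F : ℍ → ℂ} (hF : S23.IsNice F) :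
    qExpansion 1 (fun τ => F (dil p τ)) = expand p (qExpansion 1 F) := by
  have hN := isNice_comp_dil hp hF
  ext n
  symm
  rw [expand, PowerSeries.coeff_mk]
  refine qExpansion_coeff_unique' (g := fun τ => F (dil p τ))
    (c := fun n => if p ∣ n then (qExpansion 1 F).coeff (n / p) else 0)
    hN.2.1.continuous hN.analyticAt (fun τ => ?_) n
  have h := hasSum_diag (p := p) hp (f := F) hF.1 hF.2.1 hF.2.2 1 τ
  simp only [sub_self, zpow_zero, one_mul] at h
  convert h using 1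
  · funext m
    split_ifs
    · rfl
    · simp
  · rfl

/-- `τ ↦ G (τ + j / p)`. -/
def shift (p j : ℕ) (G : ℍ → ℂ) : ℍ → ℂ := fun τ => G (heckeMatrix p j • dil p τ)

theorem coe_shift_arg {p : ℕ} (hp : p ≠ 0) (j : ℕ) (τ : ℍ) :
    ((heckeMatrix p j • dil p τ : ℍ) : ℂ) = τ + j / p := by
  have hp' : (p : ℂ) ≠ 0 := by exact_mod_cast hp
  rw [coe_heckeMatrix_smul hp, dil, coe_heckeDiagMatrix_smul hp]
  field_simp

theorem isNice_shift {p : ℕ} (hp : p ≠ 0) (j : ℕ) {G : ℍ → ℂ} (hG : S23.IsNice G) :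
    S23.IsNice (shift p j G) := by
  have hp' : (p : ℂ) ≠ 0 := by exact_mod_cast hp
  have h1 : shift p j G = (p : ℂ) • ((G ∣[(1 : ℤ)] heckeMatrix p j) ∣[(1 : ℤ)] heckeDiagMatrix p) := by
    funext τ
    rw [Pi.smul_apply, slash_heckeDiagMatrix_apply 1 hp, slash_heckeMatrix_apply 1 hp]
    simp only [shift, dil, sub_self, zpow_zero, one_mul, smul_eq_mul]
    rw [← mul_assoc, mul_inv_cancel₀ hp', one_mul]
  refine ⟨?_, ?_, ?_⟩
  · refine periodic_comp_ofComplex_of_vadd fun τ => ?_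
    refine apply_eq_of_coe_eq_add_nat hG.1 1 ?_
    rw [coe_shift_arg hp, coe_shift_arg hp, coe_vadd]
    push_cast
    ring
  · rw [h1]
    exact ((hG.2.1.slash 1 _).slash 1 _).const_smul _
  · rw [h1]
    exact ((hG.2.2.slash 1 (heckeMatrix_one_zero p j)).slash 1
      (heckeDiagMatrix_one_zero p)).const_smul_left _

theorem qExpansion_shift {p : ℕ} (hp : p ≠ 0) (j : ℕ) {G : ℍ → ℂ} (hG : S23.IsNice G) :
    qExpansion 1 (shift p j G) =
      PowerSeries.rescale (Complex.exp (2 * Real.pi * Complex.I * j / p)) (qExpansion 1 G) := by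
  have hN := isNice_shift hp j hG
  ext n
  symm
  rw [PowerSeries.coeff_rescale]
  refine qExpansion_coeff_unique' (g := shift p j G)
    (c := fun n => Complex.exp (2 * Real.pi * Complex.I * j / p) ^ n * (qExpansion 1 G).coeff n)
    hN.2.1.continuous hN.analyticAt (fun τ => ?_) n
  have h := hasSum_qExpansion one_pos hG.1 hG.2.1 hG.2.2 (heckeMatrix p j • dil p τ)
  have hq : Function.Periodic.qParam 1 ((heckeMatrix p j • dil p τ : ℍ) : ℂ) =
      Function.Periodic.qParam 1 (τ : ℂ) * Complex.exp (2 * Real.pi * Complex.I * j / p) := by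
    rw [qParam_one, qParam_one, coe_shift_arg hp, ← Complex.exp_add]
    congr 1
    ring
  rw [hq] at h
  convert h using 1
  · funext m
    simp only [smul_eq_mul, mul_pow]
    ring
  · rfl

end Norm

/-- UB5-Norm -/
theorem exists_norm {p : ℕ} [Fact p.Prime] {k : ℤ} {Φ : ℍ → ℂ} {a b : PowerSeries ℂ}
    (h : IsTwoExp p k Φ a b) :
    ∃ t : ModularForm 𝒮ℒ (k * (p + 1)), expand p (qExpansion 1 t) =
      expand p a * ∏ j ∈ Finset.range p,
        PowerSeries.rescale (Complex.exp (2 * Real.pi * Complex.I * j / p)) b := by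
  obtain ⟨f, rfl⟩ := h.mf
  have hp : p.Prime := Fact.out
  have hp0 : p ≠ 0 := hp.ne_zero
  have : NeZero p := ⟨hp0⟩
  classical
  let _ : Fintype (SL(2, ℤ) ⧸ Gamma0 p) := Fintype.ofEquiv _ (Cosets.equiv p)
  have hVF := ES.isVF_vfOf (Gamma0 p) k f (Cosets.slash_invariant f)
  obtain ⟨t', ht'⟩ := hVF.exists_prod
  have hcard : Fintype.card (SL(2, ℤ) ⧸ Gamma0 p) = p + 1 := by
    rw [← Fintype.card_congr (Cosets.equiv p), Fintype.card_option, Fintype.card_fin]
  have hk : k * (Fintype.card (SL(2, ℤ) ⧸ Gamma0 p) : ℤ) = k * (p + 1) := by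
    rw [hcard]; push_cast; ring
  have hf : S23.IsNice f :=
    S23.isNice_of_modularFormClass (CongruenceSubgroup.one_mem_strictPeriods_Gamma0 p) f
  have hg : S23.IsNice (atZero p k f) := isNice_atZero p f
  have hfun : ∀ z, t' z = f z * ∏ j ∈ Finset.range p, atZero p k f (heckeMatrix p j • z) := by
    intro z
    rw [ht', Finset.prod_apply, ← Equiv.prod_comp (Cosets.equiv p), Fintype.prod_option,
      Cosets.vfOf_equiv_none]
    simp only [Cosets.vfOf_equiv_some]
    rw [Fin.prod_univ_eq_prod_range (fun j => atZero p k f (heckeMatrix p j • z))]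
  refine ⟨ModularForm.mcast hk t', ?_⟩
  have hcoe : (⇑(ModularForm.mcast hk t') : ℍ → ℂ) = ⇑t' := rfl
  have ht : S23.IsNice t' := S23.isNice_of_modularFormClass one_mem_strictPeriods_SL t'
  rw [hcoe, ← Norm.qExpansion_comp_dil hp0 ht, ← h.inf, ← h.zero, ← Norm.qExpansion_comp_dil hp0 hf]
  simp only [← Norm.qExpansion_shift hp0 _ hg]
  -- use the algebra hom `qHom`
  let x : S23.niceSub := ⟨fun τ => f (dil p τ), Norm.isNice_comp_dil hp0 hf⟩
  let y : ℕ → S23.niceSub := fun j => ⟨Norm.shift p j (atZero p k f), Norm.isNice_shift hp0 j hg⟩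
  have h1 : S23.qHom (x * ∏ j ∈ Finset.range p, y j) =
      S23.qHom x * ∏ j ∈ Finset.range p, S23.qHom (y j) := by
    rw [map_mul, map_prod]
  have h2 : ((x * ∏ j ∈ Finset.range p, y j : S23.niceSub) : ℍ → ℂ) = fun τ => t' (dil p τ) := by
    funext τ
    rw [hfun, Subalgebra.coe_mul, SubmonoidClass.coe_finsetProd, Pi.mul_apply, Finset.prod_apply]
    rfl
  rw [S23.qHom_apply, h2] at h1
  exact h1

end Fermat.Agent.S16

end
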