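import Fermat.Agent.S16.LBDefs

/-!
# S16 LB5a: dimension bound for homs killing all elements of small trace, over ANY field
-/

set_option autoImplicit false

namespace Fermat.Agent.S16

open CongruenceSubgroup Matrix.SpecialLinearGroup ModularGroup
open scoped MatrixGroups

namespace SmallBound

section Abstract

variable {k : Type} [Field k] {Q : Type} [MulAction SL(2, ℤ) Q]

/-- pull back of functions on `Q` along the action of `g`. -/
def pb (k : Type) [Field k] (Q : Type) [MulAction SL(2, ℤ) Q] (g : SL(2, ℤ)) :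
    (Q → k) →ₗ[k] (Q → k) :=
  LinearMap.funLeft k k (fun q => g • q)

lemma pb_apply (g : SL(2, ℤ)) (v : Q → k) (q : Q) : pb k Q g v q = v (g • q) := rfl

lemma pb_mul (g h : SL(2, ℤ)) (v : Q → k) : pb k Q (g * h) v = pb k Q h (pb k Q g v) := by
  ext q
  simp only [pb_apply, mul_smul]

lemma pb_one (v : Q → k) : pb k Q 1 v = v := by
  ext q
  simp only [pb_apply, one_smul]

/-- the (right) cocycle condition. -/
def IsCoc (b : SL(2, ℤ) → (Q → k)) : Prop :=
  ∀ g h, b (g * h) = pb k Q h (b g) + b h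

lemma IsCoc.one {b : SL(2, ℤ) → (Q → k)} (hb : IsCoc b) : b 1 = 0 := by
  have h := hb 1 1
  rw [mul_one, pb_one] at h
  simpa using h

lemma IsCoc.inv {b : SL(2, ℤ) → (Q → k)} (hb : IsCoc b) {g : SL(2, ℤ)} (hg : b g = 0) :
    b g⁻¹ = 0 := by
  have h := hb g g⁻¹
  rw [mul_inv_cancel, hb.one, hg, map_zero, zero_add] at h
  exact h.symm

lemma IsCoc.eq_zero {b : SL(2, ℤ) → (Q → k)} (hb : IsCoc b) (hS : b S = 0) (hT : b T = 0)
    (g : SL(2, ℤ)) : b g = 0 := by
  have hg : g ∈ Subgroup.closure ({S, T} : Set SL(2, ℤ)) := by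
    rw [SpecialLinearGroup.SL2Z_generators]
    exact Subgroup.mem_top g
  induction hg using Subgroup.closure_induction with
  | mem x hx =>
    rcases hx with rfl | hx
    · exact hS
    · rw [Set.mem_singleton_iff] at hx
      rw [hx]; exact hT
  | one => exact hb.one
  | mul x y _ _ hx hy => rw [hb x y, hx, hy, map_zero, add_zero]
  | inv x _ hx => exact hb.inv hx

/-- the `g`-coboundaries. -/
def Bd (k : Type) [Field k] (Q : Type) [MulAction SL(2, ℤ) Q] (g : SL(2, ℤ)) :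
    Submodule k (Q → k) :=
  LinearMap.range (pb k Q g - LinearMap.id)

lemma sub_mem_Bd (g : SL(2, ℤ)) (v : Q → k) : pb k Q g v - v ∈ Bd k Q g := ⟨v, rfl⟩

lemma sub_mem_Bd' (g : SL(2, ℤ)) (v : Q → k) : v - pb k Q g v ∈ Bd k Q g := by
  rw [← neg_sub]
  exact (Bd k Q g).neg_mem (sub_mem_Bd g v)

/-- The cycle lemma: a cocycle vanishing at the fixed points of all powers of `g` restricts to a
coboundary on the powers of `g`. -/
lemma IsCoc.mem_Bd {b : SL(2, ℤ) → (Q → k)} (hb : IsCoc b) (g : SL(2, ℤ))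
    (h0 : ∀ h ∈ Subgroup.zpowers g, ∀ q : Q, h • q = q → b h q = 0) : b g ∈ Bd k Q g := by
  classical
  let r : Q → Q := fun q =>
    Quotient.out (Quotient.mk'' q : MulAction.orbitRel.Quotient (Subgroup.zpowers g) Q)
  have hr : ∀ q, ∃ h : Subgroup.zpowers g, h • r q = q := by
    intro q
    have h1 : (Quotient.mk'' q : MulAction.orbitRel.Quotient (Subgroup.zpowers g) Q)
        = Quotient.mk'' (r q) := (Quotient.out_eq' _).symm
    rw [Quotient.eq'', MulAction.orbitRel_apply] at h1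
    exact h1
  choose h hh using hr
  have hrg : ∀ q, r (g • q) = r q := by
    intro q
    show Quotient.out _ = Quotient.out _
    congr 1
    apply Quotient.sound'
    rw [MulAction.orbitRel_apply]
    exact ⟨⟨g, Subgroup.mem_zpowers g⟩, rfl⟩
  refine ⟨fun q => b (h q) (r q), ?_⟩
  ext q
  simp only [LinearMap.sub_apply, LinearMap.id_apply, Pi.sub_apply, pb_apply]
  rw [hrg]
  set h' : SL(2, ℤ) := (h (g • q) : SL(2, ℤ)) with hh'
  set h1 : SL(2, ℤ) := (h q : SL(2, ℤ)) with hh1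
  have e1 : h1 • r q = q := hh q
  have e2 : h' • r q = g • q := by
    have := hh (g • q)
    rw [hrg] at this
    exact this
  have hfix : (h'⁻¹ * (g * h1)) • r q = r q := by
    rw [mul_smul, mul_smul, e1, ← e2, inv_smul_smul]
  have hmem : h'⁻¹ * (g * h1) ∈ Subgroup.zpowers g :=
    Subgroup.mul_mem _ (Subgroup.inv_mem _ (h (g • q)).2)
      (Subgroup.mul_mem _ (Subgroup.mem_zpowers g) (h q).2)
  have e3 : b (g * h1) (r q) = b h' (r q) := by
    have : g * h1 = h' * (h'⁻¹ * (g * h1)) := by group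
    rw [this, hb, Pi.add_apply, pb_apply, hfix, h0 _ hmem _ hfix, add_zero]
  have e4 : b (g * h1) (r q) = b g q + b h1 (r q) := by
    rw [hb, Pi.add_apply, pb_apply, e1]
  rw [← e3, e4]
  ring

/-- the dimension of the `g`-coboundaries. -/
lemma finrank_Bd_add_le [Finite Q] (g : SL(2, ℤ)) :
    Module.finrank k (Bd k Q g)
      + Nat.card (MulAction.orbitRel.Quotient (Subgroup.zpowers g) Q) ≤ Nat.card Q := by
  classical
  have := Fintype.ofFinite Q
  have : Finite (MulAction.orbitRel.Quotient (Subgroup.zpowers g) Q) := Quotient.finite _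
  have := Fintype.ofFinite (MulAction.orbitRel.Quotient (Subgroup.zpowers g) Q)
  have h1 := LinearMap.finrank_range_add_finrank_ker (pb k Q g - LinearMap.id)
  rw [Module.finrank_fintype_fun_eq_card, ← Nat.card_eq_fintype_card] at h1
  let ι : (MulAction.orbitRel.Quotient (Subgroup.zpowers g) Q → k) →ₗ[k]
      LinearMap.ker (pb k Q g - LinearMap.id) :=
    LinearMap.codRestrict _ (LinearMap.funLeft k k (fun q => Quotient.mk'' q)) (by
      intro f
      rw [LinearMap.mem_ker]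
      ext q
      simp only [LinearMap.sub_apply, LinearMap.id_apply, Pi.sub_apply, pb_apply,
        LinearMap.funLeft_apply, Pi.zero_apply]
      rw [sub_eq_zero]
      congr 1
      apply Quotient.sound'
      rw [MulAction.orbitRel_apply]
      exact ⟨⟨g, Subgroup.mem_zpowers g⟩, rfl⟩)
  have hι : Function.Injective ι := by
    intro f f' hff
    funext ω
    induction ω using Quotient.inductionOn' with
    | h q =>
      have := congrArg (fun z : LinearMap.ker (pb k Q g - LinearMap.id) => (z : Q → k) q) hff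
      exact this
  have h2 := LinearMap.finrank_le_finrank_of_injective hι
  rw [Module.finrank_fintype_fun_eq_card, ← Nat.card_eq_fintype_card] at h2
  have h3 : Module.finrank k (Bd k Q g)
      = Module.finrank k (LinearMap.range (pb k Q g - LinearMap.id)) := rfl
  omega

end Abstract

section Concrete

variable {k : Type} [Field k] (Γ : Subgroup SL(2, ℤ))

/-- the `Γ`-valued cocycle attached to the section `Quotient.out`. -/
noncomputable def gam (g : SL(2, ℤ)) (q : SL(2, ℤ) ⧸ Γ) : Γ :=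
  ⟨(Quotient.out (g • q))⁻¹ * (g * Quotient.out q), by
    rw [← QuotientGroup.eq, QuotientGroup.out_eq']
    conv_lhs => rw [← QuotientGroup.out_eq' q]
    rfl⟩

lemma gam_mul (g h : SL(2, ℤ)) (q : SL(2, ℤ) ⧸ Γ) :
    gam Γ (g * h) q = gam Γ g (h • q) * gam Γ h q := by
  apply Subtype.ext
  simp only [gam, mul_smul, Subgroup.coe_mul]
  group

/-- the cocycle attached to a homomorphism `φ : Γ → k`. -/
noncomputable def coc (φ : Additive Γ →+ k) (g : SL(2, ℤ)) : (SL(2, ℤ) ⧸ Γ) → k :=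
  fun q => φ (Additive.ofMul (gam Γ g q))

lemma coc_isCoc (φ : Additive Γ →+ k) : IsCoc (coc Γ φ) := by
  intro g h
  ext q
  simp only [coc, gam_mul, ofMul_mul, map_add, Pi.add_apply, pb_apply]

/-- the cocycle attached to a homomorphism plus a coboundary. -/
noncomputable def bb (φ : Additive Γ →+ k) (v : (SL(2, ℤ) ⧸ Γ) → k) (g : SL(2, ℤ)) :
    (SL(2, ℤ) ⧸ Γ) → k :=
  coc Γ φ g + pb k _ g v - v

lemma bb_isCoc (φ : Additive Γ →+ k) (v : (SL(2, ℤ) ⧸ Γ) → k) : IsCoc (bb Γ φ v) := by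
  intro g h
  simp only [bb, coc_isCoc Γ φ g h, pb_mul, map_add, map_sub]
  abel

lemma trace_gam {g : SL(2, ℤ)} {q : SL(2, ℤ) ⧸ Γ} (hg : g • q = q) :
    (((gam Γ g q : Γ) : SL(2, ℤ)) : Matrix (Fin 2) (Fin 2) ℤ).trace
      = (g : Matrix (Fin 2) (Fin 2) ℤ).trace := by
  simp only [gam, hg]
  rw [Matrix.SpecialLinearGroup.coe_mul, Matrix.trace_mul_comm,
    ← Matrix.SpecialLinearGroup.coe_mul, mul_inv_cancel_right]

lemma bb_mem_Bd {φ : Additive Γ →+ k} (hφ : φ ∈ smallHoms k Γ) (v : (SL(2, ℤ) ⧸ Γ) → k)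
    {g : SL(2, ℤ)} (hg : ∀ h ∈ Subgroup.zpowers g, SmallTrace h) :
    bb Γ φ v g ∈ Bd k (SL(2, ℤ) ⧸ Γ) g := by
  have h1 : coc Γ φ g ∈ Bd k (SL(2, ℤ) ⧸ Γ) g := by
    apply (coc_isCoc Γ φ).mem_Bd g
    intro h hh q hq
    apply hφ
    show _ ^ 2 ≤ 4
    rw [trace_gam Γ hq]
    exact hg h hh
  have h2 : bb Γ φ v g = coc Γ φ g + (pb k _ g v - v) := by
    simp only [bb]
    abel
  rw [h2]
  exact Submodule.add_mem _ h1 (sub_mem_Bd g v)

lemma phi_eq_coc (φ : Additive Γ →+ k) (γ : Γ) :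
    ∃ g : SL(2, ℤ), g • ((1 : SL(2, ℤ)) : SL(2, ℤ) ⧸ Γ) = ((1 : SL(2, ℤ)) : SL(2, ℤ) ⧸ Γ) ∧
      coc Γ φ g ((1 : SL(2, ℤ)) : SL(2, ℤ) ⧸ Γ) = φ (Additive.ofMul γ) := by
  set q0 : SL(2, ℤ) ⧸ Γ := ((1 : SL(2, ℤ)) : SL(2, ℤ) ⧸ Γ) with hq0
  set r0 : SL(2, ℤ) := Quotient.out q0 with hr0
  have hr0mem : r0 ∈ Γ := by
    have h : ((r0 : SL(2, ℤ)) : SL(2, ℤ) ⧸ Γ) = ((1 : SL(2, ℤ)) : SL(2, ℤ) ⧸ Γ) :=
      QuotientGroup.out_eq' q0
    rw [QuotientGroup.eq] at h
    simpa using Γ.inv_mem h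
  have hfix : (r0 * γ * r0⁻¹) • q0 = q0 := by
    have hmem : r0 * γ * r0⁻¹ ∈ Γ := Γ.mul_mem (Γ.mul_mem hr0mem γ.2) (Γ.inv_mem hr0mem)
    rw [hq0]
    change (((r0 * γ * r0⁻¹) * 1 : SL(2, ℤ)) : SL(2, ℤ) ⧸ Γ) = _
    rw [QuotientGroup.eq]
    simpa using Γ.inv_mem hmem
  refine ⟨r0 * γ * r0⁻¹, hfix, ?_⟩
  simp only [coc]
  congr 2
  apply Subtype.ext
  simp only [gam, hfix]
  rw [← hr0]
  group

end Concrete

section Matrices

lemma smallTrace_zpowers_T : ∀ h ∈ Subgroup.zpowers (T : SL(2, ℤ)), SmallTrace h := by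
  rintro _ ⟨n, rfl⟩
  show _ ^ 2 ≤ 4
  simp only
  rw [ModularGroup.coe_T_zpow n]
  simp [Matrix.trace_fin_two]

lemma smallTrace_zpowers_S : ∀ h ∈ Subgroup.zpowers (S : SL(2, ℤ)), SmallTrace h := by
  rintro _ ⟨n, rfl⟩
  have h4 : (S : SL(2, ℤ)) ^ (4 : ℤ) = 1 := by decide
  simp only
  rw [zpow_eq_zpow_emod n h4]
  have h1 : 0 ≤ n % 4 := Int.emod_nonneg _ (by norm_num)
  have h2 : n % 4 < 4 := Int.emod_lt_of_pos _ (by norm_num)
  generalize n % 4 = m at h1 h2
  interval_cases m <;> (unfold SmallTrace; decide)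

lemma smallTrace_zpowers_ST : ∀ h ∈ Subgroup.zpowers (S * T : SL(2, ℤ)), SmallTrace h := by
  rintro _ ⟨n, rfl⟩
  have h6 : (S * T : SL(2, ℤ)) ^ (6 : ℤ) = 1 := by decide
  simp only
  rw [zpow_eq_zpow_emod n h6]
  have h1 : 0 ≤ n % 6 := Int.emod_nonneg _ (by norm_num)
  have h2 : n % 6 < 6 := Int.emod_lt_of_pos _ (by norm_num)
  generalize n % 6 = m at h1 h2
  interval_cases m <;> (unfold SmallTrace; decide)

end Matrices

section LinAlg

variable {k : Type} [Field k] {V : Type} [AddCommGroup V] [Module k V] [FiniteDimensional k V]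

lemma finrank_comap_le {E : Type} [AddCommGroup E] [Module k E] [FiniteDimensional k E]
    (f : E →ₗ[k] V) (Z : Submodule k V) :
    Module.finrank k (Z.comap f) + Module.finrank k (LinearMap.range f)
      ≤ Module.finrank k E + Module.finrank k Z := by
  set W := Z.comap f with hW
  set f' : W →ₗ[k] V := f.domRestrict W with hf'
  have h1 := LinearMap.finrank_range_add_finrank_ker f'
  have h2 := LinearMap.finrank_range_add_finrank_ker f
  have h3 : Module.finrank k (LinearMap.range f') ≤ Module.finrank k Z := by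
    apply Submodule.finrank_mono
    rintro _ ⟨w, rfl⟩
    exact w.2
  have h4 : Module.finrank k (LinearMap.ker f') ≤ Module.finrank k (LinearMap.ker f) := by
    let ι : LinearMap.ker f' →ₗ[k] LinearMap.ker f :=
      LinearMap.codRestrict _ (W.subtype.comp (LinearMap.ker f').subtype) (by
        intro x
        have := x.2
        rw [LinearMap.mem_ker] at this ⊢
        exact this)
    apply LinearMap.finrank_le_finrank_of_injective (f := ι)
    intro x y hxy
    have := congrArg (fun z : LinearMap.ker f => (z : E)) hxy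
    exact Subtype.ext (Subtype.ext this)
  omega

lemma abstract_count {H E : Type} [AddCommGroup H] [Module k H]
    [AddCommGroup E] [Module k E] [FiniteDimensional k E]
    (f : E →ₗ[k] V) (Z : Submodule k V) (θ : (H × V) →ₗ[k] E) (ev : V →ₗ[k] k)
    (hθ : ∀ x, f (θ x) ∈ Z) (hinj : ∀ x, θ x = 0 → ev x.2 = 0 → x = 0) :
    Module.Finite k H ∧
      Module.finrank k H + Module.finrank k V + Module.finrank k (LinearMap.range f)
        ≤ Module.finrank k E + Module.finrank k Z + 1 := by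
  let θ' : (H × V) →ₗ[k] ((Z.comap f) × k) :=
    (LinearMap.codRestrict (Z.comap f) θ hθ).prod (ev.comp (LinearMap.snd _ _ _))
  have hθ' : Function.Injective θ' := by
    rw [injective_iff_map_eq_zero]
    intro x hx
    apply hinj x
    · exact congrArg (fun z : (Z.comap f) × k => (z.1 : E)) hx
    · exact congrArg (fun z : (Z.comap f) × k => z.2) hx
  have hfin : Module.Finite k H :=
    Module.Finite.of_injective (θ'.comp (LinearMap.inl _ _ _))
      (hθ'.comp LinearMap.inl_injective)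
  refine ⟨hfin, ?_⟩
  have e1 := LinearMap.finrank_le_finrank_of_injective hθ'
  rw [Module.finrank_prod, Module.finrank_prod, Module.finrank_self] at e1
  have e2 := finrank_comap_le f Z
  omega

end LinAlg

section Codim

variable {k : Type} [Field k] {Q : Type} [MulAction SL(2, ℤ) Q]

/-- the map `(x, y) ↦ T x + y` on `S`-coboundaries times `T`-coboundaries. -/
def fXY (k : Type) [Field k] (Q : Type) [MulAction SL(2, ℤ) Q] :
    (Bd k Q S × Bd k Q T) →ₗ[k] (Q → k) :=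
  ((pb k Q T).comp (Bd k Q S).subtype).coprod (Bd k Q T).subtype

lemma fXY_apply (x : Bd k Q S) (y : Bd k Q T) :
    fXY k Q (x, y) = pb k Q T (x : Q → k) + (y : Q → k) := rfl

lemma finrank_le_range_fXY [Finite Q] [MulAction.IsPretransitive SL(2, ℤ) Q] [Nonempty Q] :
    Module.finrank k (Q → k) ≤ Module.finrank k (LinearMap.range (fXY k Q)) + 1 := by
  classical
  have := Fintype.ofFinite Q
  set M := LinearMap.range (fXY k Q) with hM
  have hq := Submodule.finrank_quotient_add_finrank M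
  have hT : ∀ v : Q → k, M.mkQ (pb k Q T v) = M.mkQ v := by
    intro v
    symm
    rw [← sub_eq_zero, ← map_sub, Submodule.mkQ_apply, Submodule.Quotient.mk_eq_zero]
    refine ⟨(0, ⟨v - pb k Q T v, sub_mem_Bd' T v⟩), ?_⟩
    rw [fXY_apply]
    simp
  have hS : ∀ v : Q → k, M.mkQ (pb k Q S v) = M.mkQ v := by
    intro v
    rw [← hT (pb k Q S v), ← hT v]
    symm
    rw [← sub_eq_zero, ← map_sub, Submodule.mkQ_apply, Submodule.Quotient.mk_eq_zero]
    refine ⟨(⟨v - pb k Q S v, sub_mem_Bd' S v⟩, 0), ?_⟩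
    rw [fXY_apply]
    simp
  have hall : ∀ (g : SL(2, ℤ)) (v : Q → k), M.mkQ (pb k Q g v) = M.mkQ v := by
    intro g
    have hg : g ∈ Subgroup.closure ({S, T} : Set SL(2, ℤ)) := by
      rw [SpecialLinearGroup.SL2Z_generators]
      exact Subgroup.mem_top g
    induction hg using Subgroup.closure_induction with
    | mem x hx =>
      rcases hx with rfl | hx
      · exact hS
      · rw [Set.mem_singleton_iff] at hx
        rw [hx]; exact hT
    | one => intro v; rw [pb_one]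
    | mul x y _ _ hx hy => intro v; rw [pb_mul, hy, hx]
    | inv x _ hx =>
      intro v
      rw [← hx (pb k Q x⁻¹ v), ← pb_mul, inv_mul_cancel, pb_one]
  obtain ⟨q0⟩ := ‹Nonempty Q›
  have hsingle : ∀ q : Q, M.mkQ (fun j => if q = j then (1 : k) else 0)
      = M.mkQ (fun j => if q0 = j then (1 : k) else 0) := by
    intro q
    obtain ⟨g, hg⟩ := MulAction.exists_smul_eq SL(2, ℤ) q q0
    rw [← hall g (fun j => if q0 = j then (1 : k) else 0)]
    congr 1
    ext j
    simp only [pb_apply]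
    by_cases h : q = j
    · subst h
      simp [hg]
    · have : q0 ≠ g • j := by
        intro h'
        apply h
        rw [← hg] at h'
        exact smul_left_cancel g h'
      simp [h, this]
  have hle : Module.finrank k ((Q → k) ⧸ M) ≤ 1 := by
    apply finrank_le_one (M.mkQ (fun j => if q0 = j then (1 : k) else 0))
    intro w
    obtain ⟨v, rfl⟩ := M.mkQ_surjective w
    refine ⟨∑ q, v q, ?_⟩
    rw [LinearMap.pi_apply_eq_sum_univ M.mkQ v, Finset.sum_smul]
    refine Finset.sum_congr rfl fun q _ => ?_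
    rw [hsingle q]
  omega

end Codim

section Main

variable {k : Type} [Field k] (Γ : Subgroup SL(2, ℤ))

/-- `bb` as a linear map in `(φ, v)`. -/
noncomputable def bbL (g : SL(2, ℤ)) :
    ((smallHoms k Γ) × ((SL(2, ℤ) ⧸ Γ) → k)) →ₗ[k] ((SL(2, ℤ) ⧸ Γ) → k) where
  toFun x := bb Γ (x.1 : Additive Γ →+ k) x.2 g
  map_add' x y := by
    ext q
    simp only [bb, coc, Prod.fst_add, Prod.snd_add, Submodule.coe_add, AddMonoidHom.add_apply,
      Pi.add_apply, Pi.sub_apply, map_add]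
    ring
  map_smul' c x := by
    ext q
    simp only [bb, coc, Prod.smul_fst, Prod.smul_snd, Submodule.coe_smul, AddMonoidHom.smul_apply,
      Pi.add_apply, Pi.sub_apply, map_smul, Pi.smul_apply, RingHom.id_apply, smul_eq_mul]
    ring

lemma bbL_apply (g : SL(2, ℤ)) (x : (smallHoms k Γ) × ((SL(2, ℤ) ⧸ Γ) → k)) :
    bbL Γ g x = bb Γ (x.1 : Additive Γ →+ k) x.2 g := rfl

/-- the map `(φ, v) ↦ (b(S), b(T))`. -/
noncomputable def theta :
    ((smallHoms k Γ) × ((SL(2, ℤ) ⧸ Γ) → k)) →ₗ[k]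
      (Bd k (SL(2, ℤ) ⧸ Γ) S × Bd k (SL(2, ℤ) ⧸ Γ) T) :=
  (LinearMap.codRestrict _ (bbL Γ S) (fun x => bb_mem_Bd Γ x.1.2 x.2 smallTrace_zpowers_S)).prod
    (LinearMap.codRestrict _ (bbL Γ T) (fun x => bb_mem_Bd Γ x.1.2 x.2 smallTrace_zpowers_T))

lemma fXY_theta (x : (smallHoms k Γ) × ((SL(2, ℤ) ⧸ Γ) → k)) :
    fXY k _ (theta Γ x) = bb Γ (x.1 : Additive Γ →+ k) x.2 (S * T) := by
  rw [bb_isCoc Γ _ _ S T]
  rfl

lemma theta_injective (x : (smallHoms k Γ) × ((SL(2, ℤ) ⧸ Γ) → k))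
    (h : theta Γ x = 0) (h3 : x.2 ((1 : SL(2, ℤ)) : SL(2, ℤ) ⧸ Γ) = 0) : x = 0 := by
  obtain ⟨⟨φ, hφ⟩, v⟩ := x
  have h1 : bb Γ φ v S = 0 := by
    have := congrArg (fun z : Bd k (SL(2, ℤ) ⧸ Γ) S × Bd k (SL(2, ℤ) ⧸ Γ) T =>
      (z.1 : (SL(2, ℤ) ⧸ Γ) → k)) h
    exact this
  have h2 : bb Γ φ v T = 0 := by
    have := congrArg (fun z : Bd k (SL(2, ℤ) ⧸ Γ) S × Bd k (SL(2, ℤ) ⧸ Γ) T =>
      (z.2 : (SL(2, ℤ) ⧸ Γ) → k)) h
    exact this
  simp only at h3
  have hall := (bb_isCoc Γ φ v).eq_zero h1 h2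
  have hφ0 : φ = 0 := by
    apply AddMonoidHom.ext
    intro γ
    obtain ⟨g, hg1, hg2⟩ := phi_eq_coc Γ φ (Additive.toMul γ)
    have := congrFun (hall g) ((1 : SL(2, ℤ)) : SL(2, ℤ) ⧸ Γ)
    simp only [bb, Pi.add_apply, Pi.sub_apply, pb_apply, hg1, hg2, Pi.zero_apply] at this
    simpa using this
  have hv0 : v = 0 := by
    ext q
    obtain ⟨g, hg⟩ := MulAction.exists_smul_eq SL(2, ℤ) (((1 : SL(2, ℤ)) : SL(2, ℤ) ⧸ Γ)) q
    have := congrFun (hall g) ((1 : SL(2, ℤ)) : SL(2, ℤ) ⧸ Γ)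
    simp only [bb, Pi.add_apply, Pi.sub_apply, pb_apply, hg, Pi.zero_apply, hφ0, coc,
      AddMonoidHom.zero_apply, h3] at this
    simpa using this
  subst hφ0
  subst hv0
  rfl

end Main

end SmallBound

open SmallBound in
theorem finrank_smallHoms_le (k : Type) [Field k] (Γ : Subgroup SL(2, ℤ)) [Γ.FiniteIndex]
    (hneg : -1 ∈ Γ) :
    Module.Finite k (smallHoms k Γ) ∧
    Module.finrank k (smallHoms k Γ)
      + Nat.card (MulAction.orbitRel.Quotient (Subgroup.zpowers S) (SL(2, ℤ) ⧸ Γ))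
      + Nat.card (MulAction.orbitRel.Quotient (Subgroup.zpowers (S * T)) (SL(2, ℤ) ⧸ Γ))
      + Nat.card (MulAction.orbitRel.Quotient (Subgroup.zpowers T) (SL(2, ℤ) ⧸ Γ))
      ≤ Γ.index + 2 := by
  classical
  have : Finite (SL(2, ℤ) ⧸ Γ) := Subgroup.finite_quotient_of_finiteIndex
  have := Fintype.ofFinite (SL(2, ℤ) ⧸ Γ)
  have hμ : Module.finrank k ((SL(2, ℤ) ⧸ Γ) → k) = Γ.index := by
    rw [Module.finrank_fintype_fun_eq_card, Subgroup.index, Nat.card_eq_fintype_card]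
  obtain ⟨hfin, e1⟩ := abstract_count (fXY k (SL(2, ℤ) ⧸ Γ)) (Bd k (SL(2, ℤ) ⧸ Γ) (S * T))
    (theta Γ) (LinearMap.proj (((1 : SL(2, ℤ)) : SL(2, ℤ) ⧸ Γ)))
    (fun x => by
      rw [fXY_theta]
      exact bb_mem_Bd Γ x.1.2 x.2 smallTrace_zpowers_ST)
    (fun x h h3 => theta_injective Γ x h h3)
  refine ⟨hfin, ?_⟩
  rw [Module.finrank_prod, hμ] at e1
  have e3 := finrank_le_range_fXY (k := k) (Q := SL(2, ℤ) ⧸ Γ)
  rw [hμ] at e3
  have e4 : Module.finrank k (Bd k (SL(2, ℤ) ⧸ Γ) S)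
      + Nat.card (MulAction.orbitRel.Quotient (Subgroup.zpowers S) (SL(2, ℤ) ⧸ Γ)) ≤ Γ.index :=
    finrank_Bd_add_le (k := k) (Q := SL(2, ℤ) ⧸ Γ) S
  have e5 : Module.finrank k (Bd k (SL(2, ℤ) ⧸ Γ) (S * T))
      + Nat.card (MulAction.orbitRel.Quotient (Subgroup.zpowers (S * T)) (SL(2, ℤ) ⧸ Γ))
        ≤ Γ.index :=
    finrank_Bd_add_le (k := k) (Q := SL(2, ℤ) ⧸ Γ) (S * T)
  have e6 : Module.finrank k (Bd k (SL(2, ℤ) ⧸ Γ) T)
      + Nat.card (MulAction.orbitRel.Quotient (Subgroup.zpowers T) (SL(2, ℤ) ⧸ Γ)) ≤ Γ.index :=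
    finrank_Bd_add_le (k := k) (Q := SL(2, ℤ) ⧸ Γ) T
  omega

end Fermat.Agent.S16
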